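import Mathlib

/-!
# Descent: the final size contradiction, and proportionality of rational triples

* `size_contradiction` : `16^(p-1) (C^p - A^p) ≠ B^p` for `C = A + B`, `B ≠ 0`, `p ≥ 3` odd.
* `eq_or_neg_of_padicValRat` : rational numbers with the same valuations are equal up to sign.
* `exists_primitive` : primitive integral pair proportional to a pair of rational numbers.
-/

set_option autoImplicit false

namespace Fermat.Agent.Descent

theorem pow_add_pow_le_pow {a b : ℤ} (ha : 0 ≤ a) (hb : 0 ≤ b) {p : ℕ} (hp : p ≠ 0) :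
    a ^ p + b ^ p ≤ (a + b) ^ p :=
  pow_add_pow_le ha hb hp

/-- `|B|^p ≤ 2^(p-1) |C^p - A^p|` for `C = A + B`, `p` odd. -/
theorem size_aux {p : ℕ} (hp : Odd p) {A B : ℤ} (hB : 0 ≤ B) :
    B ^ p ≤ 2 ^ (p - 1) * ((A + B) ^ p - A ^ p) := by
  have hp0 : p ≠ 0 := by rintro rfl; exact absurd hp (by decide)
  have h1 : (1 : ℤ) ≤ 2 ^ (p - 1) := one_le_pow₀ (by norm_num)
  have hneg : ∀ x : ℤ, (-x) ^ p = -(x ^ p) := fun x => hp.neg_pow x
  rcases le_or_gt 0 A with hA | hA
  · have h2 := pow_add_pow_le_pow hA hB hp0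
    have h3 : B ^ p ≤ (A + B) ^ p - A ^ p := by linarith
    have h4 : 0 ≤ B ^ p := pow_nonneg hB p
    calc B ^ p ≤ 1 * ((A + B) ^ p - A ^ p) := by rw [one_mul]; exact h3
      _ ≤ 2 ^ (p - 1) * ((A + B) ^ p - A ^ p) :=
        mul_le_mul_of_nonneg_right h1 (h4.trans h3)
  · rcases le_or_gt 0 (A + B) with hC | hC
    · have h2 := add_pow_le (a := A + B) (b := -A) hC (by linarith) p
      rw [hneg, ← sub_eq_add_neg, ← sub_eq_add_neg] at h2
      have h3 : A + B - A = B := by ring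
      rwa [h3] at h2
    · have h2 := pow_add_pow_le_pow (a := -(A + B)) (b := B) (by linarith) hB hp0
      have h3 : -(A + B) + B = -A := by ring
      rw [h3, hneg, hneg] at h2
      have h3 : B ^ p ≤ (A + B) ^ p - A ^ p := by linarith
      have h4 : 0 ≤ B ^ p := pow_nonneg hB p
      calc B ^ p ≤ 1 * ((A + B) ^ p - A ^ p) := by rw [one_mul]; exact h3
        _ ≤ 2 ^ (p - 1) * ((A + B) ^ p - A ^ p) :=
          mul_le_mul_of_nonneg_right h1 (h4.trans h3)

theorem size_contradiction_pos {p : ℕ} (hp : Odd p) (hp1 : 1 < p) {A B : ℤ} (hB : 0 < B)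
    (h : 16 ^ (p - 1) * ((A + B) ^ p - A ^ p) = B ^ p) : False := by
  have h1 := size_aux hp (A := A) hB.le
  have h2 : (0 : ℤ) < B ^ p := pow_pos hB p
  have h3 : (16 : ℤ) ^ (p - 1) = 8 ^ (p - 1) * 2 ^ (p - 1) := by
    rw [← mul_pow]; norm_num
  have h4 : (1 : ℤ) < 8 ^ (p - 1) := one_lt_pow₀ (by norm_num) (by omega)
  have h5 : 8 ^ (p - 1) * B ^ p ≤ B ^ p := by
    calc 8 ^ (p - 1) * B ^ p ≤ 8 ^ (p - 1) * (2 ^ (p - 1) * ((A + B) ^ p - A ^ p)) :=
          mul_le_mul_of_nonneg_left h1 (by positivity)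
      _ = B ^ p := by rw [← h, h3]; ring
  nlinarith

/-- the size contradiction -/
theorem size_contradiction {p : ℕ} (hp : Odd p) (hp1 : 1 < p) {A B : ℤ} (hB : B ≠ 0)
    (h : 16 ^ (p - 1) * ((A + B) ^ p - A ^ p) = B ^ p) : False := by
  rcases lt_or_gt_of_ne hB with h1 | h1
  · refine size_contradiction_pos hp hp1 (A := -A) (B := -B) (by linarith) ?_
    have h2 : -A + -B = -(A + B) := by ring
    rw [h2, hp.neg_pow, hp.neg_pow, hp.neg_pow, ← h]
    ring
  · exact size_contradiction_pos hp hp1 h1 h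

/-- A nonzero rational number all whose valuations vanish is `± 1`. -/
theorem eq_one_or_neg_one_of_padicValRat {x : ℚ} (hx : x ≠ 0)
    (h : ∀ q : ℕ, q.Prime → padicValRat q x = 0) : x = 1 ∨ x = -1 := by
  have key : ∀ q : ℕ, q.Prime → ¬ (q ∣ x.num.natAbs) ∧ ¬ (q ∣ x.den) := by
    intro q hq
    have : Fact q.Prime := ⟨hq⟩
    have h1 := h q hq
    rw [padicValRat] at h1
    have hco : Nat.Coprime x.num.natAbs x.den := x.reduced
    by_contra hcon
    rw [not_and_or, not_not, not_not] at hcon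
    rcases hcon with h2 | h2
    · have h3 : ¬ q ∣ x.den := fun h4 => hq.one_lt.ne' (Nat.dvd_one.mp (hco ▸ Nat.dvd_gcd h2 h4))
      have h5 : padicValNat q x.den = 0 := padicValNat.eq_zero_of_not_dvd h3
      have h6 : 1 ≤ padicValInt q x.num := by
        rw [padicValInt]
        exact one_le_padicValNat_of_dvd (Int.natAbs_ne_zero.mpr (Rat.num_ne_zero.mpr hx)) h2
      rw [h5] at h1
      omega
    · have h3 : ¬ q ∣ x.num.natAbs :=
        fun h4 => hq.one_lt.ne' (Nat.dvd_one.mp (hco ▸ Nat.dvd_gcd h4 h2))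
      have h5 : padicValInt q x.num = 0 := by
        rw [padicValInt]
        exact padicValNat.eq_zero_of_not_dvd h3
      have h6 : 1 ≤ padicValNat q x.den := one_le_padicValNat_of_dvd x.den_nz h2
      rw [h5] at h1
      omega
  have hn : x.num.natAbs = 1 := by
    by_contra h1
    obtain ⟨q, hq, hd⟩ := Nat.exists_prime_and_dvd h1
    exact (key q hq).1 hd
  have hd : x.den = 1 := by
    by_contra h1
    obtain ⟨q, hq, hd⟩ := Nat.exists_prime_and_dvd h1
    exact (key q hq).2 hd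
  rcases Int.natAbs_eq_iff.mp hn with h1 | h1
  · left
    rw [← Rat.num_div_den x, h1, hd]; norm_num
  · right
    rw [← Rat.num_div_den x, h1, hd]; norm_num

theorem eq_or_neg_of_padicValRat {x y : ℚ} (hx : x ≠ 0) (hy : y ≠ 0)
    (h : ∀ q : ℕ, q.Prime → padicValRat q x = padicValRat q y) : x = y ∨ x = -y := by
  have h1 := eq_one_or_neg_one_of_padicValRat (div_ne_zero hx hy) (fun q hq => by
    have : Fact q.Prime := ⟨hq⟩
    rw [padicValRat.div hx hy, h q hq, sub_self])
  rcases h1 with h1 | h1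
  · left; rwa [div_eq_one_iff_eq hy] at h1
  · right
    rw [div_eq_iff hy] at h1
    rw [h1]; ring

/-- primitive integral pair proportional to a pair of rational numbers. -/
theorem exists_primitive {x y : ℚ} (hx : x ≠ 0) :
    ∃ (a b : ℤ) (l : ℚ), l ≠ 0 ∧ x = l * a ∧ y = l * b ∧ IsCoprime a b := by
  -- clear denominators
  set m : ℤ := x.num * y.den with hm
  set n : ℤ := y.num * x.den with hn
  have hm0 : m ≠ 0 := mul_ne_zero (Rat.num_ne_zero.mpr hx) (by exact_mod_cast y.den_nz)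
  obtain ⟨g, hg⟩ : ∃ g : ℤ, g = Int.gcd m n := ⟨_, rfl⟩
  have hg0 : g ≠ 0 := by
    rw [hg]
    exact_mod_cast (Int.gcd_pos_of_ne_zero_left n hm0).ne'
  obtain ⟨a, ha⟩ : g ∣ m := hg ▸ Int.gcd_dvd_left ..
  obtain ⟨b, hb⟩ : g ∣ n := hg ▸ Int.gcd_dvd_right ..
  have hxd : (x.den : ℚ) ≠ 0 := by exact_mod_cast x.den_nz
  have hyd : (y.den : ℚ) ≠ 0 := by exact_mod_cast y.den_nz
  refine ⟨a, b, g / (x.den * y.den), div_ne_zero (by exact_mod_cast hg0) (mul_ne_zero hxd hyd),
    ?_, ?_, ?_⟩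
  · have h1 : (m : ℚ) = g * a := by exact_mod_cast ha
    rw [hm] at h1
    push_cast at h1
    conv_lhs => rw [← Rat.num_div_den x]
    field_simp
    linear_combination h1
  · have h1 : (n : ℚ) = g * b := by exact_mod_cast hb
    rw [hn] at h1
    push_cast at h1
    conv_lhs => rw [← Rat.num_div_den y]
    field_simp
    linear_combination h1
  · rw [Int.isCoprime_iff_gcd_eq_one]
    have h1 : Int.gcd m n = g.natAbs * Int.gcd a b := by
      rw [ha, hb, Int.gcd_mul_left]
    have h2 : g.natAbs = Int.gcd m n := by rw [hg]; simp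
    rw [h2] at h1
    have h3 : 0 < Int.gcd m n := Int.gcd_pos_of_ne_zero_left n hm0
    exact Nat.eq_of_mul_eq_mul_left h3 (by rw [← h1, mul_one])

end Fermat.Agent.Descent
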