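import Fermat.Agent.Descent.FreyZ
import Fermat.Agent.S07
import Fermat.Agent.S45Wiring
import Fermat.Prelude.Def_GaloisRep_Residual
import Fermat.Prelude.Def_WeierstrassCurve_PeuRamifiee

/-!
# Descent: the modular part (M)

`modularInput` : `ModularInput p` from

* `S60Exact` : semistable curves are modular of exact conductor level,
* `S38Prop`, `S39Prop` : the level lowering statements S38, S39.
-/

set_option autoImplicit false

open WeierstrassCurve WeierstrassCurve.Affine WeierstrassCurve.Affine.Point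

namespace Fermat.Agent.Descent

/-- semistable modularity with exact conductor level (the output of S59 and the wiring of S60) -/
def S60Exact : Prop :=
  ∀ W : WeierstrassCurve ℤ, W.Δ ≠ 0 → W.IsSemistableModel →
    Mlc1IsModularModelOfExactConductorLevel W

/-- the statement of S38 -/
def S38Prop : Prop :=
  ∀ (p : ℕ) [Fact p.Prime] (_hp2 : p ≠ 2) (W : WeierstrassCurve ℤ) (_hΔ : W.Δ ≠ 0)
    (_hW : W.IsSemistableModel)
    (hcard₁ : Nat.card (Submodule.torsionBy ℤ
      ((W.map (Int.castRingHom ℚ))⁄(AlgebraicClosure ℚ)).Point p) = p ^ 2)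
    (hker : GaloisFactorsThroughFiniteLevel
      (WeierstrassCurve.Affine.Point.galoisRepModuleEnd (K := AlgebraicClosure ℚ) ℚ
        (W.map (Int.castRingHom ℚ)) p))
    (_hirr : W.ModRepIsIrreducible p) (M q : ℕ) (_hq : q.Prime) (_hqp : q ≠ p)
    (_hqM : q ∣ M) (_hq2 : ¬ q ^ 2 ∣ M) (_hM : Squarefree M)
    (_hunr : ((W.map (Int.castRingHom ℚ)).residualGaloisRepOf p hcard₁ hker).IsUnramifiedAt q)
    (_hres : W.IsResiduallyModularOfLevel p M),
    W.IsResiduallyModularOfLevel p (M / q)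

/-- the statement of S39, for semistable models -/
def S39Prop : Prop :=
  ∀ (W : WeierstrassCurve ℤ) (_hΔ : W.Δ ≠ 0)
    {p : ℕ} (_hp : p.Prime) (_hp2 : p ≠ 2)
    (_hss : W.IsSemistableModel)
    (_hirr : W.ModRepIsIrreducible p)
    (_hfin : (W.map (Int.castRingHom ℚ)).IsPeuRamifieeAt p p)
    {M : ℕ} (_hM : 0 < M) (_hpM : p ∣ M) (_hp2M : ¬ p ^ 2 ∣ M)
    (_hmod : W.IsResiduallyModularOfLevel p M),
    W.IsResiduallyModularOfLevel p (M / p)

/-- modularity of level `N` implies residual modularity of level `N`. -/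
theorem isResiduallyModularOfLevel_of_modular {W : WeierstrassCurve ℤ} {N : ℕ}
    (h : W.IsModularModelOfLevel N) {p : ℕ} (hp : p.Prime) : W.IsResiduallyModularOfLevel p N := by
  obtain ⟨f, hf, hfW⟩ := h
  obtain ⟨𝔪, h𝔪, hp𝔪⟩ := FLTPrelim.exists_maximalIdeal_natCast_prime_mem hp
  refine ⟨f, 𝔪, hf, h𝔪, hp𝔪, fun ℓ hℓ hgood hℓN _ => ?_⟩
  refine ⟨((W.apOfModel ℓ : ℤ) : integralClosure ℤ ℂ), ?_, ?_⟩
  · rw [hfW ℓ hℓ hgood hℓN]
    push_cast
    rfl
  · rw [sub_self]
    exact 𝔪.zero_mem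

/-- Level lowering for the curves `freyZ A B`. -/
theorem lower {p : ℕ} (hp : p.Prime) (hp2 : p ≠ 2) (h38 : S38Prop) (h39 : S39Prop) {A B : ℤ}
    (hT : IsTri p A B) (hirr : (freyZ A B).ModRepIsIrreducible p) (N : ℕ) (hN : Squarefree N)
    (hmod : (freyZ A B).IsResiduallyModularOfLevel p N) : False := by
  have hpF : Fact p.Prime := ⟨hp⟩
  have hΔ := hT.Δ_ne_zero
  have hss := hT.isSemistableModel
  have hell := EllTorsion.isElliptic_map_of_Δ_ne_zero hΔ
  have hac : Algebra.IsAlgebraic ℚ (AlgebraicClosure ℚ) := EllTorsion.isAlgClosure_rat.isAlgebraic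
  have hcard : Nat.card (Submodule.torsionBy ℤ
      (((freyZ A B).map (Int.castRingHom ℚ))⁄(AlgebraicClosure ℚ)).Point p) = p ^ 2 :=
    EllTorsion.card_torsionBy_rat _ hp.ne_zero
  have hker := EllTorsion.galoisRepModuleEnd_factorsThroughFiniteLevel
    ((freyZ A B).map (Int.castRingHom ℚ)) hp.ne_zero
  induction N using Nat.strong_induction_on with
  | _ N ih =>
  have hN0 : N ≠ 0 := hN.ne_zero
  by_cases hodd : ∃ q : ℕ, q.Prime ∧ q ≠ 2 ∧ q ∣ N
  · obtain ⟨q, hq, hq2, hqN⟩ := hodd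
    have hqq : ¬ q ^ 2 ∣ N := fun h => by
      have := hN q (by rwa [sq] at h)
      exact hq.one_lt.ne' (Nat.isUnit_iff.mp this)
    have hlt : N / q < N := Nat.div_lt_self (Nat.pos_of_ne_zero hN0) hq.one_lt
    have hsq : Squarefree (N / q) := hN.squarefree_of_dvd (Nat.div_dvd_of_dvd hqN)
    refine ih (N / q) hlt hsq ?_
    by_cases hqp : q = p
    · subst hqp
      refine h39 (freyZ A B) hΔ hq hq2 hss hirr ?_ (Nat.pos_of_ne_zero hN0)
        hqN hqq hmod
      have h1 := hT.dvd_padicValInt_Δ hq hq2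
      have h2 : padicValRat q ((freyZ A B).map (Int.castRingHom ℚ)).Δ =
          padicValInt q (freyZ A B).Δ := by
        rw [WeierstrassCurve.map_Δ]
        exact padicValRat.of_int
      rw [WeierstrassCurve.IsPeuRamifieeAt, h2]
      exact_mod_cast h1
    · refine h38 p hp2 (freyZ A B) hΔ hss hcard hker hirr N q hq hqp hqN hqq hN ?_ hmod
      have hur : GaloisRepUnramifiedAt ℚ (AlgebraicClosure ℚ)
          ((freyZ A B).map (Int.castRingHom ℚ)) p q :=
        galoisRepUnramifiedAt_of_dvd (freyZ A B) hΔ hq (fun h => hss q hq h)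
          (fun h => hqp ((Nat.prime_dvd_prime_iff_eq hq hp).mp h)) (hT.dvd_padicValInt_Δ hq hq2)
      intro V hV σ hσ
      exact LinearMap.ext fun x => hur V hV σ hσ x
  · -- `N ∣ 2`
    have hN2 : N ∣ 2 := by
      push Not at hodd
      have hpow : ∀ q : ℕ, q.Prime → q ∣ N → q = 2 := fun q hq hqN => by
        by_contra h2
        exact hodd q hq h2 hqN
      obtain ⟨k, hk⟩ : ∃ k, N = 2 ^ k :=
        ⟨_, Nat.eq_prime_pow_of_unique_prime_dvd hN0 (fun {d} => hpow d)⟩
      subst hk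
      have hk1 : k ≤ 1 := by
        by_contra hk2
        have h4 := hN 2 (by
          have : (2 : ℕ) ^ 2 ∣ 2 ^ k := pow_dvd_pow _ (by omega)
          simpa [sq] using this)
        exact absurd (Nat.isUnit_iff.mp h4) (by norm_num)
      calc 2 ^ k ∣ 2 ^ 1 := pow_dvd_pow _ hk1
        _ = 2 := by norm_num
    obtain ⟨f, 𝔪, hf, -⟩ := hmod
    exact S45Wiring.restrictGamma0_ne_zero hN2 hf.ne_zero
      (Fermat.Agent.S07.result (S45Wiring.restrictGamma0 hN2 f))

/-- **(M)** -/
theorem modularInput {p : ℕ} (hp : p.Prime) (hp2 : p ≠ 2) (h60 : S60Exact) (h38 : S38Prop)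
    (h39 : S39Prop) : ModularInput p := by
  intro A B hT hirr
  obtain ⟨N, -, hN, -, hmod⟩ := h60 (freyZ A B) hT.Δ_ne_zero hT.isSemistableModel
  exact lower hp hp2 h38 h39 hT hirr N hN (isResiduallyModularOfLevel_of_modular hmod hp)

end Fermat.Agent.Descent
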