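import Mathlib
import Fermat.Prelude.Def_FLTPrelim_GaloisRep
import Fermat.Prelude.Def_FLTPrelim_Modularity
import Fermat.Prelude.Def_FLTPrelim_ModularRep
import Fermat.Prelude.Def_FLTPrelim_Ramification
import Fermat.Prelude.Def_WeierstrassCurve_Mlc1RowStatement

set_option autoImplicit false

/-!
# Descent: definitions and interface statements

Hellegouarch descent: "modularity + level lowering ⟹ no Frey-type triple", without Mazur's theorem.
See report 461 (helper12) for the complete proof.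
-/

open WeierstrassCurve WeierstrassCurve.Affine

namespace Fermat.Agent.Descent

local notation "Qb" => AlgebraicClosure ℚ

/-! ### The curves -/

/-- The integral model `y² + xy = x³ + ((B-1-A)/4) x² - (AB/16) x` of `y² = x(x-A)(x+B)`
(for `A = a^p`, `B = b^p` this is `FreyPackage.freyCurveInt`). -/
def freyZ (A B : ℤ) : WeierstrassCurve ℤ where
  a₁ := 1
  a₂ := (B - 1 - A) / 4
  a₃ := 0
  a₄ := -A * B / 16
  a₆ := 0

/-- The curve `y² = (x - e₀)(x - e₁)(x - e₂)`. -/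
def leg {R : Type*} [CommRing R] (e : Fin 3 → R) : WeierstrassCurve R where
  a₁ := 0
  a₂ := -(e 0 + e 1 + e 2)
  a₃ := 0
  a₄ := e 0 * e 1 + e 1 * e 2 + e 2 * e 0
  a₆ := -(e 0 * e 1 * e 2)

/-- The abscissas `0, A, -B` of the `2`-torsion points of `y² = x(x-A)(x+B)`. -/
def eZ (A B : ℤ) : Fin 3 → ℤ := ![0, A, -B]

/-- abscissa of a point (`0` for the point at infinity) -/
def xc {F : Type*} [CommRing F] {W : WeierstrassCurve F} : W.toAffine.Point → F
  | .zero => 0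
  | .some x _ _ => x

/-- ordinate of a point (`0` for the point at infinity) -/
def yc {F : Type*} [CommRing F] {W : WeierstrassCurve F} : W.toAffine.Point → F
  | .zero => 0
  | .some _ y _ => y

/-! ### The class of triples `(A, B, C = A + B)` -/

/-- The class of triples on which the descent operates. -/
structure IsTri (p : ℕ) (A B : ℤ) : Prop where
  A0 : A ≠ 0
  B0 : B ≠ 0
  C0 : A + B ≠ 0
  cop : IsCoprime A B
  A4 : A % 4 = 3
  B32 : (32 : ℤ) ∣ B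
  oddA : ∀ q : ℕ, q.Prime → q ≠ 2 → p ∣ padicValInt q A
  oddB : ∀ q : ℕ, q.Prime → q ≠ 2 → p ∣ padicValInt q B
  oddC : ∀ q : ℕ, q.Prime → q ≠ 2 → p ∣ padicValInt q (A + B)
  /-- the `2`-adic valuation of `B` is not `4` modulo `p` -/
  two : ¬ (p : ℤ) ∣ (padicValInt 2 B : ℤ) - 4

/-! ### (M) the modular part -/

/-- **(M)** to be deduced from exact-conductor-level modularity + S38 + S39 + S07/S08. -/
def ModularInput (p : ℕ) : Prop :=
  ∀ A B : ℤ, IsTri p A B → ¬ (freyZ A B).ModRepIsIrreducible p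

/-! ### (G) the Galois-theoretic data -/

/-- The data extracted from reducibility of `E[p]`: generators `g` of the stable line `N` and
`r` of a complement, on the curve `y² = (x-e₀)(x-e₁)(x-e₂)` over `ℚ`. -/
structure GalData (p : ℕ) (e : Fin 3 → ℤ) where
  g : ((leg (fun i => (e i : ℚ)))⁄Qb).Point
  r : ((leg (fun i => (e i : ℚ)))⁄Qb).Point
  hg : p • g = 0
  hg0 : g ≠ 0
  hr : p • r = 0
  hrg : r ∉ AddSubgroup.zmultiples g
  /-- `N = ⟨g⟩` is Galois stable -/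
  gal_g : ∀ σ : Qb ≃ₐ[ℚ] Qb, σ • g ∈ AddSubgroup.zmultiples g
  /-- Galois acts trivially on `E[p]/N` -/
  gal_r : ∀ σ : Qb ≃ₐ[ℚ] Qb, σ • r - r ∈ AddSubgroup.zmultiples g
  /-- abscissas of the points of `E[p] \ N` are integral (in the coordinates of `freyZ`) -/
  int : ∀ k j : ℕ, ¬ p ∣ k → _root_.IsIntegral ℤ (xc (k • r + j • g) / (4 : Qb))

/-- **(G)** : reducibility gives `GalData` (from `S13Lib.fix_or_cofix`, `S13Lib.dichotomy` and a
generalisation of `S13Lib.no_fixed_torsion`). -/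
def GalInput (p : ℕ) : Prop :=
  ∀ A B : ℤ, IsTri p A B → ¬ (freyZ A B).ModRepIsIrreducible p → Nonempty (GalData p (eZ A B))

/-! ### (V) the output of Vélu's construction -/

/-- The output of Vélu's construction (quotient by `N`), for a curve
`y² = (x-e₀)(x-e₁)(x-e₂)` and `GalData`. -/
structure VeluOut (p : ℕ) (e : Fin 3 → ℤ) (G : GalData p e) where
  /-- square roots of `X(φ(k r)) - e'_i` -/
  U : Fin 3 → ℕ → ℚ
  /-- `∏_{Q ∈ N/±} (x_Q - e_i)` -/
  D : Fin 3 → ℚ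
  D_ne : ∀ i, D i ≠ 0
  D_spec : ∀ i, ((D i : ℚ) : Qb) = ∏ j ∈ Finset.Icc 1 ((p - 1) / 2), (xc (j • G.g) - (e i : Qb))
  D_sq : ∀ i, ((D i : ℚ) : Qb) ^ 2 = ∏ j ∈ Finset.Icc 1 (p - 1), (xc (j • G.g) - (e i : Qb))
  U_ne : ∀ i k, ¬ p ∣ k → U i k ≠ 0
  U_spec : ∀ i k, ¬ p ∣ k → ((U i k : ℚ) : Qb) ^ 2 * ((D i : ℚ) : Qb) ^ 2 =
    ∏ j ∈ Finset.range p, (xc (k • G.r + j • G.g) - (e i : Qb))
  rel : ∀ i k, ¬ p ∣ k → U i (2 * k) + U (i + 1) (2 * k) = U i k * U (i + 1) k / U (i + 2) k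
  D_rel : ((e 1 : ℚ) - e 2) ^ p * D 0 ^ 4 + ((e 2 : ℚ) - e 0) ^ p * D 1 ^ 4 +
    ((e 0 : ℚ) - e 1) ^ p * D 2 ^ 4 = 0

/-- **(V)** Vélu's construction (helper12). -/
def VeluInput (p : ℕ) : Prop :=
  ∀ (e : Fin 3 → ℤ), Function.Injective e → ∀ G : GalData p e, Nonempty (VeluOut p e G)

/-! ### (L) local statements -/

/-- The conclusion at an odd prime `q` not dividing the discriminant. -/
def LocGood (p q : ℕ) (U : Fin 3 → ℕ → ℚ) (D : Fin 3 → ℚ) : Prop :=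
  (∃ c : ℤ, ∀ i k, ¬ p ∣ k → padicValRat q (U i k) = c) ∧
    ∀ a b, padicValRat q (D a) = padicValRat q (D b)

/-- The conclusion at an odd prime `q` dividing `e_{i+1} - e_{i+2}`, `v = v_q(e_{i+1} - e_{i+2})`. -/
def LocMult (p q : ℕ) (i : Fin 3) (v : ℤ) (U : Fin 3 → ℕ → ℚ) (D : Fin 3 → ℚ) : Prop :=
  ∃ (c : ℤ) (j : ℕ → ℕ), (∀ k, ¬ p ∣ k → padicValRat q (U i k) = c ∧
      padicValRat q (U (i + 1) k) = c + j k * v ∧ padicValRat q (U (i + 2) k) = c + j k * v) ∧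
    ((∃ k, ¬ p ∣ k ∧ 0 < j k) → ∀ a b, padicValRat q (D a) = padicValRat q (D b))

/-- The conclusion at `2`; `v = v_2(B)`, the colliding abscissas are `e_0` and `e_2`. -/
def LocTwo (p : ℕ) (v : ℤ) (U : Fin 3 → ℕ → ℚ) (D : Fin 3 → ℚ) : Prop :=
  ∃ (c : ℤ) (a : ℕ) (j : ℕ → ℕ), ¬ p ∣ a ∧ (∀ k, ¬ p ∣ k →
      (1 ≤ j k ∧ 2 * j k ≤ p - 1 ∧ ((p : ℤ) ∣ j k - k * a ∨ (p : ℤ) ∣ j k + k * a)) ∧
      padicValRat 2 (U 1 k) = c ∧
      padicValRat 2 (U 0 k) = c + 1 + j k * (v - 4) ∧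
      padicValRat 2 (U 2 k) = c + 1 + j k * (v - 4)) ∧
    padicValRat 2 (D 0) = padicValRat 2 (D 1) + (p - 1) ∧
    padicValRat 2 (D 2) = padicValRat 2 (D 1) + (p - 1)

/-- **(L)** odd primes -/
def LocOddInput (p : ℕ) : Prop :=
  ∀ A B : ℤ, IsTri p A B → ∀ (G : GalData p (eZ A B)) (V : VeluOut p (eZ A B) G)
    (q : ℕ), q.Prime → q ≠ 2 →
    (¬ (q : ℤ) ∣ A * B * (A + B) → LocGood p q V.U V.D) ∧
    (∀ i : Fin 3, (q : ℤ) ∣ eZ A B (i + 1) - eZ A B (i + 2) →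
      LocMult p q i (padicValInt q (eZ A B (i + 1) - eZ A B (i + 2))) V.U V.D)

/-- **(L2)** the prime `2` -/
def LocTwoInput (p : ℕ) : Prop :=
  ∀ A B : ℤ, IsTri p A B → ∀ (G : GalData p (eZ A B)) (V : VeluOut p (eZ A B) G),
    LocTwo p (padicValInt 2 B) V.U V.D

/-! ### (C) the combinatorial part -/

/-- **(C)** the new triple has strictly fewer primes. -/
def CombInput (p : ℕ) : Prop :=
  ∀ A B : ℤ, IsTri p A B → ∀ (U : Fin 3 → ℕ → ℚ) (D : Fin 3 → ℚ),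
    (∀ i, D i ≠ 0) → (∀ i k, ¬ p ∣ k → U i k ≠ 0) →
    (∀ i k, ¬ p ∣ k → U i (2 * k) + U (i + 1) (2 * k) = U i k * U (i + 1) k / U (i + 2) k) →
    (A + B : ℚ) ^ p * D 0 ^ 4 = (B : ℚ) ^ p * D 1 ^ 4 + (A : ℚ) ^ p * D 2 ^ 4 →
    (∀ q : ℕ, q.Prime → q ≠ 2 →
      (¬ (q : ℤ) ∣ A * B * (A + B) → LocGood p q U D) ∧
      (∀ i : Fin 3, (q : ℤ) ∣ eZ A B (i + 1) - eZ A B (i + 2) →
        LocMult p q i (padicValInt q (eZ A B (i + 1) - eZ A B (i + 2))) U D)) →
    LocTwo p (padicValInt 2 B) U D →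
    ∃ A' B' : ℤ, IsTri p A' B' ∧
      (A' * B' * (A' + B')).natAbs.primeFactors ⊂ (A * B * (A + B)).natAbs.primeFactors

/-! ### Assembly -/

/-- The class of triples is empty. -/
theorem tri_empty (p : ℕ) (hp : p.Prime) (h11 : 11 ≤ p) (hM : ModularInput p) (hG : GalInput p)
    (hV : VeluInput p) (hL : LocOddInput p) (hL2 : LocTwoInput p) (hC : CombInput p) :
    ∀ A B : ℤ, ¬ IsTri p A B := by
  have key : ∀ n : ℕ, ∀ A B : ℤ, (A * B * (A + B)).natAbs.primeFactors.card = n →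
      ¬ IsTri p A B := by
    intro n
    induction n using Nat.strong_induction_on with
    | _ n ih =>
      intro A B hn hT
      obtain ⟨G⟩ := hG A B hT (hM A B hT)
      have hinj : Function.Injective (eZ A B) := by
        have h1 := hT.A0
        have h2 := hT.B0
        have h3 := hT.C0
        intro i j hij
        fin_cases i <;> fin_cases j <;> simp [eZ] at hij ⊢ <;> omega
      obtain ⟨V⟩ := hV (eZ A B) hinj G
      have hrel : (A + B : ℚ) ^ p * V.D 0 ^ 4 = (B : ℚ) ^ p * V.D 1 ^ 4 + (A : ℚ) ^ p * V.D 2 ^ 4 := by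
        have h := V.D_rel
        have hodd : Odd p := hp.odd_of_ne_two (by omega)
        simp only [eZ, Matrix.cons_val_zero, Matrix.cons_val_one, Matrix.cons_val,
          Int.cast_zero, Int.cast_neg, sub_zero, zero_sub, sub_neg_eq_add] at h
        rw [hodd.neg_pow, hodd.neg_pow] at h
        linear_combination h
      obtain ⟨A', B', hT', hlt⟩ := hC A B hT V.U V.D V.D_ne V.U_ne V.rel hrel
        (hL A B hT G V) (hL2 A B hT G V)
      exact ih _ (by rw [← hn]; exact Finset.card_lt_card hlt) A' B' rfl hT'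
  intro A B
  exact key _ A B rfl

end Fermat.Agent.Descent
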