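import Fermat.Agent.Descent.CombSize
import Fermat.Agent.Descent.Defs

/-!
# Descent: the combinatorial descent step (C)

(helper85)
-/

set_option autoImplicit false

namespace Fermat.Agent.Descent.Comb

/-! ### rational numbers with the same valuations -/

theorem val_int_nonneg {q : ℕ} (A : ℤ) : 0 ≤ padicValRat q (A : ℚ) := by
  rw [padicValRat.of_int]
  exact Int.natCast_nonneg _

theorem val_int_pos_iff {q : ℕ} [Fact q.Prime] {A : ℤ} (hA : A ≠ 0) :
    0 < padicValRat q (A : ℚ) ↔ (q : ℤ) ∣ A := by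
  rw [padicValRat.of_int]
  constructor
  · intro h
    by_contra h2
    rw [padicValInt.eq_zero_of_not_dvd h2] at h
    exact lt_irrefl _ h
  · intro h
    have h1 : 1 ≤ padicValInt q A := by
      rw [padicValInt]
      exact one_le_padicValNat_of_dvd (Int.natAbs_ne_zero.mpr hA) (Int.natCast_dvd.mp h)
    omega

/-- one of two coprime integers has valuation zero. -/
theorem val_coprime {q : ℕ} [Fact q.Prime] {A B : ℤ} (hA : A ≠ 0) (hB : B ≠ 0)
    (h : IsCoprime A B) : padicValRat q (A : ℚ) = 0 ∨ padicValRat q (B : ℚ) = 0 := by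
  by_contra hc
  rw [not_or] at hc
  have h1 : 0 < padicValRat q (A : ℚ) := lt_of_le_of_ne (val_int_nonneg A) (Ne.symm hc.1)
  have h2 : 0 < padicValRat q (B : ℚ) := lt_of_le_of_ne (val_int_nonneg B) (Ne.symm hc.2)
  rw [val_int_pos_iff hA] at h1
  rw [val_int_pos_iff hB] at h2
  have h3 := h.isUnit_of_dvd' h1 h2
  exact (Fact.out : q.Prime).one_lt.ne' (by simpa [Int.isUnit_iff_natAbs_eq] using h3)

theorem exists_primitive {x y : ℚ} (hx : x ≠ 0) (hy : y ≠ 0) :
    ∃ (A B : ℤ) (lam : ℚ), lam ≠ 0 ∧ IsCoprime A B ∧ (A : ℚ) = lam * x ∧ (B : ℚ) = lam * y := by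
  refine ⟨(x / y).num, (x / y).den, ((x / y).den : ℚ) / y, ?_, ?_, ?_, ?_⟩
  · exact div_ne_zero (by exact_mod_cast (x / y).den_nz) hy
  · rw [Int.isCoprime_iff_gcd_eq_one]
    have := (x / y).reduced
    rwa [Int.gcd, Int.natAbs_natCast]
  · have h := Rat.num_div_den (x / y)
    have hd : ((x / y).den : ℚ) ≠ 0 := by exact_mod_cast (x / y).den_nz
    rw [div_eq_iff hd] at h
    rw [h]
    field_simp
  · rw [Int.cast_natCast]
    field_simp

theorem sq_eq_of_val {x y : ℚ} (hx : x ≠ 0) (hy : y ≠ 0)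
    (h : ∀ q : ℕ, q.Prime → padicValRat q x = padicValRat q y) : x ^ 2 = y ^ 2 := by
  obtain ⟨A, B, lam, hlam, hco, hA, hB⟩ := exists_primitive hx hy
  have hA0 : A ≠ 0 := by
    rintro rfl
    rw [Int.cast_zero] at hA
    exact mul_ne_zero hlam hx hA.symm
  have hB0 : B ≠ 0 := by
    rintro rfl
    rw [Int.cast_zero] at hB
    exact mul_ne_zero hlam hy hB.symm
  have key : ∀ q : ℕ, q.Prime → padicValRat q (A : ℚ) = 0 ∧ padicValRat q (B : ℚ) = 0 := by
    intro q hq
    have : Fact q.Prime := ⟨hq⟩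
    have h1 : padicValRat q (A : ℚ) = padicValRat q (B : ℚ) := by
      rw [hA, hB, padicValRat.mul hlam hx, padicValRat.mul hlam hy, h q hq]
    rcases val_coprime (q := q) hA0 hB0 hco with h2 | h2
    · exact ⟨h2, by rw [← h1, h2]⟩
    · exact ⟨by rw [h1, h2], h2⟩
  have one : ∀ C : ℤ, C ≠ 0 → (∀ q : ℕ, q.Prime → padicValRat q (C : ℚ) = 0) → C ^ 2 = 1 := by
    intro C hC hv
    have : C.natAbs = 1 := by
      by_contra hne
      obtain ⟨q, hq, hqd⟩ := Nat.exists_prime_and_dvd hne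
      have : Fact q.Prime := ⟨hq⟩
      have h1 := (val_int_pos_iff (q := q) hC).mpr (Int.natCast_dvd.mpr hqd)
      rw [hv q hq] at h1
      exact lt_irrefl _ h1
    rw [← Int.natAbs_sq, this]
    rfl
  have hA2 := one A hA0 fun q hq => (key q hq).1
  have hB2 := one B hB0 fun q hq => (key q hq).2
  have h3 : lam ^ 2 * x ^ 2 = 1 := by
    rw [← mul_pow, ← hA]
    exact_mod_cast hA2
  have h4 : lam ^ 2 * y ^ 2 = 1 := by
    rw [← mul_pow, ← hB]
    exact_mod_cast hB2
  exact mul_left_cancel₀ (pow_ne_zero 2 hlam) (h3.trans h4.symm)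

/-! ### choice of the multiple `k` -/

theorem exists_k {p : ℕ} (hp : p.Prime) (hp2 : p ≠ 2) {a : ℕ} (ha : ¬ p ∣ a) {t : ℕ}
    (ht1 : 1 ≤ t) (ht2 : 2 * t ≤ p - 1) : ∃ k : ℕ, ¬ p ∣ k ∧ ¬ p ∣ 2 * k ∧
    ∀ j : ℕ, 1 ≤ j → 2 * j ≤ p - 1 →
      ((p : ℤ) ∣ j - ((2 * k : ℕ) : ℤ) * a ∨ (p : ℤ) ∣ j + ((2 * k : ℕ) : ℤ) * a) → j = t := by
  have : Fact p.Prime := ⟨hp⟩
  have h2 : (2 : ZMod p) ≠ 0 := by
    have : ((2 : ℕ) : ZMod p) ≠ 0 := by
      rw [Ne, ZMod.natCast_eq_zero_iff]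
      intro h
      exact hp2 ((Nat.prime_dvd_prime_iff_eq hp Nat.prime_two).mp h)
    exact_mod_cast this
  have hj : (a : ZMod p) ≠ 0 := by rwa [Ne, ZMod.natCast_eq_zero_iff]
  have htne : (t : ZMod p) ≠ 0 := by
    rw [Ne, ZMod.natCast_eq_zero_iff]
    intro h
    have := Nat.le_of_dvd ht1 h
    omega
  set k : ZMod p := (t : ZMod p) / (2 * a) with hk
  have hkne : k ≠ 0 := div_ne_zero htne (mul_ne_zero h2 hj)
  have hkval : ((k.val : ℕ) : ZMod p) = k := ZMod.natCast_zmod_val k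
  have hkt : ((2 * k.val : ℕ) : ZMod p) * a = t := by
    push_cast
    rw [hkval, hk]
    field_simp
  refine ⟨k.val, ?_, ?_, ?_⟩
  · rw [← ZMod.natCast_eq_zero_iff, hkval]
    exact hkne
  · rw [← ZMod.natCast_eq_zero_iff]
    push_cast
    rw [hkval]
    exact mul_ne_zero h2 hkne
  · intro j hj1 hj2 h
    rw [← ZMod.intCast_zmod_eq_zero_iff_dvd, ← ZMod.intCast_zmod_eq_zero_iff_dvd] at h
    simp only [Int.cast_sub, Int.cast_add, Int.cast_mul, Int.cast_natCast] at h
    rw [hkt] at h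
    rcases h with h | h
    · rw [sub_eq_zero, ZMod.natCast_eq_natCast_iff'] at h
      rwa [Nat.mod_eq_of_lt (by omega), Nat.mod_eq_of_lt (by omega)] at h
    · exfalso
      have h3 : ((j + t : ℕ) : ZMod p) = 0 := by
        push_cast
        exact h
      rw [ZMod.natCast_eq_zero_iff] at h3
      have := Nat.le_of_dvd (by omega) h3
      omega

/-- choice of the exponent at `2`. -/
theorem exists_t {p : ℕ} (hp : p.Prime) (h11 : 11 ≤ p) (w : ℤ) :
    ∃ t : ℕ, 4 ≤ t ∧ 2 * t ≤ p - 1 ∧ ¬ (p : ℤ) ∣ t * w - 3 := by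
  obtain ⟨m, hm⟩ := hp.odd_of_ne_two (by omega)
  by_cases h : (p : ℤ) ∣ (m : ℤ) * w - 3
  · refine ⟨m - 1, by omega, by omega, fun h' => ?_⟩
    have h1 : (p : ℤ) ∣ w := by
      have h2 := dvd_sub h h'
      have h3 : (m : ℤ) * w - 3 - (((m - 1 : ℕ) : ℤ) * w - 3) = w := by
        rw [Nat.cast_sub (by omega)]
        push_cast
        ring
      rwa [h3] at h2
    have h4 : (p : ℤ) ∣ 3 := by
      have := dvd_sub (h1.mul_left (m : ℤ)) h
      rwa [sub_sub_cancel] at this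
    have := Int.le_of_dvd (by norm_num) h4
    omega
  · exact ⟨m, by omega, by omega, h⟩

/-! ### the valuations of the new triple -/

section Local

variable {p : ℕ} {A B : ℤ} {U : Fin 3 → ℕ → ℚ} {D : Fin 3 → ℚ}

/-- `x = U 1 (2 k)`, `y = U 0 (2 k)`, `z = U 0 k * U 1 k / U 2 k`: at an odd prime all valuations
are congruent modulo `p`. -/
theorem val_odd (hT : IsTri p A B) (hU : ∀ i k, ¬ p ∣ k → U i k ≠ 0) {q : ℕ} (hq : q.Prime)
    (hq2 : q ≠ 2)
    (hgood : ¬ (q : ℤ) ∣ A * B * (A + B) → ∃ c : ℤ, ∀ i k, ¬ p ∣ k → padicValRat q (U i k) = c)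
    (hbad : ∀ i : Fin 3, (q : ℤ) ∣ eZ A B (i + 1) - eZ A B (i + 2) →
        LocMult p q i (padicValInt q (eZ A B (i + 1) - eZ A B (i + 2))) U D)
    {k : ℕ} (hk : ¬ p ∣ k) (h2k : ¬ p ∣ 2 * k) :
    (∃ c : ℤ, (p : ℤ) ∣ padicValRat q (U 1 (2 * k)) - c ∧
      (p : ℤ) ∣ padicValRat q (U 0 (2 * k)) - c ∧
      (p : ℤ) ∣ padicValRat q (U 0 k * U 1 k / U 2 k) - c) ∧
    ((padicValRat q (U 1 (2 * k)) = padicValRat q (U 0 (2 * k)) ∧
      padicValRat q (U 0 k * U 1 k / U 2 k) = padicValRat q (U 0 (2 * k))) ∨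
      ((q : ℤ) ∣ A * B * (A + B) ∧ ∀ a b, padicValRat q (D a) = padicValRat q (D b))) := by
  have : Fact q.Prime := ⟨hq⟩
  have hz : padicValRat q (U 0 k * U 1 k / U 2 k) =
      padicValRat q (U 0 k) + padicValRat q (U 1 k) - padicValRat q (U 2 k) := by
    rw [padicValRat.div (mul_ne_zero (hU 0 k hk) (hU 1 k hk)) (hU 2 k hk),
      padicValRat.mul (hU 0 k hk) (hU 1 k hk)]
  rw [hz]
  by_cases hd : (q : ℤ) ∣ A * B * (A + B)
  swap
  · obtain ⟨c, hc⟩ := hgood hd
    rw [hc 1 _ h2k, hc 0 _ h2k, hc 0 k hk, hc 1 k hk, hc 2 k hk]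
    refine ⟨⟨c, by simp, by simp, by simp⟩, Or.inl ⟨rfl, by ring⟩⟩
  have hqp : Prime (q : ℤ) := Nat.prime_iff_prime_int.mp hq
  rcases hqp.dvd_or_dvd hd with h1 | hC
  · rcases hqp.dvd_or_dvd h1 with hA | hB
    · -- q ∣ A, index 2
      have h2 : eZ A B (2 + 1) - eZ A B (2 + 2) = -A := by
        change (0 : ℤ) - A = -A
        ring
      have h3 := hbad 2 (by rw [h2]; exact hA.neg_right)
      rw [h2] at h3
      obtain ⟨c, j, h4, h5⟩ := h3
      obtain ⟨e1, e2, e3⟩ := h4 k hk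
      obtain ⟨f1, f2, f3⟩ := h4 (2 * k) h2k
      change padicValRat q (U 0 k) = _ at e2
      change padicValRat q (U 1 k) = _ at e3
      change padicValRat q (U 0 (2 * k)) = _ at f2
      change padicValRat q (U 1 (2 * k)) = _ at f3
      have hv : (p : ℤ) ∣ (padicValInt q (-A) : ℤ) := by
        rw [padicValInt, Int.natAbs_neg]
        exact Int.natCast_dvd_natCast.mpr (hT.oddA q hq hq2)
      rw [e1, e2, e3, f2, f3]
      refine ⟨⟨c, ?_, ?_, ?_⟩, ?_⟩
      · rw [add_sub_cancel_left]; exact hv.mul_left _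
      · rw [add_sub_cancel_left]; exact hv.mul_left _
      · have : (c + (j k : ℤ) * (padicValInt q (-A) : ℤ) + (c + (j k : ℤ) *
          (padicValInt q (-A) : ℤ)) - c - c) = (2 * j k : ℤ) * (padicValInt q (-A) : ℤ) := by ring
        rw [this]; exact hv.mul_left _
      · by_cases hj : ∃ k, ¬ p ∣ k ∧ 0 < j k
        · exact Or.inr ⟨hd, h5 hj⟩
        · push Not at hj
          have j1 : j k = 0 := Nat.le_zero.mp (hj k hk)
          have j2 : j (2 * k) = 0 := Nat.le_zero.mp (hj _ h2k)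
          rw [j1, j2]
          exact Or.inl ⟨rfl, by ring⟩
    · -- q ∣ B, index 1
      have h2 : eZ A B (1 + 1) - eZ A B (1 + 2) = -B := by
        change (-B : ℤ) - 0 = -B
        ring
      have h3 := hbad 1 (by rw [h2]; exact hB.neg_right)
      rw [h2] at h3
      obtain ⟨c, j, h4, h5⟩ := h3
      obtain ⟨e1, e2, e3⟩ := h4 k hk
      obtain ⟨f1, f2, f3⟩ := h4 (2 * k) h2k
      change padicValRat q (U 2 k) = _ at e2
      change padicValRat q (U 0 k) = _ at e3
      change padicValRat q (U 2 (2 * k)) = _ at f2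
      change padicValRat q (U 0 (2 * k)) = _ at f3
      have hv : (p : ℤ) ∣ (padicValInt q (-B) : ℤ) := by
        rw [padicValInt, Int.natAbs_neg]
        exact Int.natCast_dvd_natCast.mpr (hT.oddB q hq hq2)
      rw [e1, e2, e3, f1, f3]
      refine ⟨⟨c, ?_, ?_, ?_⟩, ?_⟩
      · rw [sub_self]; exact dvd_zero _
      · rw [add_sub_cancel_left]; exact hv.mul_left _
      · have : (c + (j k : ℤ) * (padicValInt q (-B) : ℤ) + c - (c + (j k : ℤ) *
          (padicValInt q (-B) : ℤ)) - c) = 0 := by ring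
        rw [this]; exact dvd_zero _
      · by_cases hj : ∃ k, ¬ p ∣ k ∧ 0 < j k
        · exact Or.inr ⟨hd, h5 hj⟩
        · push Not at hj
          have j1 : j k = 0 := Nat.le_zero.mp (hj k hk)
          have j2 : j (2 * k) = 0 := Nat.le_zero.mp (hj _ h2k)
          rw [j1, j2]
          exact Or.inl ⟨by ring, by ring⟩
  · -- q ∣ A + B, index 0
    have h2 : eZ A B (0 + 1) - eZ A B (0 + 2) = A + B := by
      change A - (-B) = A + B
      ring
    have h3 := hbad 0 (by rw [h2]; exact hC)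
    rw [h2] at h3
    obtain ⟨c, j, h4, h5⟩ := h3
    obtain ⟨e1, e2, e3⟩ := h4 k hk
    obtain ⟨f1, f2, f3⟩ := h4 (2 * k) h2k
    change padicValRat q (U 1 k) = _ at e2
    change padicValRat q (U 2 k) = _ at e3
    change padicValRat q (U 1 (2 * k)) = _ at f2
    change padicValRat q (U 2 (2 * k)) = _ at f3
    have hv : (p : ℤ) ∣ (padicValInt q (A + B) : ℤ) :=
      Int.natCast_dvd_natCast.mpr (hT.oddC q hq hq2)
    rw [e1, e2, e3, f1, f2]
    refine ⟨⟨c, ?_, ?_, ?_⟩, ?_⟩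
    · rw [add_sub_cancel_left]; exact hv.mul_left _
    · rw [sub_self]; exact dvd_zero _
    · have : (c + (c + (j k : ℤ) * (padicValInt q (A + B) : ℤ)) - (c + (j k : ℤ) *
        (padicValInt q (A + B) : ℤ)) - c) = 0 := by ring
      rw [this]; exact dvd_zero _
    · by_cases hj : ∃ k, ¬ p ∣ k ∧ 0 < j k
      · exact Or.inr ⟨hd, h5 hj⟩
      · push Not at hj
        have j1 : j k = 0 := Nat.le_zero.mp (hj k hk)
        have j2 : j (2 * k) = 0 := Nat.le_zero.mp (hj _ h2k)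
        rw [j1, j2]
        exact Or.inl ⟨by ring, by ring⟩

end Local

/-- **(C)** -/
theorem comb_step {p : ℕ} (hp : p.Prime) (h11 : 11 ≤ p) {A B : ℤ} (hT : IsTri p A B)
    {U : Fin 3 → ℕ → ℚ} {D : Fin 3 → ℚ} (hD : ∀ i, D i ≠ 0) (hU : ∀ i k, ¬ p ∣ k → U i k ≠ 0)
    (hrel : ∀ i k, ¬ p ∣ k →
      U i (2 * k) + U (i + 1) (2 * k) = U i k * U (i + 1) k / U (i + 2) k)
    (hDrel : (A + B : ℚ) ^ p * D 0 ^ 4 = (B : ℚ) ^ p * D 1 ^ 4 + (A : ℚ) ^ p * D 2 ^ 4)
    (hloc : ∀ q : ℕ, q.Prime → q ≠ 2 →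
      (¬ (q : ℤ) ∣ A * B * (A + B) → (∃ c : ℤ, ∀ i k, ¬ p ∣ k → padicValRat q (U i k) = c) ∧
        ∀ a b, padicValRat q (D a) = padicValRat q (D b)) ∧
      (∀ i : Fin 3, (q : ℤ) ∣ eZ A B (i + 1) - eZ A B (i + 2) →
        LocMult p q i (padicValInt q (eZ A B (i + 1) - eZ A B (i + 2))) U D))
    (htwo : LocTwo p (padicValInt 2 B) U D) :
    ∃ A' B' : ℤ, IsTri p A' B' ∧
      (A' * B' * (A' + B')).natAbs.primeFactors ⊂ (A * B * (A + B)).natAbs.primeFactors := by
  have hp2 : p ≠ 2 := by omega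
  have : Fact (Nat.Prime 2) := ⟨Nat.prime_two⟩
  have hABC : A * B * (A + B) ≠ 0 := mul_ne_zero (mul_ne_zero hT.A0 hT.B0) hT.C0
  obtain ⟨c, a, j, ha, hj, hD01, hD21⟩ := htwo
  set v : ℤ := (padicValInt 2 B : ℤ) with hv
  have hv5 : 5 ≤ v := by
    have h1 : 5 ≤ padicValInt 2 B := by
      rw [padicValInt, ← padicValNat_dvd_iff_le (Int.natAbs_ne_zero.mpr hT.B0)]
      have := Int.natAbs_dvd_natAbs.mpr hT.B32
      simpa using this
    omega
  obtain ⟨t, ht4, htp, ht⟩ := exists_t hp h11 (v - 4)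
  obtain ⟨k, hk, h2k, hkt⟩ := exists_k hp hp2 ha (t := t) (by omega) htp
  have hjk : j (2 * k) = t := by
    obtain ⟨⟨h1, h2, h3⟩, -⟩ := hj (2 * k) h2k
    exact hkt _ h1 h2 (by exact_mod_cast h3)
  obtain ⟨-, g1, g0, -⟩ := hj (2 * k) h2k
  rw [hjk] at g0
  -- the new triple
  set x := U 1 (2 * k) with hx
  set y := U 0 (2 * k) with hy
  set z := U 0 k * U 1 k / U 2 k with hz
  have hx0 : x ≠ 0 := hU 1 _ h2k
  have hy0 : y ≠ 0 := hU 0 _ h2k
  have hz0 : z ≠ 0 := div_ne_zero (mul_ne_zero (hU 0 k hk) (hU 1 k hk)) (hU 2 k hk)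
  have hxyz : x + y = z := by
    rw [add_comm]
    exact hrel 0 k hk
  obtain ⟨A₁, B₁, lam, hlam, hco, hA₁, hB₁⟩ := exists_primitive hx0 hy0
  have hC₁ : ((A₁ + B₁ : ℤ) : ℚ) = lam * z := by
    push_cast
    rw [hA₁, hB₁, ← hxyz]
    ring
  have hA₁0 : A₁ ≠ 0 := by
    rintro rfl
    rw [Int.cast_zero] at hA₁
    exact mul_ne_zero hlam hx0 hA₁.symm
  have hB₁0 : B₁ ≠ 0 := by
    rintro rfl
    rw [Int.cast_zero] at hB₁
    exact mul_ne_zero hlam hy0 hB₁.symm
  have hC₁0 : A₁ + B₁ ≠ 0 := by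
    intro h
    rw [h, Int.cast_zero] at hC₁
    exact mul_ne_zero hlam hz0 hC₁.symm
  have hvA : ∀ q : ℕ, q.Prime → padicValRat q (A₁ : ℚ) = padicValRat q lam + padicValRat q x := by
    intro q hq
    have : Fact q.Prime := ⟨hq⟩
    rw [hA₁, padicValRat.mul hlam hx0]
  have hvB : ∀ q : ℕ, q.Prime → padicValRat q (B₁ : ℚ) = padicValRat q lam + padicValRat q y := by
    intro q hq
    have : Fact q.Prime := ⟨hq⟩
    rw [hB₁, padicValRat.mul hlam hy0]
  have hvC : ∀ q : ℕ, q.Prime →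
      padicValRat q ((A₁ + B₁ : ℤ) : ℚ) = padicValRat q lam + padicValRat q z := by
    intro q hq
    have : Fact q.Prime := ⟨hq⟩
    rw [hC₁, padicValRat.mul hlam hz0]
  -- odd primes
  have hodd : ∀ q : ℕ, q.Prime → q ≠ 2 → (p : ℤ) ∣ padicValRat q (A₁ : ℚ) ∧
      (p : ℤ) ∣ padicValRat q (B₁ : ℚ) ∧ (p : ℤ) ∣ padicValRat q ((A₁ + B₁ : ℤ) : ℚ) := by
    intro q hq hq2
    have : Fact q.Prime := ⟨hq⟩
    obtain ⟨⟨s, h1, h2, h3⟩, -⟩ := val_odd hT hU hq hq2
      (fun h => (((hloc q hq hq2).1 h)).1) (hloc q hq hq2).2 hk h2k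
    have h4 : (p : ℤ) ∣ padicValRat q lam + s := by
      rcases val_coprime (q := q) hA₁0 hB₁0 hco with h | h
      · rw [hvA q hq] at h
        have := dvd_neg.mpr h1
        have e : padicValRat q lam + s = -(padicValRat q (U 1 (2 * k)) - s) := by
          rw [← hx]; linarith
        rwa [e]
      · rw [hvB q hq] at h
        have := dvd_neg.mpr h2
        have e : padicValRat q lam + s = -(padicValRat q (U 0 (2 * k)) - s) := by
          rw [← hy]; linarith
        rwa [e]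
    refine ⟨?_, ?_, ?_⟩
    · rw [hvA q hq]
      have := dvd_add h4 h1
      rwa [show padicValRat q lam + s + (padicValRat q (U 1 (2 * k)) - s) =
        padicValRat q lam + padicValRat q x by rw [hx]; ring] at this
    · rw [hvB q hq]
      have := dvd_add h4 h2
      rwa [show padicValRat q lam + s + (padicValRat q (U 0 (2 * k)) - s) =
        padicValRat q lam + padicValRat q y by rw [hy]; ring] at this
    · rw [hvC q hq]
      have := dvd_add h4 h3
      rwa [show padicValRat q lam + s + (padicValRat q (U 0 k * U 1 k / U 2 k) - s) =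
        padicValRat q lam + padicValRat q z by rw [hz]; ring] at this
  -- the prime 2
  have h2A : padicValRat 2 (A₁ : ℚ) = 0 ∧ padicValRat 2 (B₁ : ℚ) = 1 + t * (v - 4) := by
    have h1 := hvA 2 Nat.prime_two
    have h2 := hvB 2 Nat.prime_two
    rw [g1] at h1
    rw [g0] at h2
    have h3 : padicValRat 2 (B₁ : ℚ) = padicValRat 2 (A₁ : ℚ) + (1 + t * (v - 4)) := by
      rw [h1, h2]; ring
    have h4 : 0 < 1 + (t : ℤ) * (v - 4) := by
      have : 0 ≤ (t : ℤ) * (v - 4) := mul_nonneg (by omega) (by omega)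
      omega
    rcases val_coprime (q := 2) hA₁0 hB₁0 hco with h | h
    · exact ⟨h, by rw [h3, h, zero_add]⟩
    · have h5 := val_int_nonneg (q := 2) A₁
      omega
  have hA₁odd : ¬ (2 : ℤ) ∣ A₁ := by
    intro h
    have := (val_int_pos_iff (q := 2) hA₁0).mpr (by exact_mod_cast h)
    omega
  have h4t : 4 ≤ (t : ℤ) * (v - 4) := by
    have h4 : (4 : ℤ) ≤ t := by exact_mod_cast ht4
    nlinarith
  -- wlog A₁ ≡ 3 mod 4
  obtain ⟨ε, hε, hε4⟩ : ∃ ε : ℤ, (ε = 1 ∨ ε = -1) ∧ (ε * A₁) % 4 = 3 := by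
    have : A₁ % 4 = 3 ∨ A₁ % 4 = 1 := by omega
    rcases this with h | h
    · exact ⟨1, Or.inl rfl, by rwa [one_mul]⟩
    · exact ⟨-1, Or.inr rfl, by omega⟩
  have hval : ∀ (q : ℕ) (X : ℤ), padicValInt q (ε * X) = padicValInt q X := by
    intro q X
    rcases hε with rfl | rfl
    · rw [one_mul]
    · rw [neg_one_mul, padicValInt, padicValInt, Int.natAbs_neg]
  have hne : ∀ X : ℤ, X ≠ 0 → ε * X ≠ 0 := by
    intro X hX
    rcases hε with rfl | rfl
    · rwa [one_mul]
    · rw [neg_one_mul]; exact neg_ne_zero.mpr hX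
  have hsum : ε * A₁ + ε * B₁ = ε * (A₁ + B₁) := by ring
  have hval' : ∀ (q : ℕ) (X : ℤ), (padicValInt q X : ℤ) = padicValRat q (X : ℚ) :=
    fun q X => padicValRat.of_int.symm
  refine ⟨ε * A₁, ε * B₁, ⟨hne _ hA₁0, hne _ hB₁0, by rw [hsum]; exact hne _ hC₁0, ?_, hε4, ?_, ?_,
    ?_, ?_, ?_⟩, ?_⟩
  · rcases hε with rfl | rfl
    · rwa [one_mul, one_mul]
    · rw [neg_one_mul, neg_one_mul]
      exact hco.neg_neg
  · have h1 : (2 : ℤ) ^ 5 ∣ B₁ := by
      have : (2 : ℕ) ^ 5 ∣ B₁.natAbs := by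
        rw [padicValNat_dvd_iff_le (Int.natAbs_ne_zero.mpr hB₁0)]
        have h2 := hval' 2 B₁
        rw [h2A.2, padicValInt] at h2
        omega
      rw [← Int.natCast_dvd] at this
      exact_mod_cast this
    exact (by norm_num at h1; exact h1 : (32 : ℤ) ∣ B₁).mul_left _
  · intro q hq hq2
    rw [hval]
    have := (hodd q hq hq2).1
    rw [← hval'] at this
    exact_mod_cast this
  · intro q hq hq2
    rw [hval]
    have := (hodd q hq hq2).2.1
    rw [← hval'] at this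
    exact_mod_cast this
  · intro q hq hq2
    rw [hsum, hval]
    have := (hodd q hq hq2).2.2
    rw [← hval'] at this
    exact_mod_cast this
  · rw [hval, hval', h2A.2]
    intro h
    apply ht
    have e : 1 + (t : ℤ) * (v - 4) - 4 = t * (v - 4) - 3 := by ring
    rwa [e] at h
  · -- prime factors
    have hprod : (ε * A₁ * (ε * B₁) * (ε * A₁ + ε * B₁)).natAbs = (A₁ * B₁ * (A₁ + B₁)).natAbs := by
      rcases hε with rfl | rfl
      · congr 1; ring
      · rw [← Int.natAbs_neg]; congr 1; ring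
    rw [hprod]
    have hne1 : A₁ * B₁ * (A₁ + B₁) ≠ 0 := mul_ne_zero (mul_ne_zero hA₁0 hB₁0) hC₁0
    -- a prime of the new triple is 2 or bad with equal D-valuations
    have hnew : ∀ q : ℕ, q.Prime → q ≠ 2 → (q : ℤ) ∣ A₁ * B₁ * (A₁ + B₁) →
        (q : ℤ) ∣ A * B * (A + B) ∧ ∀ a b, padicValRat q (D a) = padicValRat q (D b) := by
      intro q hq hq2 hqd
      have : Fact q.Prime := ⟨hq⟩
      obtain ⟨-, h | h⟩ := val_odd hT hU hq hq2
        (fun h => (((hloc q hq hq2).1 h)).1) (hloc q hq hq2).2 hk h2k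
      swap
      · exact h
      exfalso
      obtain ⟨h1, h2⟩ := h
      have e1 : padicValRat q (A₁ : ℚ) = padicValRat q (B₁ : ℚ) := by
        rw [hvA q hq, hvB q hq, hx, hy, h1]
      have e2 : padicValRat q ((A₁ + B₁ : ℤ) : ℚ) = padicValRat q (B₁ : ℚ) := by
        rw [hvC q hq, hvB q hq, hz, hy, h2]
      have e3 : padicValRat q (B₁ : ℚ) = 0 := by
        rcases val_coprime (q := q) hA₁0 hB₁0 hco with h | h
        · rw [← e1, h]
        · exact h
      have hqp : Prime (q : ℤ) := Nat.prime_iff_prime_int.mp hq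
      rcases hqp.dvd_or_dvd hqd with h3 | h3
      · rcases hqp.dvd_or_dvd h3 with h4 | h4
        · have := (val_int_pos_iff (q := q) hA₁0).mpr h4
          rw [e1, e3] at this
          exact lt_irrefl _ this
        · have := (val_int_pos_iff (q := q) hB₁0).mpr h4
          rw [e3] at this
          exact lt_irrefl _ this
      · have := (val_int_pos_iff (q := q) hC₁0).mpr h3
        rw [e2, e3] at this
        exact lt_irrefl _ this
    refine Finset.ssubset_iff_subset_ne.mpr ⟨?_, ?_⟩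
    · intro q hq
      rw [Nat.mem_primeFactors_of_ne_zero (Int.natAbs_ne_zero.mpr hne1)] at hq
      rw [Nat.mem_primeFactors_of_ne_zero (Int.natAbs_ne_zero.mpr hABC)]
      refine ⟨hq.1, ?_⟩
      rw [← Int.natCast_dvd] at hq ⊢
      by_cases hq2 : q = 2
      · subst hq2
        have : (2 : ℤ) ∣ B := (show (2 : ℤ) ∣ 32 by norm_num).trans hT.B32
        exact (this.mul_left A).mul_right (A + B)
      · exact (hnew q hq.1 hq2 hq.2).1
    · intro heq
      -- all odd primes have equal D-valuations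
      have hDodd : ∀ q : ℕ, q.Prime → q ≠ 2 → ∀ a b, padicValRat q (D a) = padicValRat q (D b) := by
        intro q hq hq2
        by_cases hd : (q : ℤ) ∣ A * B * (A + B)
        · refine (hnew q hq hq2 ?_).2
          have : q ∈ (A * B * (A + B)).natAbs.primeFactors := by
            rw [Nat.mem_primeFactors_of_ne_zero (Int.natAbs_ne_zero.mpr hABC)]
            exact ⟨hq, Int.natCast_dvd.mp hd⟩
          rw [← heq, Nat.mem_primeFactors_of_ne_zero (Int.natAbs_ne_zero.mpr hne1)] at this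
          exact Int.natCast_dvd.mpr this.2
        · exact ((hloc q hq hq2).1 hd).2
      have e1 : D 0 ^ 2 = D 2 ^ 2 := by
        refine sq_eq_of_val (hD 0) (hD 2) fun q hq => ?_
        by_cases hq2 : q = 2
        · subst hq2; rw [hD01, hD21]
        · exact hDodd q hq hq2 0 2
      have h2p : ((2 : ℚ) ^ (p - 1)) ≠ 0 := pow_ne_zero _ two_ne_zero
      have e2 : D 0 ^ 2 = (2 ^ (p - 1) * D 1) ^ 2 := by
        refine sq_eq_of_val (hD 0) (mul_ne_zero h2p (hD 1)) fun q hq => ?_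
        have : Fact q.Prime := ⟨hq⟩
        rw [padicValRat.mul h2p (hD 1), padicValRat.pow]
        by_cases hq2 : q = 2
        · subst hq2
          have h3 : padicValRat 2 (2 : ℚ) = 1 := by
            have := padicValRat.self (p := 2) (by norm_num)
            exact_mod_cast this
          rw [hD01, h3, Nat.cast_sub hp.one_le]
          push_cast
          ring
        · have h3 : padicValRat q (2 : ℚ) = 0 := by
            have h7 : padicValRat q ((2 : ℕ) : ℚ) = 0 := by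
              rw [padicValRat.of_nat]
              have : padicValNat q 2 = 0 := by
                apply padicValNat.eq_zero_of_not_dvd
                intro hd
                exact hq2 ((Nat.prime_dvd_prime_iff_eq hq Nat.prime_two).mp hd)
              rw [this]
              rfl
            exact_mod_cast h7
          rw [h3, mul_zero, zero_add]
          exact hDodd q hq hq2 0 1
      have e3 : D 2 ^ 4 = D 0 ^ 4 := by
        have : (D 2 ^ 2) ^ 2 = (D 0 ^ 2) ^ 2 := by rw [e1]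
        linear_combination this
      have e4 : D 0 ^ 4 = 16 ^ (p - 1) * D 1 ^ 4 := by
        have h5 : (D 0 ^ 2) ^ 2 = ((2 ^ (p - 1) * D 1) ^ 2) ^ 2 := by rw [e2]
        have h6 : (16 : ℚ) ^ (p - 1) = (2 ^ (p - 1)) ^ 4 := by
          rw [← pow_mul, mul_comm, pow_mul]; norm_num
        rw [h6]
        linear_combination h5
      rw [e3, e4] at hDrel
      have hD1 : D 1 ^ 4 ≠ 0 := pow_ne_zero _ (hD 1)
      have e5 : (B : ℚ) ^ p = 16 ^ (p - 1) * ((A + B : ℚ) ^ p - (A : ℚ) ^ p) := by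
        apply mul_right_cancel₀ hD1
        linear_combination -hDrel
      exact size_contradiction (hp.odd_of_ne_two hp2) hp.one_lt A B hT.B0 (by exact_mod_cast e5)

end Fermat.Agent.Descent.Comb
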