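import Mathlib

/-!
# Descent: the final size contradiction

If `C = A + B`, `B ≠ 0` then `B ^ p = 16 ^ (p - 1) * (C ^ p - A ^ p)` is impossible for odd `p > 1`.
(helper85)
-/

set_option autoImplicit false

namespace Fermat.Agent.Descent.Comb

/-- For odd `p`, `x ^ p + y ^ p ≥ (x + y) ^ p / 2 ^ (p - 1)` if `x + y ≥ 0`. -/
theorem pow_add_pow_ge {p : ℕ} (hp : Odd p) (x y : ℝ) (h : 0 ≤ x + y) :
    (x + y) ^ p ≤ 2 ^ (p - 1) * (x ^ p + y ^ p) := by
  -- wlog x ≥ y
  wlog hxy : y ≤ x generalizing x y with H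
  · have := H y x (by linarith) (by linarith)
    rwa [add_comm, add_comm (y ^ p)] at this
  obtain ⟨k, hk⟩ := hp
  have hp1 : p ≠ 0 := by omega
  rcases le_or_gt 0 y with hy | hy
  · -- convexity
    have := add_pow_le (x.rpow_nonneg (le_trans hy hxy) 1 |>.trans_eq (Real.rpow_one x) : 0 ≤ x)
      hy p
    exact this
  · -- y < 0: x ≥ -y > 0
    have h1 : (x + y) ^ p ≤ x ^ p + y ^ p := by
      have hz : 0 ≤ -y := by linarith
      have h2 := pow_add_pow_le h hz hp1
      have h3 : (x + y) + -y = x := by ring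
      rw [h3] at h2
      have h4 : (-y) ^ p = -(y ^ p) := Odd.neg_pow ⟨k, hk⟩ y
      rw [h4] at h2
      linarith
    have h5 : 0 ≤ x ^ p + y ^ p := le_trans (pow_nonneg h p) h1
    have h6 : (1 : ℝ) ≤ 2 ^ (p - 1) := one_le_pow₀ (by norm_num)
    nlinarith

theorem size_contradiction_real {p : ℕ} (hp : Odd p) (hp1 : 1 < p) (A B : ℝ) (hB : B ≠ 0) :
    B ^ p ≠ 16 ^ (p - 1) * ((A + B) ^ p - A ^ p) := by
  -- wlog B > 0
  wlog hpos : 0 < B generalizing A B with H
  · intro h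
    have hneg : 0 < -B := by
      rcases lt_or_gt_of_ne hB with h1 | h1
      · linarith
      · exact absurd h1 hpos
    refine H (-A) (-B) (neg_ne_zero.mpr hB) hneg ?_
    have h1 : (-A + -B) ^ p = -((A + B) ^ p) := by
      rw [← hp.neg_pow]; congr 1; ring
    rw [hp.neg_pow, hp.neg_pow, h1, h]
    ring
  intro h
  have h1 := pow_add_pow_ge hp (A + B) (-A) (by linarith)
  have h2 : (A + B) + -A = B := by ring
  rw [h2, hp.neg_pow] at h1
  have h3 : 0 < B ^ p := pow_pos hpos p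
  set X : ℝ := (A + B) ^ p - A ^ p with hX
  have h4 : B ^ p ≤ 2 ^ (p - 1) * X := by
    rw [hX]; linarith [h1]
  have h5 : 0 < X := by
    by_contra h5
    have : 2 ^ (p - 1) * X ≤ 0 := mul_nonpos_of_nonneg_of_nonpos (by positivity) (by linarith)
    linarith
  have h6 : (2 : ℝ) ^ (p - 1) < 16 ^ (p - 1) := pow_lt_pow_left₀ (by norm_num) (by norm_num) (by omega)
  have h7 : 2 ^ (p - 1) * X < 16 ^ (p - 1) * X := mul_lt_mul_of_pos_right h6 h5
  linarith

theorem size_contradiction {p : ℕ} (hp : Odd p) (hp1 : 1 < p) (A B : ℤ) (hB : B ≠ 0) :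
    B ^ p ≠ 16 ^ (p - 1) * ((A + B) ^ p - A ^ p) := by
  intro h
  refine size_contradiction_real hp hp1 (A : ℝ) (B : ℝ) (by exact_mod_cast hB) ?_
  exact_mod_cast h

end Fermat.Agent.Descent.Comb
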