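import Fermat.Agent.Descent.Main

set_option autoImplicit false

/-!
# Descent: only curves with multiplicative reduction at `2` are needed
-/

open WeierstrassCurve WeierstrassCurve.Affine WeierstrassCurve.Affine.Point

namespace Fermat.Agent.Descent

/-- exact-conductor modularity for the semistable curves with even discriminant -/
def S60Even : Prop :=
  ∀ W : WeierstrassCurve ℤ, W.Δ ≠ 0 → W.IsSemistableModel → (2 : ℤ) ∣ W.Δ →
    Mlc1IsModularModelOfExactConductorLevel W

theorem S60Even.of_exact (h : S60Exact) : S60Even := fun W h1 h2 _ => h W h1 h2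

theorem IsTri.two_dvd_Δ {p : ℕ} {A B : ℤ} (h : IsTri p A B) : (2 : ℤ) ∣ (freyZ A B).Δ := by
  have h1 := freyZ_Δ h.A4 h.B32
  obtain ⟨c, hc⟩ := h.B32
  have h2 : (freyZ A B).Δ = (A * (2 * c) * (A + B)) ^ 2 := by
    have : (256 : ℤ) * (freyZ A B).Δ = 256 * (A * (2 * c) * (A + B)) ^ 2 := by
      rw [h1, hc]; ring
    omega
  rw [h2]
  exact ⟨A * c * (A + B) * (A * (2 * c) * (A + B)), by ring⟩

/-- **(M)**, even version -/
theorem modularInput_even {p : ℕ} (hp : p.Prime) (hp2 : p ≠ 2) (h60 : S60Even) (h38 : S38Prop)
    (h39 : S39Prop) : ModularInput p := by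
  intro A B hT hirr
  obtain ⟨N, -, hN, -, hmod⟩ := h60 (freyZ A B) hT.Δ_ne_zero hT.isSemistableModel hT.two_dvd_Δ
  exact lower hp hp2 h38 h39 hT hirr N hN (isResiduallyModularOfLevel_of_modular hmod hp)

/-- no Frey package from the modular input -/
theorem no_frey_of_modularInput (P : FreyPackage) (hM : ModularInput P.p) : False := by
  have hT := isTri_frey P
  by_cases h11 : 11 ≤ P.p
  · exact tri_empty_of P.pp h11 hM _ _ hT
  · have h57 : P.p = 5 ∨ P.p = 7 ∨ P.p = 13 := by
      have h5 := P.hp5
      have hp := P.pp
      push Not at h11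
      generalize P.p = p at *
      interval_cases p <;> first | omega | (revert hp; decide)
    apply hM _ _ hT
    rw [freyZ_frey, WeierstrassCurve.ModRepIsIrreducible, FreyPackage.AgentFrey.map_freyCurveInt]
    by_contra hred
    exact Fermat.Agent.S10.result P h57 (Fermat.Agent.S13.result P hred)

/-- **No Frey package**, from modularity of semistable curves with even discriminant. -/
theorem no_frey_even (h60 : S60Even) (h38 : S38Prop) (h39 : S39Prop) (P : FreyPackage) : False :=
  no_frey_of_modularInput P
    (modularInput_even P.pp (by have := P.hp5; omega) h60 h38 h39)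

end Fermat.Agent.Descent
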