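import Fermat.Agent.Descent.Defs
import Fermat.Agent.LOC.TateGalois
import Fermat.Agent.LOC.Multiplicative
import Fermat.Agent.EllRed.Equivariance
import Fermat.Agent.EllTorsion.Frey

/-!
# Descent: facts on the curve `freyZ A B`, unramifiedness at primes with `n ∣ v_q(Δ)`

* `freyZ_Δ`, `freyZ_c₄`, `isSemistableModel_freyZ`
* `galoisRepUnramifiedAt_of_dvd` : `E[n]` is unramified at `q ∤ n` if `q` is semistable and
  `n ∣ v_q(Δ)`.
-/

set_option autoImplicit false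

open WeierstrassCurve WeierstrassCurve.Affine WeierstrassCurve.Affine.Point

namespace Fermat.Agent.Descent

section curve

variable {A B : ℤ}

theorem four_mul_a₂ (hA : A % 4 = 3) (hB : (32 : ℤ) ∣ B) : 4 * (freyZ A B).a₂ = B - 1 - A := by
  change 4 * ((B - 1 - A) / 4) = _
  omega

theorem sixteen_mul_a₄ (hB : (32 : ℤ) ∣ B) : 16 * (freyZ A B).a₄ = -A * B := by
  obtain ⟨l, rfl⟩ := hB
  change 16 * ((-A * (32 * l)) / 16) = _
  apply Int.mul_ediv_cancel'
  exact ⟨-A * (2 * l), by ring⟩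

@[simp] theorem freyZ_a₁ : (freyZ A B).a₁ = 1 := rfl
@[simp] theorem freyZ_a₃ : (freyZ A B).a₃ = 0 := rfl
@[simp] theorem freyZ_a₆ : (freyZ A B).a₆ = 0 := rfl

theorem freyZ_c₄ (hA : A % 4 = 3) (hB : (32 : ℤ) ∣ B) :
    (freyZ A B).c₄ = A ^ 2 + A * B + B ^ 2 := by
  have h2 := four_mul_a₂ hA hB
  have h4 := sixteen_mul_a₄ (A := A) hB
  have e2 : B - A = 4 * (freyZ A B).a₂ + 1 := by linarith
  have e4 : A * B = -(16 * (freyZ A B).a₄) := by rw [h4]; ring
  have e : A ^ 2 + A * B + B ^ 2 = (B - A) ^ 2 + 3 * (A * B) := by ring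
  rw [e, e2, e4]
  simp only [WeierstrassCurve.c₄, WeierstrassCurve.b₂, WeierstrassCurve.b₄, freyZ_a₁, freyZ_a₃]
  ring

theorem freyZ_Δ (hA : A % 4 = 3) (hB : (32 : ℤ) ∣ B) :
    256 * (freyZ A B).Δ = (A * B * (A + B)) ^ 2 := by
  have h2 := four_mul_a₂ hA hB
  have h4 := sixteen_mul_a₄ (A := A) hB
  have e2 : B - A = 4 * (freyZ A B).a₂ + 1 := by linarith
  have e4 : A * B = -(16 * (freyZ A B).a₄) := by rw [h4]; ring
  have e : (A * B * (A + B)) ^ 2 = (A * B) ^ 2 * ((B - A) ^ 2 + 4 * (A * B)) := by ring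
  rw [e, e2, e4]
  simp only [WeierstrassCurve.Δ, WeierstrassCurve.b₂, WeierstrassCurve.b₄,
    WeierstrassCurve.b₆, WeierstrassCurve.b₈, freyZ_a₁, freyZ_a₃, freyZ_a₆]
  ring

variable {p : ℕ}

theorem IsTri.ABC_ne_zero (h : IsTri p A B) : A * B * (A + B) ≠ 0 :=
  mul_ne_zero (mul_ne_zero h.A0 h.B0) h.C0

theorem IsTri.Δ_ne_zero (h : IsTri p A B) : (freyZ A B).Δ ≠ 0 := by
  intro h0
  have := freyZ_Δ h.A4 h.B32
  rw [h0, mul_zero] at this
  exact h.ABC_ne_zero (pow_eq_zero_iff two_ne_zero |>.mp this.symm)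

theorem IsTri.dvd_of_dvd_Δ (h : IsTri p A B) {q : ℕ} (hq : q.Prime)
    (hd : (q : ℤ) ∣ (freyZ A B).Δ) : (q : ℤ) ∣ A * B * (A + B) := by
  refine (Nat.prime_iff_prime_int.mp hq).dvd_of_dvd_pow (n := 2) ?_
  rw [← freyZ_Δ h.A4 h.B32]
  exact Dvd.dvd.mul_left hd 256

theorem IsTri.isSemistableModel (h : IsTri p A B) : (freyZ A B).IsSemistableModel := by
  intro q hq hd hc
  have hq' : Prime (q : ℤ) := Nat.prime_iff_prime_int.1 hq
  have hABC := h.dvd_of_dvd_Δ hq hd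
  rw [freyZ_c₄ h.A4 h.B32] at hc
  have key : (q : ℤ) ∣ A → (q : ℤ) ∣ B → False := fun hA hB =>
    hq'.not_isUnit (h.cop.isUnit_of_dvd' hA hB)
  rcases hq'.dvd_or_dvd hABC with h1 | h1
  · rcases hq'.dvd_or_dvd h1 with h1 | h1
    · refine key h1 (hq'.dvd_of_dvd_pow (n := 2) ?_)
      have e : B ^ 2 = (A ^ 2 + A * B + B ^ 2) - A * (A + B) := by ring
      rw [e]
      exact dvd_sub hc (h1.mul_right _)
    · refine key (hq'.dvd_of_dvd_pow (n := 2) ?_) h1
      have e : A ^ 2 = (A ^ 2 + A * B + B ^ 2) - B * (A + B) := by ring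
      rw [e]
      exact dvd_sub hc (h1.mul_right _)
  · have h2 : (q : ℤ) ∣ A * B := by
      have e : A * B = (A + B) * (A + B) - (A ^ 2 + A * B + B ^ 2) := by ring
      rw [e]
      exact dvd_sub (h1.mul_right _) hc
    rcases hq'.dvd_or_dvd h2 with h3 | h3
    · exact key h3 (by simpa using dvd_sub h1 h3)
    · exact key (by simpa using dvd_sub h1 h3) h3

/-- `p ∣ v_q(Δ)` for odd `q`. -/
theorem IsTri.dvd_padicValInt_Δ (h : IsTri p A B) {q : ℕ} (hq : q.Prime) (hq2 : q ≠ 2) :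
    p ∣ padicValInt q (freyZ A B).Δ := by
  have : Fact q.Prime := ⟨hq⟩
  have h1 := congrArg (padicValInt q) (freyZ_Δ h.A4 h.B32)
  have h256 : padicValInt q (256 : ℤ) = 0 := by
    refine padicValInt.eq_zero_of_not_dvd fun hd => hq2 ?_
    have h2 : q ∣ 2 ^ 8 := by exact_mod_cast hd
    exact (Nat.prime_dvd_prime_iff_eq hq Nat.prime_two).mp (hq.dvd_of_dvd_pow h2)
  rw [padicValInt.mul (by norm_num) h.Δ_ne_zero, h256, zero_add, sq,
    padicValInt.mul h.ABC_ne_zero h.ABC_ne_zero, padicValInt.mul (mul_ne_zero h.A0 h.B0) h.C0,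
    padicValInt.mul h.A0 h.B0] at h1
  rw [h1]
  have hA := h.oddA q hq hq2
  have hB := h.oddB q hq hq2
  have hC := h.oddC q hq hq2
  exact dvd_add (dvd_add (dvd_add hA hB) hC) (dvd_add (dvd_add hA hB) hC)

end curve

section unram

open Fermat.Agent.LOC Fermat.Agent.ECRed

variable {L : Type*} [Field L] [Algebra ℚ L] [DecidableEq L] [IsAlgClosed L]
  [Algebra.IsAlgebraic ℚ L]

/-- **Unramifiedness at a semistable prime with `n ∣ v_q(Δ)`.** -/
theorem galoisRepUnramifiedAt_of_dvd (W : WeierstrassCurve ℤ) (hΔ : W.Δ ≠ 0) {q n : ℕ}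
    (hq : q.Prime) (hss : (q : ℤ) ∣ W.Δ → ¬ (q : ℤ) ∣ W.c₄) (hqn : ¬ q ∣ n)
    (hn : n ∣ padicValInt q W.Δ) :
    GaloisRepUnramifiedAt ℚ L (W.map (Int.castRingHom ℚ)) n q := by
  by_cases hd : (q : ℤ) ∣ W.Δ
  swap
  · exact EllRed.galoisRepUnramifiedAt_of_good W hq hd hqn
  intro A hA σ hσ x
  apply Subtype.ext
  have hx := (Submodule.mem_torsionBy_iff (n : ℤ) x.1).1 x.2
  rw [Nat.cast_smul_eq_nsmul] at hx
  have : Fact q.Prime := ⟨hq⟩
  have hchar : CharZero L := algebraRat.charZero L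
  have hcop : ∀ n : ℤ, ¬ (q : ℤ) ∣ n → IsCoprime n (q : ℤ) := fun n hn =>
    ((Nat.prime_iff_prime_int.mp hq).coprime_iff_not_dvd.mpr hn).symm
  obtain ⟨m, hm⟩ := hn
  -- `Δ = q ^ (n m) * u`
  obtain ⟨u, hu⟩ : (q : ℤ) ^ (n * m) ∣ W.Δ := by
    rw [← hm]
    exact padicValInt_dvd W.Δ
  have hu' : ¬ (q : ℤ) ∣ u := by
    rintro ⟨w, rfl⟩
    have h1 : (q : ℤ) ^ (n * m + 1) ∣ W.Δ := ⟨w, by rw [hu]; ring⟩
    rw [padicValInt_dvd_iff] at h1
    rcases h1 with h1 | h1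
    · exact hΔ h1
    · omega
  change σ • (x.1 : ((W.map (Int.castRingHom ℚ)).toAffine.baseChange L).Point) = x.1
  refine fixed_of_dvd (v := A.valuation)
    (W := (W.map (Int.castRingHom ℚ)).baseChange L) two_ne_zero three_ne_zero
    (intCoeff_baseChange_int W _) ?_ ?_ ?_
    (valuation_nat_eq_one A hA ((Nat.Prime.coprime_iff_not_dvd hq).mpr hqn).symm)
    (σ : L →+* L) (decomposition_valuation A (mem_decomposition_of_inertia A hσ))
    (fun x hx => inertia_sub A hσ hx) ?_ ?_ ?_ ?_ ?_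
    (DistribSMul.toAddMonoidHom ((W.map (Int.castRingHom ℚ)).toAffine.baseChange L).Point σ)
    (fun x y h => ⟨_, rfl⟩) (b := ((q : L) ^ m)) ?_ ?_ hx
  · rw [baseChange_int_c₄]
    exact valuation_int_eq_one A hA (hcop _ (hss hd))
  · rw [baseChange_int_Δ]
    exact valuation_int_lt_one A hA hd
  · rw [baseChange_int_Δ]
    exact_mod_cast hΔ
  · rw [baseChange_int_a₁]; exact map_intCast σ _
  · rw [baseChange_int_a₂]; exact map_intCast σ _
  · rw [baseChange_int_a₃]; exact map_intCast σ _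
  · rw [baseChange_int_a₄]; exact map_intCast σ _
  · rw [baseChange_int_a₆]; exact map_intCast σ _
  · change σ ((q : L) ^ m) = (q : L) ^ m
    rw [map_pow, map_natCast]
  · rw [baseChange_int_Δ, hu]
    push_cast
    rw [map_mul, valuation_int_eq_one A hA (hcop _ hu'), mul_one, ← map_pow, ← pow_mul,
      mul_comm m n]

end unram

end Fermat.Agent.Descent
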