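import Fermat.Agent.Descent.FreyZ
import Fermat.Agent.S13Lib.Main
import Fermat.Agent.S13Lib.NoFixed
import Fermat.Agent.ECRed.VarChange

set_option autoImplicit false

/-!
# Descent: the Galois-theoretic data (piece G)

`galInput : 5 ≤ p → p.Prime → GalInput p`.
-/

open WeierstrassCurve WeierstrassCurve.Affine WeierstrassCurve.Affine.Point
open Fermat.Agent.EllTorsion Fermat.Agent.EllRed Fermat.Agent.ECRed Fermat.Agent.S13Lib

namespace Fermat.Agent.Descent

local notation "Qb" => AlgebraicClosure ℚ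

namespace GalAux

theorem two_dvd_a₄ {A B : ℤ} (hB : (32 : ℤ) ∣ B) : (2 : ℤ) ∣ (freyZ A B).a₄ := by
  have h4 := sixteen_mul_a₄ (A := A) hB
  obtain ⟨l, hl⟩ := hB
  refine ⟨-A * l, ?_⟩
  have : 16 * (freyZ A B).a₄ = 16 * (2 * (-A * l)) := by rw [h4, hl]; ring
  omega

theorem a₄_ne_zero {A B : ℤ} {p : ℕ} (h : IsTri p A B) : (freyZ A B).a₄ ≠ 0 := by
  intro h0
  have h1 := sixteen_mul_a₄ (A := A) h.B32
  rw [h0, mul_zero] at h1
  exact mul_ne_zero (neg_ne_zero.mpr h.A0) h.B0 h1.symm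

/-- A curve `y² + xy = x³ + a₂ x² + a₄ x` with multiplicative reduction at `2` and `p ∤ v₂(a₄)` has
no rational point of order `p ≥ 5`. -/
theorem no_fixed_torsion_gen {W₀ : WeierstrassCurve ℤ} {E : WeierstrassCurve ℚ}
    (hE : W₀.map (Int.castRingHom ℚ) = E) (hΔ : W₀.Δ ≠ 0) (ha1 : W₀.a₁ = 1) (ha3 : W₀.a₃ = 0)
    (ha6 : W₀.a₆ = 0) (h4dvd : (2 : ℤ) ∣ W₀.a₄) (hZ40 : W₀.a₄ ≠ 0) {p : ℕ} (hp : p.Prime)
    (hp5 : 5 ≤ p) (hval2 : ¬ (p : ℤ) ∣ (padicValInt 2 W₀.a₄ : ℤ)) (Q : (E⁄Qb).Point)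
    (hQ : p • Q = 0) (hfix : ∀ σ : Qb ≃ₐ[ℚ] Qb, σ • Q = Q) : Q = 0 := by
  by_contra hQ0
  obtain ⟨A, hA⟩ := Fermat.Agent.FrobExists.exists_liesOverPrime Qb Nat.prime_two
  have hell := isElliptic_of_Δ hE hΔ
  have hell' : WeierstrassCurve.IsElliptic (E⁄Qb) := isElliptic_baseChange _
  have hmap := map_map_eq hE
  have ha₂ : (E⁄Qb).a₂ = ((W₀.a₂ : ℤ) : Qb) := by rw [hmap]; rfl
  have ha₄ : (E⁄Qb).a₄ = ((W₀.a₄ : ℤ) : Qb) := by rw [hmap]; rfl
  have hform : FreyForm (E⁄Qb) := by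
    constructor
    · rw [hmap]; simp [ha1]
    · rw [hmap]; simp [ha3]
    · rw [hmap]; simp [ha6]
  have hcop : Nat.Coprime p 2 := by
    rw [Nat.coprime_primes hp Nat.prime_two]; omega
  have hvp := valuation_nat_eq_one A hA hcop
  have h2' : A.valuation (E⁄Qb).a₂ ≤ 1 := by rw [ha₂]; exact v_int_le_one _
  have h4' : A.valuation (E⁄Qb).a₄ < 1 := by rw [ha₄]; exact v_int_two_lt hA h4dvd
  have h40' : (E⁄Qb).a₄ ≠ 0 := by rw [ha₄]; exact_mod_cast hZ40
  have hv2 : A.valuation (2 : Qb) < 1 := by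
    have := v_int_two_lt hA (n := 2) (dvd_refl _)
    simpa using this
  have hI : IntCoeff A.valuation (E⁄Qb) := by
    constructor
    · rw [hform.a₁, _root_.map_one]
    · exact h2'
    · rw [hform.a₃, _root_.map_zero]; exact zero_le
    · exact h4'.le
    · rw [hform.a₆, _root_.map_zero]; exact zero_le
  -- coordinates of multiples are rational
  have hrat : ∀ (k : ℕ) (x y : Qb) (h : (E⁄Qb).Nonsingular x y),
      k • Q = Point.some x y h → (∃ r : ℚ, x = (r : Qb)) ∧ (∃ s : ℚ, y = (s : Qb)) := by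
    intro k x y h e
    have hσ : ∀ σ : Qb ≃ₐ[ℚ] Qb, σ x = x ∧ σ y = y := by
      intro σ
      have h1 : σ • (k • Q) = k • Q := by
        rw [algEquiv_smul_def, map_nsmul, ← algEquiv_smul_def, hfix]
      rw [e, algEquiv_smul_def, Point.map_some, Point.some.injEq] at h1
      exact h1
    exact ⟨exists_rat_of_fixed fun σ => (hσ σ).1, exists_rat_of_fixed fun σ => (hσ σ).2⟩
  obtain ⟨k, hk⟩ := twoAdic hform h2' h4' h40' hv2 hp hp5 hvp hQ hQ0 (by
    intro k x y h e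
    obtain ⟨⟨r, hr⟩, ⟨s, hs⟩⟩ := hrat k x y h e
    have hkt : p • (Point.some x y h : (E⁄Qb).Point) = 0 := by
      rw [← e, ← mul_smul, mul_comm, mul_smul, hQ]; exact nsmul_zero k
    obtain ⟨hx, hy⟩ := v_le_one_of_torsion hI h hvp hkt
    rw [hr] at hx ⊢
    rw [hs] at hy ⊢
    exact ⟨rat_mod_two hA hx, rat_mod_two hA hy⟩)
  have hv40 : A.valuation (E⁄Qb).a₄ ≠ 0 := (Valuation.ne_zero_iff _).mpr h40'
  obtain ⟨r, hr⟩ : ∃ r : ℚ, ECRed.xc (k • Q) = (r : Qb) := by
    generalize hR : k • Q = R at hk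
    rcases R with _ | ⟨x, y, h⟩
    · exact ⟨0, by simp [ECRed.xc]⟩
    · obtain ⟨⟨r, hr⟩, -⟩ := hrat k x y h hR
      exact ⟨r, hr⟩
  rw [hr, ha₄] at hk
  rw [ha₄] at hv40
  have hr0 : r ≠ 0 := by
    rintro rfl
    rw [Rat.cast_zero, _root_.map_zero, zero_pow hp.ne_zero] at hk
    exact (pow_ne_zero 2 hv40) hk.symm
  have hs : A.valuation (((r ^ p / (W₀.a₄ : ℚ) ^ 2 : ℚ)) : Qb) = 1 := by
    push_cast
    rw [map_div₀, map_pow, map_pow, hk, div_self (pow_ne_zero 2 hv40)]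
  have hpad := padicValRat_eq_zero_of_v hA hs
  have hfact2 : Fact (Nat.Prime 2) := ⟨Nat.prime_two⟩
  have ha4Q : (W₀.a₄ : ℚ) ≠ 0 := by exact_mod_cast hZ40
  rw [padicValRat.div (pow_ne_zero _ hr0) (pow_ne_zero _ ha4Q), padicValRat.pow,
    padicValRat.pow, padicValRat.of_int] at hpad
  apply hval2
  have h1 : (p : ℤ) ∣ 2 * (padicValInt 2 W₀.a₄ : ℤ) := by
    refine ⟨padicValRat 2 r, ?_⟩
    push_cast at hpad
    linear_combination -hpad
  have h2 : IsCoprime (p : ℤ) 2 := by exact_mod_cast Nat.isCoprime_iff_coprime.mpr hcop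
  exact h2.dvd_of_dvd_mul_left h1

/-! ### The two cases of the dichotomy -/

section Dich

variable {W₀ : WeierstrassCurve ℤ} {E : WeierstrassCurve ℚ}

theorem mem_of_isIntegral (A : ValuationSubring Qb) (x : Qb) (hx : _root_.IsIntegral ℤ x) :
    x ∈ A := by
  have hA : IsIntegrallyClosedIn A Qb := inferInstance
  have h2 : _root_.IsIntegral A x := hx.tower_top
  obtain ⟨y, hy⟩ := IsIntegralClosure.isIntegral_iff (A := A) (R := A) (B := Qb) |>.mp h2
  rw [← hy]; exact y.2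

/-- If the abscissas of the points of `N` are integral, `N` is a trivial Galois module. -/
theorem fix_of_integral (hE : W₀.map (Int.castRingHom ℚ) = E) (hΔ : W₀.Δ ≠ 0)
    (hss : ∀ q : ℕ, q.Prime → (q : ℤ) ∣ W₀.Δ → ¬ (q : ℤ) ∣ W₀.c₄) {p : ℕ} (hp : p.Prime)
    {N : Submodule (ZMod p) (Submodule.torsionBy ℤ (E⁄Qb).Point p)}
    (hN : IsGaloisStable (K := Qb) ℚ N) (hb : N ≠ ⊥) (ht : N ≠ ⊤)
    (hdich : ∀ P ∈ N, ∀ x y h, (P : (E⁄Qb).Point) = Point.some x y h → _root_.IsIntegral ℤ x) :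
    ∀ σ : Qb ≃ₐ[ℚ] Qb, ∀ x ∈ N, σ • x = x := by
  have hfact : Fact p.Prime := ⟨hp⟩
  have hell := isElliptic_of_Δ hE hΔ
  have hrank := finrank_torsionBy_rat E hp.ne_zero hp.ne_one
  let H : Subgroup (Qb ≃ₐ[ℚ] Qb) :=
    { carrier := {σ | ∀ x ∈ N, σ • x = x}
      mul_mem' := fun {a b} ha hb x hx => by
        rw [mul_smul, hb x hx, ha x hx]
      one_mem' := fun x _ => one_smul _ x
      inv_mem' := fun {a} ha x hx => by
        rw [inv_smul_eq_iff, ha x hx] }
  have hH : H.Normal := by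
    constructor
    intro σ hσ g x hx
    rw [mul_smul, mul_smul, hσ (g⁻¹ • x) (hN _ _ hx), smul_inv_smul]
  have hopen : IsOpen (H : Set (Qb ≃ₐ[ℚ] Qb)) :=
    isOpen_of_fix hE hΔ hp H (fun σ h x _ => h x)
  have htop := Fermat.Agent.LOC.Minkowski.eq_top_of_inertia_le H hopen ?_
  · intro σ
    have : σ ∈ H := by rw [htop]; trivial
    exact this
  · intro q hq A hA σ hσ
    obtain ⟨E0, l1, l2, l3⟩ := exists_local hE hq (hss q hq) A hA hσ
    refine fix_of_disjoint hrank hb ht (DistribSMul.toAddMonoidHom _ σ) (hN σ)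
      (AddSubgroup.toZModSubmodule p
        (E0.comap (Submodule.torsionBy ℤ (E⁄Qb).Point p).subtype.toAddMonoidHom))
      {P | (P : (E⁄Qb).Point) = 0 ∨ ∃ x y h, (P : (E⁄Qb).Point) = .some x y h ∧ x ∉ A} ?_ ?_ ?_
    · intro x hx
      exact l1 _ hx
    · intro x
      exact l3 _
    · rintro x (hx | ⟨a, b, h, hx, hxA⟩) hxN
      · exact Subtype.ext hx
      · exact absurd (mem_of_isIntegral A a (hdich x hxN a b h hx)) hxA

/-- If the abscissas of the points outside `N` are integral, `E[p]/N` is a trivial Galois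
module. -/
theorem cofix_of_integral (hE : W₀.map (Int.castRingHom ℚ) = E) (hΔ : W₀.Δ ≠ 0)
    (hss : ∀ q : ℕ, q.Prime → (q : ℤ) ∣ W₀.Δ → ¬ (q : ℤ) ∣ W₀.c₄) {p : ℕ} (hp : p.Prime)
    {N : Submodule (ZMod p) (Submodule.torsionBy ℤ (E⁄Qb).Point p)}
    (hN : IsGaloisStable (K := Qb) ℚ N) (hb : N ≠ ⊥) (ht : N ≠ ⊤)
    (hdich : ∀ P ∉ N, ∀ x y h, (P : (E⁄Qb).Point) = Point.some x y h → _root_.IsIntegral ℤ x) :
    ∀ σ : Qb ≃ₐ[ℚ] Qb, ∀ x : Submodule.torsionBy ℤ (E⁄Qb).Point p, σ • x - x ∈ N := by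
  have hfact : Fact p.Prime := ⟨hp⟩
  have hell := isElliptic_of_Δ hE hΔ
  have hrank := finrank_torsionBy_rat E hp.ne_zero hp.ne_one
  let H : Subgroup (Qb ≃ₐ[ℚ] Qb) :=
    { carrier := {σ | ∀ x : Submodule.torsionBy ℤ (E⁄Qb).Point p, σ • x - x ∈ N}
      mul_mem' := fun {a b} ha hb x => by
        have h1 := ha (b • x)
        have h2 := hb x
        have := N.add_mem h1 h2
        rwa [sub_add_sub_cancel, ← mul_smul] at this
      one_mem' := fun x => by rw [one_smul, sub_self]; exact N.zero_mem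
      inv_mem' := fun {a} ha x => by
        have h1 := ha (a⁻¹ • x)
        rw [smul_inv_smul] at h1
        rw [← neg_sub]
        exact N.neg_mem h1 }
  have hH : H.Normal := by
    constructor
    intro σ hσ g x
    have h1 := hN g _ (hσ (g⁻¹ • x))
    rw [smul_sub, smul_inv_smul, ← mul_smul, ← mul_smul] at h1
    exact h1
  have hopen : IsOpen (H : Set (Qb ≃ₐ[ℚ] Qb)) :=
    isOpen_of_fix hE hΔ hp H (fun σ h x => by rw [h x, sub_self]; exact N.zero_mem)
  have htop := Fermat.Agent.LOC.Minkowski.eq_top_of_inertia_le H hopen ?_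
  · intro σ
    have : σ ∈ H := by rw [htop]; trivial
    exact this
  · intro q hq A hA σ hσ
    obtain ⟨E0, l1, l2, l3⟩ := exists_local hE hq (hss q hq) A hA hσ
    refine sub_mem_of_le hrank hb ht (DistribSMul.toAddMonoidHom _ σ) (hN σ)
      (AddSubgroup.toZModSubmodule p
        (E0.comap (Submodule.torsionBy ℤ (E⁄Qb).Point p).subtype.toAddMonoidHom))
      {P | (P : (E⁄Qb).Point) = 0 ∨ ∃ x y h, (P : (E⁄Qb).Point) = .some x y h ∧ x ∉ A}
      ?_ ?_ ?_ ?_ ?_
    · intro x hx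
      exact l1 _ hx
    · rintro x (hx | ⟨a, b, h, hx, hxA⟩)
      · change (x : (E⁄Qb).Point) ∈ E0
        rw [hx]; exact zero_mem _
      · change (x : (E⁄Qb).Point) ∈ E0
        rw [hx]; exact l2 a b h hxA
    · intro x
      exact l3 _
    · rintro x (hx | ⟨a, b, h, hx, hxA⟩)
      · have : x = 0 := Subtype.ext hx
        rw [this]; exact N.zero_mem
      · by_contra hxN
        exact absurd (mem_of_isIntegral A a (hdich x hxN a b h hx)) hxA
    · intro c x
      exact ZMod.map_smul (DistribSMul.toAddMonoidHom _ σ :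
        Submodule.torsionBy ℤ (E⁄Qb).Point p →+ Submodule.torsionBy ℤ (E⁄Qb).Point p) c x

end Dich

/-! ### Transport to the Legendre model -/

section Transport

variable {A B : ℤ}

/-- `x_leg = 4 x`, `y_leg = 8 y + 4 x`. -/
noncomputable def vc : VariableChange Qb := ⟨Units.mk0 2 two_ne_zero, 0, 1, 0⟩

theorem vc_smul (hA4 : A % 4 = 3) (hB32 : (32 : ℤ) ∣ B) : vc • ((leg (fun i => ((eZ A B i : ℤ) : ℚ)))⁄Qb) =
    (((freyZ A B).map (Int.castRingHom ℚ))⁄Qb) := by
  have h2 := four_mul_a₂ hA4 hB32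
  have h4 := sixteen_mul_a₄ (A := A) hB32
  have h2' : (4 : Qb) * ((freyZ A B).a₂ : Qb) = (B : Qb) - 1 - A := by exact_mod_cast h2
  have h4' : (16 : Qb) * ((freyZ A B).a₄ : Qb) = -(A : Qb) * B := by exact_mod_cast h4
  have h2n : (2 : Qb) ≠ 0 := two_ne_zero
  rw [map_map_eq (W₀ := freyZ A B) rfl]
  ext
  · simp [variableChange_def, vc, leg, freyZ_a₁]
  · have : (2 : Qb) ^ 2 * ((freyZ A B).a₂ : Qb) = -(0 + (A : Qb) + -(B : Qb)) - 1 := by
      linear_combination h2'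
    simp only [variableChange_def, vc, leg, eZ]
    simp
    rw [inv_mul_eq_iff_eq_mul₀ (pow_ne_zero 2 h2n)]
    linear_combination -this
  · simp [variableChange_def, vc, leg, freyZ_a₃]
  · have : (2 : Qb) ^ 4 * ((freyZ A B).a₄ : Qb) = -((A : Qb) * B) := by
      linear_combination h4'
    simp only [variableChange_def, vc, leg, eZ]
    simp
    rw [← mul_neg, ← this, inv_mul_cancel_left₀ (pow_ne_zero 4 h2n)]
  · simp [variableChange_def, vc, leg, freyZ_a₆, eZ]

theorem exists_equiv {F : Type*} [Field F] [DecidableEq F] (W W' : WeierstrassCurve F)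
    (C : VariableChange F) (h : C • W = W') :
    ∃ e : W'.toAffine.Point ≃+ W.toAffine.Point, ∀ x y hns, ∃ hns',
      e (.some x y hns) = .some (vcX C x) (vcY C x y) hns' := by
  subst h
  exact ⟨vcEquiv W C, fun x y h => ⟨_, rfl⟩⟩

/-- The isomorphism from `freyZ A B` to the Legendre model. -/
theorem exists_transport (hA4 : A % 4 = 3) (hB32 : (32 : ℤ) ∣ B) :
    ∃ e : ((((freyZ A B).map (Int.castRingHom ℚ)))⁄Qb).Point ≃+
        ((leg (fun i => ((eZ A B i : ℤ) : ℚ)))⁄Qb).Point,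
      (∀ (σ : Qb ≃ₐ[ℚ] Qb) P, e (σ • P) = σ • e P) ∧
      ∀ x y hns, xc (e (.some x y hns)) = 4 * x := by
  obtain ⟨e, he⟩ := exists_equiv _ _ _ (vc_smul hA4 hB32)
  refine ⟨e, fun σ P => ?_, fun x y hns => ?_⟩
  · rcases P with _ | ⟨x, y, hns⟩
    · have h1 : e (0 : ((((freyZ A B).map (Int.castRingHom ℚ)))⁄Qb).Point) = 0 := _root_.map_zero e
      change e 0 = σ • e 0
      rw [h1]
      rfl
    · obtain ⟨h1, e1⟩ := he x y hns
      rw [e1, algEquiv_smul_def, algEquiv_smul_def, Point.map_some, Point.map_some]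
      obtain ⟨h2, e2⟩ := he (σ x) (σ y) ((baseChange_nonsingular _ σ.toAlgHom.injective x y).mpr hns)
      refine e2.trans ?_
      rw [Point.some.injEq]
      have hσ2 : σ (2 : Qb) = 2 := map_ofNat σ 2
      constructor
      · change vcX vc (σ x) = σ (vcX vc x)
        simp [vcX, vc, hσ2]
      · change vcY vc (σ x) (σ y) = σ (vcY vc x y)
        simp [vcY, vc, hσ2]
  · obtain ⟨h1, e1⟩ := he x y hns
    rw [e1]
    change vcX vc x = 4 * x
    simp only [vcX, vc, Units.val_mk0, add_zero]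
    norm_num

end Transport

/-! ### Conclusion -/

theorem coe_zmod_smul {p : ℕ} {E : WeierstrassCurve ℚ} [NeZero p] (c : ZMod p)
    (x : Submodule.torsionBy ℤ (E⁄Qb).Point p) :
    ((c • x : Submodule.torsionBy ℤ (E⁄Qb).Point p) : (E⁄Qb).Point) = c.val • (x : (E⁄Qb).Point) := by
  have h1 : c • x = ((c.val : ℕ) : ZMod p) • x := by rw [ZMod.natCast_zmod_val]
  rw [h1, Nat.cast_smul_eq_nsmul]
  rfl

end GalAux

open GalAux

/-- **(G)** -/
theorem galInput {p : ℕ} (hp : p.Prime) (hp5 : 5 ≤ p) : GalInput p := by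
  intro A B hT hred
  have hfact : Fact p.Prime := ⟨hp⟩
  have hp2 : p ≠ 2 := by omega
  set E : WeierstrassCurve ℚ := (freyZ A B).map (Int.castRingHom ℚ) with hEdef
  have hE : (freyZ A B).map (Int.castRingHom ℚ) = E := rfl
  have hΔ := hT.Δ_ne_zero
  have hell := isElliptic_of_Δ hE hΔ
  have hss := hT.isSemistableModel
  have hrank := finrank_torsionBy_rat E hp.ne_zero hp.ne_one
  have hnt : Nontrivial (Submodule.torsionBy ℤ (E⁄Qb).Point p) :=
    Module.nontrivial_of_finrank_pos (R := ZMod p) (by rw [hrank]; norm_num)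
  rw [WeierstrassCurve.ModRepIsIrreducible, GaloisRepIsIrreducible, not_and] at hred
  have hred' := hred hnt
  push Not at hred'
  obtain ⟨N, hN, hb, ht⟩ := hred'
  -- no rational torsion
  have hval : ¬ (p : ℤ) ∣ (padicValInt 2 (freyZ A B).a₄ : ℤ) := by
    intro hd
    apply hT.two
    have hfact2 : Fact (Nat.Prime 2) := ⟨Nat.prime_two⟩
    have h4 := sixteen_mul_a₄ (A := A) hT.B32
    have h1 : padicValInt 2 (16 * (freyZ A B).a₄) = padicValInt 2 (-A * B) := by rw [h4]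
    rw [padicValInt.mul (by norm_num) (a₄_ne_zero hT), padicValInt.mul (neg_ne_zero.mpr hT.A0) hT.B0]
      at h1
    have h2 : padicValInt 2 16 = 4 := by
      rw [show (16 : ℤ) = ((2 ^ 4 : ℕ) : ℤ) by norm_num, padicValInt.of_nat,
        padicValNat.prime_pow]
    have h3 : padicValInt 2 (-A) = 0 := by
      apply padicValInt.eq_zero_of_not_dvd
      have := hT.A4
      intro hd
      have h5 : (2 : ℤ) ∣ A := (dvd_neg.mp (by exact_mod_cast hd))
      omega
    rw [h2, h3] at h1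
    have h6 : ((padicValInt 2 B : ℕ) : ℤ) - 4 = (padicValInt 2 (freyZ A B).a₄ : ℤ) := by
      have : padicValInt 2 B = 4 + padicValInt 2 (freyZ A B).a₄ := by omega
      rw [this]; push_cast; ring
    rw [h6]; exact hd
  have hnofix : ∀ Q : (E⁄Qb).Point, p • Q = 0 → (∀ σ : Qb ≃ₐ[ℚ] Qb, σ • Q = Q) → Q = 0 :=
    no_fixed_torsion_gen hE hΔ freyZ_a₁ freyZ_a₃ freyZ_a₆ (two_dvd_a₄ hT.B32) (a₄_ne_zero hT) hp hp5 hval
  have tors : ∀ Q : Submodule.torsionBy ℤ (E⁄Qb).Point p, p • (Q : (E⁄Qb).Point) = 0 := by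
    intro Q
    rw [← Nat.cast_smul_eq_nsmul ℤ]
    exact (Submodule.mem_torsionBy_iff _ _).mp Q.2
  rcases dichotomy hE hΔ hp hp2 hN with hdich | hdich
  · exfalso
    apply hb
    rw [Submodule.eq_bot_iff]
    intro x hx
    apply Subtype.ext
    refine hnofix x.1 (tors x) fun σ => ?_
    exact congrArg Subtype.val (fix_of_integral hE hΔ hss hp hN hb ht hdich σ x hx)
  · have hcofix := cofix_of_integral hE hΔ hss hp hN hb ht hdich
    obtain ⟨g₀, hg₀, hg₀0⟩ := (Submodule.ne_bot_iff _).mp hb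
    obtain ⟨r₀, -, hr₀⟩ := SetLike.exists_of_lt (lt_top_iff_ne_top.mpr ht)
    -- everything in `N` is a multiple of `g₀`
    have hspan : ∀ x ∈ N, ∃ c : ZMod p, x = c • g₀ := by
      intro x hx
      have h1 : N ≤ Submodule.span (ZMod p) {g₀} :=
        le_of_mem_of_mem hrank hb ht hg₀0 hg₀ (Submodule.mem_span_singleton_self g₀)
      obtain ⟨c, hc⟩ := Submodule.mem_span_singleton.mp (h1 hx)
      exact ⟨c, hc.symm⟩
    obtain ⟨e, heσ, hex⟩ := exists_transport hT.A4 hT.B32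
    have hmemN : ∀ x ∈ N, e (x : (E⁄Qb).Point) ∈ AddSubgroup.zmultiples (e (g₀ : (E⁄Qb).Point)) := by
      intro x hx
      obtain ⟨c, rfl⟩ := hspan x hx
      rw [coe_zmod_smul, map_nsmul]
      exact AddSubgroup.nsmul_mem_zmultiples _ _
    refine ⟨⟨e (g₀ : (E⁄Qb).Point), e (r₀ : (E⁄Qb).Point), ?_, ?_, ?_, ?_, ?_, ?_, ?_⟩⟩
    · rw [← map_nsmul, tors, _root_.map_zero]
    · intro h0
      apply hg₀0
      apply Subtype.ext
      exact e.injective (h0.trans (_root_.map_zero e).symm)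
    · rw [← map_nsmul, tors, _root_.map_zero]
    · intro hmem
      obtain ⟨n, hn⟩ := AddSubgroup.mem_zmultiples_iff.mp hmem
      rw [← map_zsmul] at hn
      have h1 := e.injective hn
      apply hr₀
      have h2 : r₀ = n • g₀ := Subtype.ext h1.symm
      rw [h2]
      exact N.toAddSubgroup.zsmul_mem hg₀ n
    · intro σ
      rw [← heσ]
      exact hmemN _ (hN σ g₀ hg₀)
    · intro σ
      rw [← heσ, ← map_sub]
      exact hmemN _ (hcofix σ r₀)
    · intro k j hk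
      rw [← map_nsmul, ← map_nsmul, ← map_add]
      have hnot : k • r₀ + j • g₀ ∉ N := by
        intro hmem
        have h1 : k • r₀ ∈ N := by
          have := N.sub_mem hmem (N.toAddSubgroup.nsmul_mem hg₀ j)
          rwa [add_sub_cancel_right] at this
        rw [← Nat.cast_smul_eq_nsmul (ZMod p)] at h1
        have hk0 : ((k : ℕ) : ZMod p) ≠ 0 := by
          rwa [Ne, ZMod.natCast_eq_zero_iff]
        exact hr₀ ((Submodule.smul_mem_iff _ hk0).mp h1)
      have hcoe : ((k • r₀ + j • g₀ : Submodule.torsionBy ℤ (E⁄Qb).Point p) : (E⁄Qb).Point) =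
          k • (r₀ : (E⁄Qb).Point) + j • (g₀ : (E⁄Qb).Point) := rfl
      have hd := hdich _ hnot
      rw [hcoe] at hd
      have hne : k • (r₀ : (E⁄Qb).Point) + j • (g₀ : (E⁄Qb).Point) ≠ 0 := by
        intro h0
        apply hnot
        have : k • r₀ + j • g₀ = 0 := Subtype.ext h0
        rw [this]; exact N.zero_mem
      generalize k • (r₀ : (E⁄Qb).Point) + j • (g₀ : (E⁄Qb).Point) = P at hd hne
      rcases P with _ | ⟨x, y, hns⟩
      · exact absurd rfl hne
      · have h1 := hex x y hns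
        rw [h1, mul_div_cancel_left₀ _ (by norm_num)]
        exact hd x y hns rfl

end Fermat.Agent.Descent
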