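import Fermat.Agent.Descent.Defs

set_option autoImplicit false
set_option linter.unusedSectionVars false

/-!
# The curve `y² = (x - e₀)(x - e₁)(x - e₂)`: addition and duplication formulas
-/

open WeierstrassCurve WeierstrassCurve.Affine WeierstrassCurve.Affine.Point

namespace Fermat.Agent.Descent

/-- `V` is the curve `y² = (x - e₀)(x - e₁)(x - e₂)`. -/
structure IsLeg {R : Type*} [CommRing R] (V : WeierstrassCurve R) (e : Fin 3 → R) : Prop where
  a₁ : V.a₁ = 0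
  a₂ : V.a₂ = -(e 0 + e 1 + e 2)
  a₃ : V.a₃ = 0
  a₄ : V.a₄ = e 0 * e 1 + e 1 * e 2 + e 2 * e 0
  a₆ : V.a₆ = -(e 0 * e 1 * e 2)

theorem isLeg_leg {R : Type*} [CommRing R] (e : Fin 3 → R) : IsLeg (leg e) e :=
  ⟨rfl, rfl, rfl, rfl, rfl⟩

theorem IsLeg.map {R S : Type*} [CommRing R] [CommRing S] {V : WeierstrassCurve R} {e : Fin 3 → R}
    (h : IsLeg V e) (f : R →+* S) : IsLeg (V.map f) (fun i => f (e i)) where
  a₁ := by rw [WeierstrassCurve.map_a₁, h.a₁, _root_.map_zero]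
  a₂ := by rw [WeierstrassCurve.map_a₂, h.a₂]; simp
  a₃ := by rw [WeierstrassCurve.map_a₃, h.a₃, _root_.map_zero]
  a₄ := by rw [WeierstrassCurve.map_a₄, h.a₄]; simp
  a₆ := by rw [WeierstrassCurve.map_a₆, h.a₆]; simp

section Cyc

variable {R : Type*} [CommRing R] (e : Fin 3 → R)

theorem sum_rot (i : Fin 3) : e 0 + e 1 + e 2 = e i + e (i + 1) + e (i + 2) := by
  match i with
  | 0 => rfl
  | 1 => change e 0 + e 1 + e 2 = e 1 + e 2 + e 0; ring
  | 2 => change e 0 + e 1 + e 2 = e 2 + e 0 + e 1; ring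

theorem sum₂_rot (i : Fin 3) : e 0 * e 1 + e 1 * e 2 + e 2 * e 0 =
    e i * e (i + 1) + e (i + 1) * e (i + 2) + e (i + 2) * e i := by
  match i with
  | 0 => rfl
  | 1 => change _ = e 1 * e 2 + e 2 * e 0 + e 0 * e 1; ring
  | 2 => change _ = e 2 * e 0 + e 0 * e 1 + e 1 * e 2; ring

theorem prod_rot (i : Fin 3) : e 0 * e 1 * e 2 = e i * e (i + 1) * e (i + 2) := by
  match i with
  | 0 => rfl
  | 1 => change _ = e 1 * e 2 * e 0; ring
  | 2 => change _ = e 2 * e 0 * e 1; ring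

theorem fin3_ne₁ (i : Fin 3) : i ≠ i + 1 := by
  match i with
  | 0 => decide
  | 1 => decide
  | 2 => decide

theorem fin3_ne₂ (i : Fin 3) : i ≠ i + 2 := by
  match i with
  | 0 => decide
  | 1 => decide
  | 2 => decide

theorem fin3_ne₁₂ (i : Fin 3) : i + 1 ≠ i + 2 := by
  match i with
  | 0 => decide
  | 1 => decide
  | 2 => decide

end Cyc

section Ring

variable {R : Type*} [CommRing R] {V : WeierstrassCurve R} {e : Fin 3 → R} (hV : IsLeg V e)

include hV

theorem IsLeg.eq_leg : V = leg e := by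
  ext
  · exact hV.a₁
  · exact hV.a₂
  · exact hV.a₃
  · exact hV.a₄
  · exact hV.a₆

theorem IsLeg.equation_iff {x y : R} :
    V.toAffine.Equation x y ↔ y ^ 2 = (x - e 0) * (x - e 1) * (x - e 2) := by
  rw [Affine.equation_iff, hV.a₁, hV.a₂, hV.a₃, hV.a₄, hV.a₆]
  constructor
  · intro h; linear_combination h
  · intro h; linear_combination h

theorem IsLeg.Δ_eq :
    V.Δ = 16 * ((e 0 - e 1) * (e 1 - e 2) * (e 2 - e 0)) ^ 2 := by
  rw [WeierstrassCurve.Δ, WeierstrassCurve.b₂, WeierstrassCurve.b₄, WeierstrassCurve.b₆,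
    WeierstrassCurve.b₈, hV.a₁, hV.a₂, hV.a₃, hV.a₄, hV.a₆]
  ring

theorem IsLeg.negY {x y : R} : V.toAffine.negY x y = -y := by
  rw [Affine.negY, hV.a₁, hV.a₃]; ring

end Ring

section Field

variable {F : Type*} [Field F] {V : WeierstrassCurve F} {e : Fin 3 → F} (hV : IsLeg V e)

@[simp] theorem xc_zero : xc (0 : V.toAffine.Point) = 0 := rfl
@[simp] theorem yc_zero : yc (0 : V.toAffine.Point) = 0 := rfl
@[simp] theorem xc_some {x y : F} {h : V.toAffine.Nonsingular x y} :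
    xc (Point.some x y h : V.toAffine.Point) = x := rfl
@[simp] theorem yc_some {x y : F} {h : V.toAffine.Nonsingular x y} :
    yc (Point.some x y h : V.toAffine.Point) = y := rfl

theorem xc_neg (P : V.toAffine.Point) : xc (-P) = xc P := by
  rcases P with _ | ⟨x, y, h⟩
  · rfl
  · rw [Point.neg_some]; rfl

theorem exists_some {P : V.toAffine.Point} (hP : P ≠ 0) :
    ∃ h, P = Point.some (xc P) (yc P) h := by
  rcases P with _ | ⟨x, y, h⟩
  · exact absurd rfl hP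
  · exact ⟨h, rfl⟩

theorem Δ_ne_zero_of_isLeg (hV : IsLeg V e) (h2 : (2 : F) ≠ 0) (he : Function.Injective e) :
    V.Δ ≠ 0 := by
  rw [hV.Δ_eq]
  have h01 : e 0 - e 1 ≠ 0 := sub_ne_zero.mpr fun h => absurd (he h) (by decide)
  have h12 : e 1 - e 2 ≠ 0 := sub_ne_zero.mpr fun h => absurd (he h) (by decide)
  have h20 : e 2 - e 0 ≠ 0 := sub_ne_zero.mpr fun h => absurd (he h) (by decide)
  have h16 : (16 : F) ≠ 0 := by
    have : (16 : F) = 2 ^ 4 := by norm_num
    rw [this]; exact pow_ne_zero _ h2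
  exact mul_ne_zero h16 (pow_ne_zero 2 (mul_ne_zero (mul_ne_zero h01 h12) h20))

include hV

theorem IsLeg.yc_neg (P : V.toAffine.Point) : yc (-P) = -yc P := by
  rcases P with _ | ⟨x, y, h⟩
  · exact neg_zero.symm
  · rw [Point.neg_some]
    exact hV.negY

theorem IsLeg.equation {P : V.toAffine.Point} (hP : P ≠ 0) :
    yc P ^ 2 = (xc P - e 0) * (xc P - e 1) * (xc P - e 2) := by
  obtain ⟨h, -⟩ := exists_some hP
  exact hV.equation_iff.mp h.1

variable [DecidableEq F]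

/-- Points with the same abscissa are equal or opposite. -/
theorem IsLeg.eq_or_eq_neg {P Q : V.toAffine.Point} (hP : P ≠ 0) (hQ : Q ≠ 0)
    (h : xc P = xc Q) : P = Q ∨ P = -Q := by
  rcases P with _ | ⟨x, y, hxy⟩
  · exact absurd rfl hP
  rcases Q with _ | ⟨x', y', hxy'⟩
  · exact absurd rfl hQ
  simp only [xc_some] at h
  subst h
  exact (X_eq_iff (h₁ := hxy) (h₂ := hxy')).mp rfl

/-- Addition formula for points with distinct abscissas. -/
theorem IsLeg.add_of_ne {x₁ y₁ x₂ y₂ : F} (h₁ : V.toAffine.Nonsingular x₁ y₁)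
    (h₂ : V.toAffine.Nonsingular x₂ y₂) (hx : x₁ ≠ x₂) :
    ∃ h, (Point.some x₁ y₁ h₁ + Point.some x₂ y₂ h₂ : V.toAffine.Point) =
      Point.some (((y₁ - y₂) / (x₁ - x₂)) ^ 2 + (e 0 + e 1 + e 2) - x₁ - x₂)
        (-(((y₁ - y₂) / (x₁ - x₂)) *
          (((y₁ - y₂) / (x₁ - x₂)) ^ 2 + (e 0 + e 1 + e 2) - x₁ - x₂ - x₁) + y₁)) h := by
  have hxy : ¬(x₁ = x₂ ∧ y₁ = V.toAffine.negY x₂ y₂) := fun h => hx h.1
  have e1 := Point.add_some hxy (h₁ := h₁) (h₂ := h₂)
  have hs : V.toAffine.slope x₁ x₂ y₁ y₂ = (y₁ - y₂) / (x₁ - x₂) := slope_of_X_ne hx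
  have e2 : V.toAffine.addX x₁ x₂ (V.toAffine.slope x₁ x₂ y₁ y₂) =
      ((y₁ - y₂) / (x₁ - x₂)) ^ 2 + (e 0 + e 1 + e 2) - x₁ - x₂ := by
    rw [hs, addX, hV.a₁, hV.a₂]; ring
  have e3 : V.toAffine.addY x₁ x₂ y₁ (V.toAffine.slope x₁ x₂ y₁ y₂) =
      -(((y₁ - y₂) / (x₁ - x₂)) *
          (((y₁ - y₂) / (x₁ - x₂)) ^ 2 + (e 0 + e 1 + e 2) - x₁ - x₂ - x₁) + y₁) := by
    rw [addY, negAddY, hV.negY, e2, hs]
  have hn := nonsingular_add h₁ h₂ hxy
  rw [e2, e3] at hn
  refine ⟨hn, ?_⟩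
  rw [e1, Point.some.injEq]
  exact ⟨e2, e3⟩

/-- **Lemma A.** -/
theorem IsLeg.xc_add_mul_xc_sub {P Q : V.toAffine.Point} (hP : P ≠ 0) (hQ : Q ≠ 0)
    (h : xc P ≠ xc Q) (i : Fin 3) :
    (xc (P + Q) - e i) * (xc (P - Q) - e i) * (xc P - xc Q) ^ 2 =
      ((xc P - e i) * (xc Q - e i) - (e i - e (i + 1)) * (e i - e (i + 2))) ^ 2 := by
  have e1 := hV.equation hP
  have e2 := hV.equation hQ
  obtain ⟨n1, E1⟩ := exists_some hP
  obtain ⟨n2, E2⟩ := exists_some hQ
  have hQ' : -Q ≠ 0 := neg_ne_zero.mpr hQ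
  obtain ⟨n3, E3⟩ := exists_some hQ'
  have hxq : xc (-Q) = xc Q := xc_neg Q
  have hyq : yc (-Q) = -yc Q := hV.yc_neg Q
  obtain ⟨k1, a1⟩ := hV.add_of_ne n1 n2 h
  obtain ⟨k2, a2⟩ := hV.add_of_ne n1 n3 (by rw [hxq]; exact h)
  rw [← E1, ← E2] at a1
  rw [← E1, ← E3, ← sub_eq_add_neg] at a2
  rw [a1, a2]
  simp only [xc_some]
  rw [hxq, hyq]
  generalize xc P = x₁ at *
  generalize xc Q = x₂ at *
  generalize yc P = y₁ at *
  generalize yc Q = y₂ at *
  have hd : x₁ - x₂ ≠ 0 := sub_ne_zero.mpr h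
  rw [sum_rot e i]
  have e1' : y₁ ^ 2 = (x₁ - e i) * (x₁ - e (i + 1)) * (x₁ - e (i + 2)) := by
    rw [e1]
    linear_combination -x₁ ^ 2 * sum_rot e i + x₁ * sum₂_rot e i - prod_rot e i
  have e2' : y₂ ^ 2 = (x₂ - e i) * (x₂ - e (i + 1)) * (x₂ - e (i + 2)) := by
    rw [e2]
    linear_combination -x₂ ^ 2 * sum_rot e i + x₂ * sum₂_rot e i - prod_rot e i
  clear e1 e2
  generalize e i = ε at *
  generalize e (i + 1) = b at *
  generalize e (i + 2) = c at *
  rw [sub_neg_eq_add]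
  field_simp
  set t := b + c - x₁ - x₂ with ht
  set f₁ := (x₁ - ε) * (x₁ - b) * (x₁ - c) with hf₁
  set f₂ := (x₂ - ε) * (x₂ - b) * (x₂ - c) with hf₂
  linear_combination (y₁ ^ 2 - y₂ ^ 2 + f₁ - f₂ + 2 * t * (x₁ - x₂) ^ 2) * e1' +
    (-(y₁ ^ 2 - y₂ ^ 2 + f₁ - f₂) + 2 * t * (x₁ - x₂) ^ 2) * e2'

end Field

section Dup

variable {F : Type*} [Field F] {V : WeierstrassCurve F} {e : Fin 3 → F}

/-- The function `u_i(2S)` as a function of `S = (x, y)`. -/
def wf (e : Fin 3 → F) (i : Fin 3) (x y : F) : F :=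
  ((x - e i) * (x - e (i + 1)) + (x - e i) * (x - e (i + 2)) - (x - e (i + 1)) * (x - e (i + 2))) /
    (2 * y)

theorem wf_add (h2 : (2 : F) ≠ 0) (i : Fin 3) {x y : F} (hy : y ≠ 0) :
    wf e i x y + wf e (i + 1) x y = (x - e i) * (x - e (i + 1)) / y := by
  have e1 : e (i + 1 + 1) = e (i + 2) := by congr 1; omega
  have e2 : e (i + 1 + 2) = e i := by congr 1; omega
  rw [wf, wf, e1, e2]
  field_simp
  ring

theorem wf_neg (i : Fin 3) {x y : F} : wf e i x (-y) = - wf e i x y := by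
  rw [wf, wf, mul_neg, div_neg]

theorem prod_wf (i : Fin 3) (x y : F) :
    wf e 0 x y * wf e 1 x y * wf e 2 x y = wf e i x y * wf e (i + 1) x y * wf e (i + 2) x y := by
  match i with
  | 0 => rfl
  | 1 => change _ = wf e 1 x y * wf e 2 x y * wf e 0 x y; ring
  | 2 => change _ = wf e 2 x y * wf e 0 x y * wf e 1 x y; ring

variable [DecidableEq F]

/-- The duplication formula. -/
theorem IsLeg.add_self (hV : IsLeg V e) (h2 : (2 : F) ≠ 0) {P : V.toAffine.Point} (hP : P ≠ 0)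
    (hy : yc P ≠ 0) :
    P + P ≠ 0 ∧ (∀ i, xc (P + P) - e i = wf e i (xc P) (yc P) ^ 2) ∧
      yc (P + P) = wf e 0 (xc P) (yc P) * wf e 1 (xc P) (yc P) * wf e 2 (xc P) (yc P) := by
  have e1 := hV.equation hP
  obtain ⟨n1, E1⟩ := exists_some hP
  have hne : yc P ≠ V.toAffine.negY (xc P) (yc P) := by
    rw [hV.negY]
    intro h
    have : 2 * yc P = 0 := by linear_combination h
    exact (mul_ne_zero h2 hy) this
  have hxy : ¬(xc P = xc P ∧ yc P = V.toAffine.negY (xc P) (yc P)) := fun h => hne h.2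
  have e2 := Point.add_some hxy (h₁ := n1) (h₂ := n1)
  rw [← E1] at e2
  have hs : V.toAffine.slope (xc P) (xc P) (yc P) (yc P) =
      (3 * xc P ^ 2 - 2 * (e 0 + e 1 + e 2) * xc P + (e 0 * e 1 + e 1 * e 2 + e 2 * e 0)) /
        (2 * yc P) := by
    rw [slope_of_Y_ne rfl hne, hV.negY, hV.a₁, hV.a₂, hV.a₄]
    congr 1 <;> ring
  rw [e2]
  refine ⟨fun h => (Point.some_ne_zero _ h), ?_, ?_⟩
  · intro i
    rw [xc_some, addX, hs, hV.a₁, hV.a₂, wf]
    have e1' : yc P ^ 2 = (xc P - e i) * (xc P - e (i + 1)) * (xc P - e (i + 2)) := by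
      rw [e1]
      linear_combination -xc P ^ 2 * sum_rot e i + xc P * sum₂_rot e i - prod_rot e i
    rw [sum_rot e i, sum₂_rot e i]
    clear e1 e2 hs
    generalize e i = a at *
    generalize e (i + 1) = b at *
    generalize e (i + 2) = c at *
    generalize xc P = x at *
    generalize yc P = y at *
    field_simp
    linear_combination (4 * (b + c - 2 * x)) * e1'
  · rw [yc_some, addY, negAddY, hV.negY, addX, hs, hV.a₁, hV.a₂, wf, wf, wf]
    have r1 : (0 : Fin 3) + 1 = 1 := rfl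
    have r2 : (0 : Fin 3) + 2 = 2 := rfl
    have r3 : (1 : Fin 3) + 1 = 2 := rfl
    have r4 : (1 : Fin 3) + 2 = 0 := rfl
    have r5 : (2 : Fin 3) + 1 = 0 := rfl
    have r6 : (2 : Fin 3) + 2 = 1 := rfl
    rw [r1, r2, r3, r4, r5, r6]
    clear e2 hs
    generalize e 0 = a at *
    generalize e 1 = b at *
    generalize e 2 = c at *
    generalize xc P = x at *
    generalize yc P = y at *
    field_simp
    linear_combination (4 * ((x - a) * (x - b) + (x - b) * (x - c) + (x - c) * (x - a)) *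
      ((x - a) + (x - b) + (x - c)) - 8 * (y ^ 2 + (x - a) * (x - b) * (x - c))) * e1

/-- A nonzero point of odd order is not a `2`-torsion point. -/
theorem IsLeg.yc_ne_zero_of_odd (hV : IsLeg V e) {P : V.toAffine.Point} (hP : P ≠ 0) {n : ℕ}
    (hn : Odd n) (hnP : n • P = 0) : yc P ≠ 0 := by
  intro hy
  obtain ⟨h, E⟩ := exists_some hP
  have h1 : -P = P := by
    rw [E, Point.neg_some, Point.some.injEq]
    exact ⟨rfl, by rw [hV.negY, hy, _root_.neg_zero]⟩
  obtain ⟨k, rfl⟩ := hn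
  have h2 : (2 : ℕ) • P = 0 := by
    rw [two_nsmul]
    nth_rewrite 1 [← h1]
    exact neg_add_cancel P
  have h3 : (2 * k) • P = 0 := by rw [mul_comm, mul_smul, h2, smul_zero]
  rw [add_nsmul, h3, zero_add, one_nsmul] at hnP
  exact hP hnP

theorem IsLeg.xc_ne_of_odd (hV : IsLeg V e) {P : V.toAffine.Point} (hP : P ≠ 0) {n : ℕ}
    (hn : Odd n) (hnP : n • P = 0) (i : Fin 3) : xc P ≠ e i := by
  intro hx
  apply hV.yc_ne_zero_of_odd hP hn hnP
  have h := hV.equation hP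
  have h' : yc P ^ 2 = (xc P - e i) * (xc P - e (i + 1)) * (xc P - e (i + 2)) := by
    rw [h]
    linear_combination -xc P ^ 2 * sum_rot e i + xc P * sum₂_rot e i - prod_rot e i
  rw [hx, sub_self, zero_mul, zero_mul] at h'
  exact pow_eq_zero_iff two_ne_zero |>.mp h'

end Dup

section Prod

theorem prod_range_odd {M : Type*} [CommMonoid M] (m : ℕ) (f : ℕ → M) :
    ∏ j ∈ Finset.range (2 * m + 1), f j =
      f 0 * ∏ j ∈ Finset.Icc 1 m, (f j * f (2 * m + 1 - j)) := by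
  have h1 : Finset.Icc 1 m = Finset.Ico 1 (m + 1) := by
    ext a; rw [Finset.mem_Icc, Finset.mem_Ico]; omega
  rw [Finset.prod_mul_distrib, h1]
  have h2 := Finset.prod_Ico_reflect f 1 (show m + 1 ≤ 2 * m + 1 + 1 by omega)
  rw [h2, show 2 * m + 1 + 1 - (m + 1) = m + 1 by omega,
    show 2 * m + 1 + 1 - 1 = 2 * m + 1 by omega,
    Finset.prod_Ico_consecutive f (by omega) (by omega), Finset.range_eq_Ico,
    Finset.prod_eq_prod_Ico_succ_bot (by omega)]

variable {A : Type*} [AddCommGroup A] {G : A} {m : ℕ} (hG : (2 * m + 1) • G = 0)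

include hG

theorem nsmul_sub_eq_neg {j : ℕ} (hj : j ≤ 2 * m + 1) : (2 * m + 1 - j) • G = -(j • G) := by
  rw [eq_neg_iff_add_eq_zero, ← add_nsmul, Nat.sub_add_cancel hj, hG]

theorem prod_periodic_one {M : Type*} [CommMonoid M] (h : A → M) (P : A) :
    ∏ j ∈ Finset.range (2 * m + 1), h (P + G + j • G) =
      ∏ j ∈ Finset.range (2 * m + 1), h (P + j • G) := by
  have h1 : ∀ j : ℕ, P + G + j • G = P + (j + 1) • G := by
    intro j; rw [succ_nsmul]; abel
  simp only [h1]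
  rw [Finset.prod_range_succ, hG, Finset.prod_range_succ']
  simp

theorem prod_periodic {M : Type*} [CommMonoid M] (h : A → M) (P : A) (k : ℕ) :
    ∏ j ∈ Finset.range (2 * m + 1), h (P + k • G + j • G) =
      ∏ j ∈ Finset.range (2 * m + 1), h (P + j • G) := by
  induction k with
  | zero => simp
  | succ k ih =>
    rw [← ih, ← prod_periodic_one hG h (P + k • G)]
    refine Finset.prod_congr rfl fun j _ => ?_
    rw [succ_nsmul]
    congr 1
    abel

theorem prod_periodic_sub {M : Type*} [CommMonoid M] (h : A → M) (P : A) {k : ℕ}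
    (hk : k ≤ 2 * m + 1) :
    ∏ j ∈ Finset.range (2 * m + 1), h (P - k • G + j • G) =
      ∏ j ∈ Finset.range (2 * m + 1), h (P + j • G) := by
  rw [← prod_periodic hG h P (2 * m + 1 - k), nsmul_sub_eq_neg hG hk, ← sub_eq_add_neg]

end Prod

section Prod2

variable {F : Type*} [Field F] [DecidableEq F] {V : WeierstrassCurve F} {e : Fin 3 → F}
  (hV : IsLeg V e) {G : V.toAffine.Point} {m : ℕ} (hG : (2 * m + 1) • G = 0)
  (hG' : ∀ j, 0 < j → j < 2 * m + 1 → j • G ≠ 0)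

include hV hG hG'

/-- product formula over a coset of the cyclic group generated by `G` -/
theorem IsLeg.prod_formula {P : V.toAffine.Point} (hP : P ≠ 0)
    (hx : ∀ j ∈ Finset.Icc 1 m, xc P ≠ xc (j • G)) (i : Fin 3) :
    (∏ j ∈ Finset.range (2 * m + 1), (xc (P + j • G) - e i)) *
        ∏ j ∈ Finset.Icc 1 m, (xc P - xc (j • G)) ^ 2 =
      (xc P - e i) * ∏ j ∈ Finset.Icc 1 m,
        ((xc P - e i) * (xc (j • G) - e i) - (e i - e (i + 1)) * (e i - e (i + 2))) ^ 2 := by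
  rw [prod_range_odd, zero_nsmul, add_zero, mul_assoc, ← Finset.prod_mul_distrib]
  congr 1
  refine Finset.prod_congr rfl fun j hj => ?_
  rw [Finset.mem_Icc] at hj
  rw [nsmul_sub_eq_neg hG (by omega), ← sub_eq_add_neg]
  exact hV.xc_add_mul_xc_sub hP (hG' j (by omega) (by omega))
    (hx j (Finset.mem_Icc.mpr hj)) i

/-- the abscissas `x(jG)`, `1 ≤ j ≤ m`, are distinct -/
theorem IsLeg.xc_nsmul_injOn : Set.InjOn (fun j : ℕ => xc (j • G)) (Finset.Icc 1 m : Finset ℕ) := by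
  intro j hj k hk h
  simp only [Finset.coe_Icc, Set.mem_Icc] at hj hk h
  rcases hV.eq_or_eq_neg (hG' j (by omega) (by omega)) (hG' k (by omega) (by omega)) h with h1 | h1
  · rcases lt_trichotomy j k with h2 | h2 | h2
    · exfalso
      apply hG' (k - j) (by omega) (by omega)
      rw [sub_nsmul _ (by omega), h1]; abel
    · exact h2
    · exfalso
      apply hG' (j - k) (by omega) (by omega)
      rw [sub_nsmul _ (by omega), h1]; abel
  · exfalso
    apply hG' (j + k) (by omega) (by omega)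
    rw [add_nsmul, h1]; abel

end Prod2

end Fermat.Agent.Descent
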