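import Mathlib
import Fermat.Agent.LOC.TateForm

/-!
# Valuations of the abscissas of `p`-torsion points at a multiplicative place

For a curve with multiplicative reduction over an algebraically closed valued field, the component
index of a `p`-torsion point is an element of `ZMod p`, it is additive, and it determines the
valuation of the abscissa.
-/

set_option autoImplicit false
set_option linter.unusedSectionVars false

namespace Fermat.Agent.Descent

open WeierstrassCurve WeierstrassCurve.Affine Fermat.Agent.ECRed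
open Fermat.Agent.LOC Fermat.Agent.LOC.TatePhi Fermat.Agent.LOC.TateHom

variable {K Γ₀ : Type*} [Field K] [DecidableEq K] [LinearOrderedCommGroupWithZero Γ₀]
  {v : Valuation K Γ₀} {c : K}

lemma zpow_inj_of_lt {a : Γ₀} (h0 : a ≠ 0) (h1 : a < 1) {m n : ℤ} (h : a ^ m = a ^ n) : m = n :=
  (zpow_right_strictAnti₀ (zero_lt_iff.mpr h0) h1).injective h

/-- `n` is the index of the component of the `p`-torsion point `P`. -/
def IsIdx (hc1 : v c < 1) (hc : c ≠ 0) (p : ℕ) (P : (nf c).toAffine.Point) (n : ℤ) : Prop :=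
  ∃ u : K, u ≠ 0 ∧ phi hc1 hc P = Additive.ofMul (cls v c u) ∧ v u ^ p = v c ^ n

namespace IsIdx

variable {hc1 : v c < 1} {hc : c ≠ 0} {p : ℕ} {P Q : (nf c).toAffine.Point} {m n : ℤ}

lemma add (hP : IsIdx hc1 hc p P m) (hQ : IsIdx hc1 hc p Q n) :
    IsIdx hc1 hc p (P + Q) (m + n) := by
  obtain ⟨u, hu, h1, h2⟩ := hP
  obtain ⟨w, hw, h3, h4⟩ := hQ
  refine ⟨u * w, mul_ne_zero hu hw, ?_, ?_⟩
  · rw [map_add, h1, h3, cls_mul hu hw]; rfl
  · rw [map_mul, mul_pow, h2, h4, zpow_add₀ ((Valuation.ne_zero_iff v).mpr hc)]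

lemma zero : IsIdx hc1 hc p 0 0 := ⟨1, one_ne_zero, by rw [map_zero, cls_one]; rfl, by simp⟩

lemma modEq (hP : IsIdx hc1 hc p P m) (hQ : IsIdx hc1 hc p P n) : m ≡ n [ZMOD p] := by
  obtain ⟨u, hu, h1, h2⟩ := hP
  obtain ⟨w, hw, h3, h4⟩ := hQ
  have hvc := (Valuation.ne_zero_iff v).mpr hc
  have h5 : cls v c (u / w) = 1 := by
    rw [cls_div hu hw, div_eq_one]
    exact Additive.ofMul.injective (h1.symm.trans h3)
  obtain ⟨k, s, hs, h6⟩ := (cls_eq_one_iff (div_ne_zero hu hw)).mp h5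
  have h7 : v u = v w * v c ^ k := by
    have h8 := congrArg v h6
    rw [map_div₀, map_mul, v_eq_one_of_mem_oneUnits hs, one_mul, map_zpow₀, Valuation.map_neg,
      div_eq_iff ((Valuation.ne_zero_iff v).mpr hw)] at h8
    rw [h8, mul_comm]
  rw [h7, mul_pow, h4, ← zpow_natCast, ← zpow_mul, ← zpow_add₀ hvc] at h2
  have h9 := zpow_inj_of_lt hvc hc1 h2
  exact (Int.modEq_iff_dvd.mpr ⟨-k, by rw [← h9]; ring⟩)

lemma exists_of_torsion (hP : p • P = 0) : ∃ n, IsIdx hc1 hc p P n := by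
  obtain ⟨u, hu⟩ := mkQ_surjective v c (Additive.toMul (phi hc1 hc P))
  have h1 : phi hc1 hc P = Additive.ofMul (mkQ v c u) := by rw [hu]; rfl
  have h2 : mkQ v c (u ^ p) = 1 := by
    have h3 := congrArg (phi hc1 hc) hP
    rw [map_nsmul, map_zero, h1, ← ofMul_pow] at h3
    rw [map_pow]
    exact Additive.ofMul.injective h3
  rw [mkQ_eq_one_iff, mem_H] at h2
  obtain ⟨n, w, hw, h4⟩ := h2
  refine ⟨n, u, u.ne_zero, by rw [cls_units]; exact h1, ?_⟩
  have h5 := congrArg v h4
  rwa [Units.val_pow_eq_pow_val, map_pow, map_mul, v_eq_one_of_mem_oneUnits hw, one_mul, map_zpow₀,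
    Valuation.map_neg] at h5

end IsIdx

section Points

variable (hc1 : v c < 1) (hc : c ≠ 0) {p : ℕ}

lemma isIdx_of_one_le {x y : K} (h : (nf c).toAffine.Nonsingular x y) (hx : 1 ≤ v x) :
    IsIdx hc1 hc p (.some x y h) 0 := by
  have he := nf_equation.mp h.1
  have q := isPhi_rep v c x y
  obtain ⟨h1, -⟩ := isPhi_nonsing hc1 he hx q
  exact ⟨_, q.ne_zero hc1 hc he, phi_some hc1 hc h q, by rw [h1, one_pow, zpow_zero]⟩

/-- Valuation of the abscissa of a `p`-torsion point reducing to the node. -/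
lemma node_val (hp : Odd p) {x y : K} (h : (nf c).toAffine.Nonsingular x y) (hx : v x < 1)
    (hP : p • (Point.some x y h : (nf c).toAffine.Point) = 0) :
    ∃ n : ℕ, IsIdx hc1 hc p (.some x y h) n ∧ 0 < n ∧ n < p ∧ v x ^ p = v c ^ min n (p - n) := by
  have hvc := (Valuation.ne_zero_iff v).mpr hc
  have hvc0 : 0 < v c := zero_lt_iff.mpr hvc
  have he := nf_equation.mp h.1
  have q := isPhi_rep v c x y
  set φ := rep v c x y with hφ
  obtain ⟨b1, b2⟩ := isPhi_node_bounds hc1 hc he hx q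
  obtain ⟨k, u, hu, hk1, hk2⟩ := IsIdx.exists_of_torsion (hc1 := hc1) (hc := hc) hP
  have hφ0 : φ ≠ 0 := q.ne_zero hc1 hc he
  have hphi := phi_some hc1 hc h q
  -- `v φ ^ p = v c ^ m`
  obtain ⟨m, hm⟩ : ∃ m : ℤ, v φ ^ p = v c ^ m := by
    have h5 : cls v c (φ / u) = 1 := by
      rw [cls_div hφ0 hu, div_eq_one]
      exact Additive.ofMul.injective (hphi.symm.trans hk1)
    obtain ⟨l, s, hs, h6⟩ := (cls_eq_one_iff (div_ne_zero hφ0 hu)).mp h5
    refine ⟨k + l * p, ?_⟩
    have h7 : v φ = v u * v c ^ l := by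
      have h8 := congrArg v h6
      rw [map_div₀, map_mul, v_eq_one_of_mem_oneUnits hs, one_mul, map_zpow₀, Valuation.map_neg,
        div_eq_iff ((Valuation.ne_zero_iff v).mpr hu)] at h8
      rw [h8, mul_comm]
    rw [h7, mul_pow, hk2, ← zpow_natCast, ← zpow_mul, ← zpow_add₀ hvc]
  have hanti := zpow_right_strictAnti₀ hvc0 hc1
  have hp0 : p ≠ 0 := by rintro rfl; simp at hp
  have hm0 : 0 < m := by
    have : v c ^ m < v c ^ (0 : ℤ) := by
      rw [← hm, zpow_zero]; exact pow_lt_one₀ zero_le b2 hp0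
    exact hanti.lt_iff_gt.mp this
  have hmp : m < p := by
    have : v c ^ (p : ℤ) < v c ^ m := by
      rw [← hm, zpow_natCast]; exact pow_lt_pow_left₀ b1 zero_le hp0
    exact hanti.lt_iff_gt.mp this
  lift m to ℕ using hm0.le with n hn
  have hnpos : 0 < n := by exact_mod_cast hm0
  have hnp : n < p := by exact_mod_cast hmp
  rw [zpow_natCast] at hm
  refine ⟨n, ⟨φ, hφ0, hphi, by rw [zpow_natCast]; exact hm⟩, hnpos, hnp, ?_⟩
  have hantiN : ∀ {a b : ℕ}, v c ^ a < v c ^ b → b < a := fun {a b} hab => by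
    have : v c ^ (a : ℤ) < v c ^ (b : ℤ) := by rwa [zpow_natCast, zpow_natCast]
    exact_mod_cast hanti.lt_iff_gt.mp this
  -- `v y ≠ v (x + y)`
  have hlt := v_lt_one_of_lt hc1 he hx
  -- a general computation
  have aux : ∀ {s t : K}, s * t = x ^ 3 + c → v s < v t → v t < 1 → v x = v t →
      ∀ a : ℕ, v t ^ p = v c ^ a → 2 * a < p := by
    intro s t hst h1 h2 h3 a ha
    have ht0 : 0 < v t := lt_of_le_of_lt zero_le h1
    have h4 : v c < v t ^ 2 := by
      have h5 : c = s * t - x ^ 3 := by rw [hst]; ring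
      have h6 : v (s * t) < v t ^ 2 := by
        rw [map_mul, sq]; exact mul_lt_mul_of_pos_right h1 ht0
      have h7 : v (x ^ 3) < v t ^ 2 := by
        rw [map_pow, h3]
        exact pow_lt_pow_right_of_lt_one₀ ht0 h2 (by norm_num)
      calc v c = v (s * t - x ^ 3) := by rw [← h5]
        _ < v t ^ 2 := v.map_sub_lt h6 h7
    have h8 : v c ^ p < v c ^ (2 * a) := by
      have h9 : v c ^ p < (v t ^ 2) ^ p := pow_lt_pow_left₀ h4 zero_le hp0
      rwa [← pow_mul, mul_comm 2 p, pow_mul, ha, ← pow_mul, mul_comm a 2] at h9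
    exact hantiN h8
  rcases lt_trichotomy (v y) (v (x + y)) with hyx | hyx | hyx
  · -- `φ = x + y`
    have hxv : v x = v (x + y) := by
      have e : x = (x + y) - y := by ring
      calc v x = v ((x + y) - y) := by rw [← e]
        _ = v (x + y) := v.map_sub_eq_of_lt_left hyx
    have hφe : φ = x + y := by
      rcases q with ⟨h1, -⟩ | ⟨-, -, h2⟩ | ⟨-, h1, -⟩
      · exact absurd hx (not_lt.mpr h1)
      · exact h2
      · exact absurd hyx (not_lt.mpr h1)
    rw [hφe] at hm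
    have h2a := aux he hyx hlt.2 hxv n hm
    rw [hxv, hm, min_eq_left (by omega)]
  · -- impossible
    exfalso
    have hvφ : v φ ^ 2 = v c := by
      have hy0 : 0 < v y := by
        rw [zero_lt_iff]
        intro h0
        rw [h0] at hyx
        have e1 : y = 0 := (Valuation.zero_iff v).mp h0
        have e2 : x + y = 0 := (Valuation.zero_iff v).mp hyx.symm
        exact ne_zero_or he hc ⟨e1, e2⟩
      have hvx : v x ≤ v y := by
        have := v_le_max_xy (v := v) x y
        rwa [← hyx, max_self] at this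
      have h1 : v (x ^ 3) < v y ^ 2 := by
        rw [map_pow]
        calc v x ^ 3 ≤ v y ^ 3 := pow_le_pow_left₀ zero_le hvx 3
          _ < v y ^ 2 := pow_lt_pow_right_of_lt_one₀ hy0 hlt.1 (by norm_num)
      have h2 : v (y * (x + y)) = v y ^ 2 := by rw [map_mul, ← hyx, sq]
      have h3 : v c = v y ^ 2 := by
        have h5 : c = y * (x + y) - x ^ 3 := by rw [he]; ring
        calc v c = v (y * (x + y) - x ^ 3) := by rw [← h5]
          _ = v (y * (x + y)) := v.map_sub_eq_of_lt_left (by rw [h2]; exact h1)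
          _ = v y ^ 2 := h2
      rcases q with ⟨h1, -⟩ | ⟨-, -, h2⟩ | ⟨-, -, h2⟩
      · exact absurd hx (not_lt.mpr h1)
      · rw [h2, ← hyx, h3]
      · have h9 : v y ^ 2 / v y = v y := by rw [sq, mul_div_assoc, div_self hy0.ne', mul_one]
        rw [h2, map_div₀, h3, h9]
    have h4 : v c ^ p = v c ^ (2 * n) := by
      rw [mul_comm 2 n, pow_mul, ← hm, ← pow_mul, mul_comm p 2, pow_mul, hvφ]
    have h5 : (p : ℤ) = (2 * n : ℕ) := zpow_inj_of_lt hvc hc1 (by rw [zpow_natCast, zpow_natCast]; exact h4)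
    obtain ⟨j, hj⟩ := hp
    push_cast at h5
    omega
  · -- `φ = c / y`
    have hxv : v x = v y := by
      have e : x = (x + y) - y := by ring
      calc v x = v ((x + y) - y) := by rw [← e]
        _ = v y := v.map_sub_eq_of_lt_right hyx
    have hφe : φ = c / y := by
      rcases q with ⟨h1, -⟩ | ⟨-, h1, -⟩ | ⟨-, -, h2⟩
      · exact absurd hx (not_lt.mpr h1)
      · exact absurd hyx (not_lt.mpr h1)
      · exact h2
    have hy0 : 0 < v y := lt_of_le_of_lt zero_le hyx
    have h1 : v y ^ p = v c ^ (p - n) := by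
      rw [hφe, map_div₀, div_pow, div_eq_iff (pow_pos hy0 p).ne'] at hm
      have h2 : v c ^ n * v c ^ (p - n) = v c ^ n * v y ^ p := by
        rw [← pow_add, Nat.add_sub_cancel' hnp.le]; exact hm
      exact (mul_left_cancel₀ (pow_pos hvc0 n).ne' h2).symm
    have h2a := aux (s := x + y) (t := y) (by rw [mul_comm]; exact he) hyx hlt.1 hxv (p - n) h1
    rw [hxv, h1, min_eq_right (by omega)]

open scoped Classical in
/-- The component index of a torsion point, modulo `p`. -/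
noncomputable def idx (p : ℕ) (P : (nf c).toAffine.Point) : ZMod p :=
  if h : ∃ n : ℤ, IsIdx hc1 hc p P n then ((h.choose : ℤ) : ZMod p) else 0

lemma idx_eq {P : (nf c).toAffine.Point} {n : ℤ} (h : IsIdx hc1 hc p P n) :
    idx hc1 hc p P = (n : ZMod p) := by
  have hex : ∃ n : ℤ, IsIdx hc1 hc p P n := ⟨n, h⟩
  rw [idx, dif_pos hex]
  exact (ZMod.intCast_eq_intCast_iff _ _ _).mpr (hex.choose_spec.modEq h)

lemma idx_zero : idx hc1 hc p 0 = 0 := by
  rw [idx_eq hc1 hc IsIdx.zero, Int.cast_zero]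

lemma idx_add {P Q : (nf c).toAffine.Point} (hP : p • P = 0) (hQ : p • Q = 0) :
    idx hc1 hc p (P + Q) = idx hc1 hc p P + idx hc1 hc p Q := by
  obtain ⟨m, hm⟩ := IsIdx.exists_of_torsion (hc1 := hc1) (hc := hc) hP
  obtain ⟨n, hn⟩ := IsIdx.exists_of_torsion (hc1 := hc1) (hc := hc) hQ
  rw [idx_eq hc1 hc hm, idx_eq hc1 hc hn, idx_eq hc1 hc (hm.add hn), Int.cast_add]

lemma one_le_of_idx_eq_zero (hp : Odd p) {x y : K} (h : (nf c).toAffine.Nonsingular x y)
    (hP : p • (Point.some x y h : (nf c).toAffine.Point) = 0)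
    (h0 : idx hc1 hc p (.some x y h) = 0) : 1 ≤ v x := by
  by_contra hx
  push Not at hx
  obtain ⟨n, hn, h1, h2, -⟩ := node_val hc1 hc hp h hx hP
  rw [idx_eq hc1 hc hn, Int.cast_natCast, ZMod.natCast_eq_zero_iff] at h0
  exact absurd (Nat.le_of_dvd h1 h0) (by omega)

lemma v_of_idx_ne_zero (hp : Odd p) {x y : K} (h : (nf c).toAffine.Nonsingular x y)
    (hP : p • (Point.some x y h : (nf c).toAffine.Point) = 0)
    (h0 : idx hc1 hc p (.some x y h) ≠ 0) :
    v x < 1 ∧ v x ^ p = v c ^ (idx hc1 hc p (.some x y h)).valMinAbs.natAbs := by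
  have hx : v x < 1 := by
    by_contra hx
    push Not at hx
    exact h0 (by rw [idx_eq hc1 hc (isIdx_of_one_le hc1 hc h hx), Int.cast_zero])
  refine ⟨hx, ?_⟩
  obtain ⟨n, hn, h1, h2, h3⟩ := node_val hc1 hc hp h hx hP
  have : NeZero p := ⟨by omega⟩
  rw [h3, idx_eq hc1 hc hn, ZMod.valMinAbs_natAbs_eq_min, Int.cast_natCast,
    ZMod.val_natCast_of_lt h2]

end Points

/-! ### General curves with multiplicative reduction -/

section Node

variable {W : WeierstrassCurve K} {x₀ y₀ α β : K} {p : ℕ}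

/-- The component index for a curve with multiplicative reduction. -/
noncomputable def cidx (h : NodeCentre v W x₀ y₀ α β) (hΔ : W.Δ ≠ 0) (p : ℕ)
    (P : W.toAffine.Point) : ZMod p :=
  idx h.v_c_lt_one (h.c_ne_zero hΔ) p (h.equiv P)

variable (h : NodeCentre v W x₀ y₀ α β) (hΔ : W.Δ ≠ 0)

lemma cidx_zero : cidx h hΔ p 0 = 0 := by rw [cidx, map_zero, idx_zero]

lemma cidx_add {P Q : W.toAffine.Point} (hP : p • P = 0) (hQ : p • Q = 0) :
    cidx h hΔ p (P + Q) = cidx h hΔ p P + cidx h hΔ p Q := by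
  rw [cidx, map_add, idx_add]
  · rfl
  · rw [← map_nsmul, hP, map_zero]
  · rw [← map_nsmul, hQ, map_zero]

lemma cidx_nsmul {P : W.toAffine.Point} (hP : p • P = 0) (k : ℕ) :
    cidx h hΔ p (k • P) = k * cidx h hΔ p P := by
  induction k with
  | zero => rw [zero_nsmul, cidx_zero, Nat.cast_zero, zero_mul]
  | succ k ih =>
    rw [succ_nsmul, cidx_add h hΔ _ hP, ih]
    · push_cast; ring
    · rw [← mul_nsmul, mul_comm, mul_nsmul, hP, nsmul_zero]

lemma one_le_of_cidx_eq_zero (hp : Odd p) {x y : K} (hxy : W.toAffine.Nonsingular x y)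
    (hP : p • (Point.some x y hxy : W.toAffine.Point) = 0)
    (h0 : cidx h hΔ p (.some x y hxy) = 0) : 1 ≤ v (x - x₀) := by
  obtain ⟨h', e⟩ := h.equiv_some hxy
  rw [cidx, e] at h0
  have h1 := one_le_of_idx_eq_zero h.v_c_lt_one (h.c_ne_zero hΔ) hp h'
    (by rw [← e, ← map_nsmul, hP, map_zero]) h0
  rwa [map_div₀, map_pow, h.sub, one_pow, div_one] at h1

lemma v_of_cidx_ne_zero (hp : Odd p) {x y : K} (hxy : W.toAffine.Nonsingular x y)
    (hP : p • (Point.some x y hxy : W.toAffine.Point) = 0)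
    (h0 : cidx h hΔ p (.some x y hxy) ≠ 0) :
    v (x - x₀) < 1 ∧
      v (x - x₀) ^ p = v W.Δ ^ (cidx h hΔ p (.some x y hxy)).valMinAbs.natAbs := by
  obtain ⟨h', e⟩ := h.equiv_some hxy
  rw [cidx, e] at h0 ⊢
  have h1 := v_of_idx_ne_zero h.v_c_lt_one (h.c_ne_zero hΔ) hp h'
    (by rw [← e, ← map_nsmul, hP, map_zero]) h0
  rwa [map_div₀, map_pow, h.sub, one_pow, div_one, h.v_c_eq] at h1

end Node

end Fermat.Agent.Descent
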