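import Mathlib
import Fermat.Agent.Descent.Defs
import Fermat.Agent.Descent.TateVal

/-!
# Valuations of abscissas of `p`-torsion points on `y² = (x - e₀)(x - e₁)(x - e₂)`
-/

set_option autoImplicit false
set_option linter.unusedSectionVars false

namespace Fermat.Agent.Descent

open WeierstrassCurve WeierstrassCurve.Affine Fermat.Agent.ECRed
open Fermat.Agent.LOC Fermat.Agent.LOC.TatePhi Fermat.Agent.LOC.TateHom

lemma fin3_cases : ∀ i l : Fin 3, l = i ∨ l = i + 1 ∨ l = i + 2 := by decide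

section Ring

variable {R S : Type*} [CommRing R] [CommRing S]

lemma leg_map (f : R →+* S) (e : Fin 3 → R) : (leg e).map f = leg fun i => f (e i) := by
  ext <;> simp [leg]

lemma leg_c₄ (e : Fin 3 → R) (i : Fin 3) : (leg e).c₄ =
    16 * ((e i - e (i + 1)) ^ 2 + (e i - e (i + 1)) * (e (i + 1) - e (i + 2)) +
      (e (i + 1) - e (i + 2)) ^ 2) := by
  simp only [WeierstrassCurve.c₄, WeierstrassCurve.b₂, WeierstrassCurve.b₄, leg]
  fin_cases i <;> simp <;> ring

lemma leg_Δ (e : Fin 3 → R) (i : Fin 3) : (leg e).Δ =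
    16 * ((e i - e (i + 1)) * (e i - e (i + 2)) * (e (i + 1) - e (i + 2))) ^ 2 := by
  simp only [WeierstrassCurve.Δ, WeierstrassCurve.b₂, WeierstrassCurve.b₄, WeierstrassCurve.b₆,
    WeierstrassCurve.b₈, leg]
  fin_cases i <;> simp <;> ring

lemma prod_three (e : Fin 3 → R) (x : R) (i : Fin 3) :
    (x - e 0) * (x - e 1) * (x - e 2) = (x - e i) * (x - e (i + 1)) * (x - e (i + 2)) := by
  fin_cases i <;> simp <;> ring

end Ring

section Field

variable {K : Type*} [Field K]

lemma leg_equation {e : Fin 3 → K} {x y : K} : (leg e).toAffine.Equation x y ↔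
    y ^ 2 = (x - e 0) * (x - e 1) * (x - e 2) := by
  rw [equation_iff]
  simp only [leg]
  constructor
  · intro h; linear_combination h
  · intro h; linear_combination h

lemma leg_negY (e : Fin 3 → K) (x y : K) : (leg e).toAffine.negY x y = -y := by
  simp [negY, leg]

variable [DecidableEq K]

/-- Duplication formula. -/
lemma leg_double {e : Fin 3 → K} (h2 : (2 : K) ≠ 0) {x y : K}
    (h : (leg e).toAffine.Nonsingular x y) (hy : y ≠ 0) :
    ∃ x' y' h', (2 • (Point.some x y h : (leg e).toAffine.Point)) = .some x' y' h' ∧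
      ∀ i : Fin 3, (x' - e i) * (4 * y ^ 2) =
        ((x - e i) ^ 2 - (e i - e (i + 1)) * (e i - e (i + 2))) ^ 2 := by
  have hne : y ≠ (leg e).toAffine.negY x y := by
    rw [leg_negY]
    intro h0
    apply hy
    have : 2 * y = 0 := by linear_combination h0
    exact (mul_eq_zero.mp this).resolve_left h2
  have hxy : ¬(x = x ∧ y = (leg e).toAffine.negY x y) := fun h => hne h.2
  refine ⟨_, _, _, by rw [two_nsmul]; exact Point.add_some hxy, fun i => ?_⟩
  have he := leg_equation.mp h.1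
  have hs : (leg e).toAffine.slope x x y y * (2 * y) =
      3 * x ^ 2 + 2 * (leg e).a₂ * x + (leg e).a₄ := by
    rw [slope_of_Y_ne rfl hne, leg_negY]
    have hd : y - -y ≠ 0 := by rw [sub_neg_eq_add, ← two_mul]; exact mul_ne_zero h2 hy
    have h2y : (2 : K) * y ≠ 0 := mul_ne_zero h2 hy
    rw [show y - -y = 2 * y by ring, div_mul_cancel₀ _ h2y]
    simp [leg]
  have hx : (leg e).toAffine.addX x x ((leg e).toAffine.slope x x y y) =
      (leg e).toAffine.slope x x y y ^ 2 - (leg e).a₂ - 2 * x := by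
    simp only [addX, leg]; ring
  rw [hx]
  set ℓ := (leg e).toAffine.slope x x y y with hℓ
  have e1 : (ℓ ^ 2 - (leg e).a₂ - 2 * x - e i) * (4 * y ^ 2) =
      (ℓ * (2 * y)) ^ 2 - ((leg e).a₂ + 2 * x + e i) * (4 * y ^ 2) := by ring
  rw [e1, hs, he]
  fin_cases i <;> simp [leg] <;> ring

variable {Γ₀ : Type*} [LinearOrderedCommGroupWithZero Γ₀] {v : Valuation K Γ₀}

lemma intCoeff_leg {e : Fin 3 → K} (he : ∀ i, v (e i) ≤ 1) : IntCoeff v (leg e) where
  a₁ := by simp [leg]
  a₂ := by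
    simp only [leg, Valuation.map_neg]
    exact v.map_add_le (v.map_add_le (he 0) (he 1)) (he 2)
  a₃ := by simp [leg]
  a₄ := by
    simp only [leg]
    exact v.map_add_le (v.map_add_le (v_imul_le (he 0) (he 1)) (v_imul_le (he 1) (he 2)))
      (v_imul_le (he 2) (he 0))
  a₆ := by
    simp only [leg, Valuation.map_neg]
    exact v_imul_le (v_imul_le (he 0) (he 1)) (he 2)

lemma inKer_of_double {W : WeierstrassCurve K} (hW : IntCoeff v W) {p : ℕ} (hp : Odd p)
    {P : W.toAffine.Point} (hP : p • P = 0) (h : InKer v (2 • P)) : InKer v P := by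
  obtain ⟨m, hm⟩ := hp
  have h1 : P = (m + 1) • (2 • P) := by
    rw [← mul_nsmul', show (m + 1) * 2 = p + 1 by omega, add_nsmul, hP, zero_add, one_nsmul]
  rw [h1]
  exact (ker_nsmul hW h (m + 1)).1

/-- A torsion point of odd order does not reduce to a nonsingular `2`-torsion point. -/
theorem v_sub_eq_one (hv2 : v (2 : K) = 1) {e : Fin 3 → K} (he : ∀ i, v (e i) ≤ 1) (i : Fin 3)
    (h1 : v (e i - e (i + 1)) = 1) (h2 : v (e i - e (i + 2)) = 1) {p : ℕ} (hp : Odd p) {x y : K}
    (h : (leg e).toAffine.Nonsingular x y)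
    (hP : p • (Point.some x y h : (leg e).toAffine.Point) = 0) (hx : v x ≤ 1) :
    v (x - e i) = 1 := by
  have h2K : (2 : K) ≠ 0 := by
    rw [← Valuation.pos_iff (v := v), hv2]; exact one_pos
  have hle : v (x - e i) ≤ 1 := (v.map_sub _ _).trans (max_le hx (he i))
  by_contra hne
  have hlt : v (x - e i) < 1 := lt_of_le_of_ne hle hne
  have hW := intCoeff_leg he
  by_cases hy : y = 0
  · -- `2`-torsion
    have h20 : 2 • (Point.some x y h : (leg e).toAffine.Point) = 0 := by
      rw [two_nsmul, Point.add_of_Y_eq rfl]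
      rw [leg_negY, hy, neg_zero]
    have : (Point.some x y h : (leg e).toAffine.Point) = 0 := by
      obtain ⟨m, hm⟩ := hp
      rw [hm, add_nsmul, mul_comm, mul_nsmul', h20, nsmul_zero, zero_add, one_nsmul] at hP
      exact hP
    exact Point.some_ne_zero _ this
  obtain ⟨x', y', h', hd, hdd⟩ := leg_double h2K h hy
  have hm1 : v (x - e (i + 1)) = 1 := by
    rw [show x - e (i + 1) = (e i - e (i + 1)) + (x - e i) by ring,
      v.map_add_eq_of_lt_left (by rw [h1]; exact hlt), h1]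
  have hm2 : v (x - e (i + 2)) = 1 := by
    rw [show x - e (i + 2) = (e i - e (i + 2)) + (x - e i) by ring,
      v.map_add_eq_of_lt_left (by rw [h2]; exact hlt), h2]
  have hy2 : v (4 * y ^ 2) = v (x - e i) := by
    rw [leg_equation.mp h.1, prod_three e x i, map_mul, map_mul, map_mul, hm1, hm2,
      show (4 : K) = 2 * 2 by norm_num, map_mul, hv2]
    simp
  have hr : v ((x - e i) ^ 2 - (e i - e (i + 1)) * (e i - e (i + 2))) = 1 := by
    rw [v.map_sub_eq_of_lt_right, map_mul, h1, h2, one_mul]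
    rw [map_mul, h1, h2, one_mul, map_pow]
    exact pow_lt_one₀ zero_le hlt two_ne_zero
  have h3 := congrArg v (hdd i)
  rw [map_mul, hy2, map_pow, hr, one_pow] at h3
  have h4 : 1 < v (x' - e i) := by
    by_contra hle'
    push Not at hle'
    have : v (x' - e i) * v (x - e i) < 1 := by
      calc v (x' - e i) * v (x - e i) ≤ 1 * v (x - e i) := mul_le_mul' hle' le_rfl
        _ < 1 := by rw [one_mul]; exact hlt
    rw [h3] at this
    exact lt_irrefl _ this
  have h5 : 1 < v x' := by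
    by_contra hle'
    push Not at hle'
    exact absurd h4 (not_lt.mpr ((v.map_sub _ _).trans (max_le hle' (he i))))
  have h6 : InKer v (2 • (Point.some x y h : (leg e).toAffine.Point)) := by
    rw [hd, inKer_some]; exact h5
  have h7 := inKer_of_double hW hp hP h6
  rw [inKer_some] at h7
  exact absurd h7 (not_lt.mpr hx)

lemma v_sub_of_one_lt {e : Fin 3 → K} (he : ∀ i, v (e i) ≤ 1) {x : K} (hx : 1 < v x) (i : Fin 3) :
    v (x - e i) = v x := v.map_sub_eq_of_lt_left (lt_of_le_of_lt (he i) hx)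

/-! ### The multiplicative case -/

section Mult

variable (hv2 : v (2 : K) = 1) {e : Fin 3 → K} (he : ∀ i, v (e i) ≤ 1) (i : Fin 3)
    (h1 : v (e i - e (i + 1)) = 1) (h2 : v (e i - e (i + 2)) = 1)
    (h3 : v (e (i + 1) - e (i + 2)) < 1)

include hv2 h1 h2 h3

lemma v_leg_c₄ : v (leg e).c₄ = 1 := by
  rw [leg_c₄ e i, show (16 : K) = 2 ^ 4 by norm_num, map_mul, map_pow, hv2, one_pow, one_mul,
    show (e i - e (i + 1)) ^ 2 + (e i - e (i + 1)) * (e (i + 1) - e (i + 2)) +
      (e (i + 1) - e (i + 2)) ^ 2 = (e i - e (i + 1)) ^ 2 +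
      ((e i - e (i + 1)) + (e (i + 1) - e (i + 2))) * (e (i + 1) - e (i + 2)) by ring,
    v.map_add_eq_of_lt_left, map_pow, h1, one_pow]
  rw [map_pow, h1, one_pow, map_mul, show (e i - e (i + 1)) + (e (i + 1) - e (i + 2)) =
    e i - e (i + 2) by ring, h2, one_mul]
  exact h3

lemma v_leg_Δ : v (leg e).Δ = v (e (i + 1) - e (i + 2)) ^ 2 := by
  rw [leg_Δ e i, show (16 : K) = 2 ^ 4 by norm_num, map_mul, map_pow, hv2, one_pow, one_mul,
    map_pow, map_mul, map_mul, h1, h2, one_mul, one_mul]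

include he in
/-- The node is close to the colliding roots. -/
lemma v_centre_sub {x₀ y₀ α β : K} (h : NodeCentre v (leg e) x₀ y₀ α β) :
    v (x₀ - e (i + 1)) ≤ v (e (i + 1) - e (i + 2)) ∧
      v (x₀ - e (i + 2)) ≤ v (e (i + 1) - e (i + 2)) := by
  have h2K : (2 : K) ≠ 0 := by
    rw [← Valuation.pos_iff (v := v), hv2]; exact one_pos
  have hy0 : y₀ = 0 := by
    have := h.hY
    simp only [leg, zero_mul, add_zero] at this
    exact (mul_eq_zero.mp this).resolve_left h2K
  -- `f(x₀)` is small and `f'(x₀) = 0`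
  have hf : v ((x₀ - e i) * (x₀ - e (i + 1)) * (x₀ - e (i + 2))) < 1 := by
    rw [← prod_three e x₀ i]
    have := h.hF
    rw [hy0] at this
    have e1 : (0 : K) ^ 2 + (leg e).a₁ * x₀ * 0 + (leg e).a₃ * 0 -
        (x₀ ^ 3 + (leg e).a₂ * x₀ ^ 2 + (leg e).a₄ * x₀ + (leg e).a₆) =
        -((x₀ - e 0) * (x₀ - e 1) * (x₀ - e 2)) := by
      simp only [leg]; ring
    rwa [e1, Valuation.map_neg] at this
  have hf' : (x₀ - e (i + 1)) * (x₀ - e (i + 2)) +
      (x₀ - e i) * ((x₀ - e (i + 1)) + (x₀ - e (i + 2))) = 0 := by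
    have := h.hX
    rw [hy0] at this
    have e1 : (x₀ - e (i + 1)) * (x₀ - e (i + 2)) +
      (x₀ - e i) * ((x₀ - e (i + 1)) + (x₀ - e (i + 2))) =
        3 * x₀ ^ 2 + 2 * (leg e).a₂ * x₀ + (leg e).a₄ - (leg e).a₁ * 0 := by
      simp only [leg]
      fin_cases i <;> simp <;> ring
    rw [e1]; exact this
  have hint : ∀ l, v (x₀ - e l) ≤ 1 := fun l => (v.map_sub _ _).trans (max_le h.int_x (he l))
  -- `x₀ - e i` is a unit
  have hi : v (x₀ - e i) = 1 := by
    by_contra hne
    have hlt : v (x₀ - e i) < 1 := lt_of_le_of_ne (hint i) hne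
    have hm1 : v (x₀ - e (i + 1)) = 1 := by
      rw [show x₀ - e (i + 1) = (e i - e (i + 1)) + (x₀ - e i) by ring,
        v.map_add_eq_of_lt_left (by rw [h1]; exact hlt), h1]
    have hm2 : v (x₀ - e (i + 2)) = 1 := by
      rw [show x₀ - e (i + 2) = (e i - e (i + 2)) + (x₀ - e i) by ring,
        v.map_add_eq_of_lt_left (by rw [h2]; exact hlt), h2]
    have h5 : v ((x₀ - e (i + 1)) * (x₀ - e (i + 2))) < 1 := by
      have : (x₀ - e (i + 1)) * (x₀ - e (i + 2)) =
        -(((x₀ - e (i + 1)) + (x₀ - e (i + 2))) * (x₀ - e i)) := by linear_combination hf'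
      rw [this, Valuation.map_neg]
      exact v_imul_lt (v.map_add_le (hint _) (hint _)) hlt
    rw [map_mul, hm1, hm2, one_mul] at h5
    exact lt_irrefl _ h5
  have hs : v (x₀ - e (i + 1)) < 1 := by
    by_contra hge
    have hs1 : v (x₀ - e (i + 1)) = 1 := le_antisymm (hint _) (not_lt.mp hge)
    have hs2 : v (x₀ - e (i + 2)) = 1 := by
      rw [show x₀ - e (i + 2) = (x₀ - e (i + 1)) + (e (i + 1) - e (i + 2)) by ring,
        v.map_add_eq_of_lt_left (by rw [hs1]; exact h3), hs1]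
    rw [map_mul, map_mul, hi, hs1, hs2, one_mul, one_mul] at hf
    exact lt_irrefl _ hf
  have key : v (x₀ - e (i + 1)) ≤ v (e (i + 1) - e (i + 2)) := by
    by_contra hgt
    push Not at hgt
    have hs2 : v (x₀ - e (i + 2)) = v (x₀ - e (i + 1)) := by
      rw [show x₀ - e (i + 2) = (x₀ - e (i + 1)) + (e (i + 1) - e (i + 2)) by ring,
        v.map_add_eq_of_lt_left hgt]
    have hs3 : v ((x₀ - e (i + 1)) + (x₀ - e (i + 2))) = v (x₀ - e (i + 1)) := by
      rw [show (x₀ - e (i + 1)) + (x₀ - e (i + 2)) =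
        2 * (x₀ - e (i + 1)) + (e (i + 1) - e (i + 2)) by ring, v.map_add_eq_of_lt_left,
        map_mul, hv2, one_mul]
      rw [map_mul, hv2, one_mul]; exact hgt
    have h5 : v (x₀ - e (i + 1)) * v (x₀ - e (i + 1)) = v (x₀ - e (i + 1)) := by
      have h6 : (x₀ - e (i + 1)) * (x₀ - e (i + 2)) =
        -((x₀ - e i) * ((x₀ - e (i + 1)) + (x₀ - e (i + 2)))) := by linear_combination hf'
      have h7 := congrArg v h6
      rwa [Valuation.map_neg, map_mul, map_mul, hi, one_mul, hs2, hs3] at h7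
    have hpos : 0 < v (x₀ - e (i + 1)) := lt_of_le_of_lt zero_le hgt
    have : v (x₀ - e (i + 1)) * v (x₀ - e (i + 1)) < v (x₀ - e (i + 1)) := by
      calc v (x₀ - e (i + 1)) * v (x₀ - e (i + 1)) < 1 * v (x₀ - e (i + 1)) :=
            mul_lt_mul_of_pos_right hs hpos
        _ = _ := one_mul _
    rw [h5] at this
    exact lt_irrefl _ this
  refine ⟨key, ?_⟩
  rw [show x₀ - e (i + 2) = (x₀ - e (i + 1)) + (e (i + 1) - e (i + 2)) by ring]
  exact v.map_add_le key le_rfl

end Mult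

/-- The local data at a multiplicative place: a component index, additive on the `p`-torsion,
which determines the valuations. -/
theorem exists_index [IsAlgClosed K] (hv2 : v (2 : K) = 1) (h3K : (3 : K) ≠ 0) {e : Fin 3 → K}
    (he : ∀ i, v (e i) ≤ 1) (i : Fin 3) (h1 : v (e i - e (i + 1)) = 1)
    (h2 : v (e i - e (i + 2)) = 1) (h3 : v (e (i + 1) - e (i + 2)) < 1)
    (h30 : e (i + 1) ≠ e (i + 2)) {p : ℕ} (hp : Odd p) :
    ∃ ι : (leg e).toAffine.Point → ZMod p, ι 0 = 0 ∧
      (∀ P Q, p • P = 0 → p • Q = 0 → ι (P + Q) = ι P + ι Q) ∧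
      ∀ x y (h : (leg e).toAffine.Nonsingular x y),
        p • (Point.some x y h : (leg e).toAffine.Point) = 0 →
        (ι (.some x y h) = 0 → ∀ l l', v (x - e l) = v (x - e l')) ∧
        (ι (.some x y h) = 0 → v x ≤ 1 → ∀ l, v (x - e l) = 1) ∧
        (v (x - e i) ^ p = 1 ∨ 1 < v x) ∧
        (ι (.some x y h) ≠ 0 → v x ≤ 1 ∧
          v (x - e (i + 1)) ^ p = v (e (i + 1) - e (i + 2)) ^
            (2 * (ι (.some x y h)).valMinAbs.natAbs) ∧
          v (x - e (i + 2)) ^ p = v (e (i + 1) - e (i + 2)) ^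
            (2 * (ι (.some x y h)).valMinAbs.natAbs)) := by
  have h2K : (2 : K) ≠ 0 := by
    rw [← Valuation.pos_iff (v := v), hv2]; exact one_pos
  have hγ0 : 0 < v (e (i + 1) - e (i + 2)) := by
    rw [Valuation.pos_iff]; exact sub_ne_zero.mpr h30
  have hp0 : p ≠ 0 := by rintro rfl; simp at hp
  have hvΔ := v_leg_Δ hv2 i h1 h2 h3
  have hΔ0 : (leg e).Δ ≠ 0 := by
    rw [← Valuation.pos_iff (v := v), hvΔ]; exact pow_pos hγ0 2
  obtain ⟨x₀, y₀, α, β, hN⟩ := exists_nodeCentre_of_Δ h2K h3K (intCoeff_leg he)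
    (v_leg_c₄ hv2 i h1 h2 h3) (by rw [hvΔ]; exact pow_lt_one₀ zero_le h3 two_ne_zero)
  obtain ⟨hc1, hc2⟩ := v_centre_sub hv2 he i h1 h2 h3 hN
  refine ⟨cidx hN hΔ0 p, cidx_zero hN hΔ0, fun P Q hP hQ => cidx_add hN hΔ0 hP hQ,
    fun x y h hP => ?_⟩
  have hunit := fun hx => v_sub_eq_one hv2 he i h1 h2 hp h hP hx
  have hlt1 := lt_of_le_of_lt hc1 h3
  have hlt2 := lt_of_le_of_lt hc2 h3
  have hz : cidx hN hΔ0 p (.some x y h) = 0 → v x ≤ 1 → ∀ l, v (x - e l) = 1 := by
    intro h0 hx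
    have hge := one_le_of_cidx_eq_zero hN hΔ0 hp h hP h0
    have heq : v (x - x₀) = 1 := le_antisymm ((v.map_sub _ _).trans (max_le hx hN.int_x)) hge
    have g1 : v (x - e (i + 1)) = 1 := by
      rw [show x - e (i + 1) = (x - x₀) + (x₀ - e (i + 1)) by ring,
        v.map_add_eq_of_lt_left (by rw [heq]; exact hlt1), heq]
    have g2 : v (x - e (i + 2)) = 1 := by
      rw [show x - e (i + 2) = (x - x₀) + (x₀ - e (i + 2)) by ring,
        v.map_add_eq_of_lt_left (by rw [heq]; exact hlt2), heq]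
    have g0 := hunit hx
    intro l
    rcases fin3_cases i l with rfl | rfl | rfl
    · exact g0
    · exact g1
    · exact g2
  refine ⟨?_, hz, ?_, ?_⟩
  · intro h0 l l'
    rcases le_or_gt (v x) 1 with hx | hx
    · rw [hz h0 hx, hz h0 hx]
    · rw [v_sub_of_one_lt he hx, v_sub_of_one_lt he hx]
  · rcases le_or_gt (v x) 1 with hx | hx
    · left; rw [hunit hx, one_pow]
    · exact Or.inr hx
  · intro h0
    obtain ⟨g1, g2⟩ := v_of_cidx_ne_zero hN hΔ0 hp h hP h0
    have hx : v x ≤ 1 := by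
      rw [show x = (x - x₀) + x₀ by ring]
      exact v.map_add_le g1.le hN.int_x
    rw [hvΔ, ← pow_mul] at g2
    have : NeZero p := ⟨hp0⟩
    set m := (cidx hN hΔ0 p (.some x y h)).valMinAbs.natAbs with hm
    have hmp : 2 * m < p := by
      have := ZMod.valMinAbs_natAbs_eq_min (cidx hN hΔ0 p (.some x y h))
      have h5 := ZMod.val_lt (cidx hN hΔ0 p (.some x y h))
      obtain ⟨k, hk⟩ := hp
      omega
    have hgt : v (e (i + 1) - e (i + 2)) < v (x - x₀) := by
      rw [← pow_lt_pow_iff_left₀ zero_le zero_le hp0, g2]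
      exact pow_lt_pow_right_of_lt_one₀ hγ0 h3 hmp
    refine ⟨hx, ?_, ?_⟩
    · rw [show x - e (i + 1) = (x - x₀) + (x₀ - e (i + 1)) by ring,
        v.map_add_eq_of_lt_left (lt_of_le_of_lt hc1 hgt), g2]
    · rw [show x - e (i + 2) = (x - x₀) + (x₀ - e (i + 2)) by ring,
        v.map_add_eq_of_lt_left (lt_of_le_of_lt hc2 hgt), g2]

end Field

end Fermat.Agent.Descent
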