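import Mathlib

/-!
# Counting lemmas: products over cosets
-/

set_option autoImplicit false

namespace Fermat.Agent.Descent

lemma prod_range_zmod {M : Type*} [CommMonoid M] {p : ℕ} [NeZero p] (f : ZMod p → M) :
    ∏ j ∈ Finset.range p, f (j : ZMod p) = ∏ z : ZMod p, f z := by
  refine Finset.prod_bij (fun j _ => (j : ZMod p)) (fun _ _ => Finset.mem_univ _) ?_ ?_
    (fun _ _ => rfl)
  · intro a ha b hb h
    rw [Finset.mem_range] at ha hb
    rw [ZMod.natCast_eq_natCast_iff'] at h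
    rwa [Nat.mod_eq_of_lt ha, Nat.mod_eq_of_lt hb] at h
  · intro z _
    exact ⟨z.val, Finset.mem_range.mpr (ZMod.val_lt z), ZMod.natCast_zmod_val z⟩

/-- A nonconstant affine function on `ZMod p` is a bijection. -/
lemma prod_coset {M : Type*} [CommMonoid M] {p : ℕ} [Fact p.Prime] (F : ZMod p → M) (a : ZMod p)
    {b : ZMod p} (hb : b ≠ 0) :
    ∏ j ∈ Finset.range p, F (a + j * b) = ∏ z : ZMod p, F z := by
  rw [prod_range_zmod (fun z : ZMod p => F (a + z * b))]
  have hbij : Function.Bijective fun z : ZMod p => a + z * b := by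
    rw [← Finite.injective_iff_bijective]
    intro x y h
    exact mul_right_cancel₀ hb (add_left_cancel h)
  exact hbij.prod_comp F

lemma prod_Icc_mul {M : Type*} [CommMonoid M] {p : ℕ} (hp : 0 < p) (f : ℕ → M) :
    f 0 * ∏ j ∈ Finset.Icc 1 (p - 1), f j = ∏ j ∈ Finset.range p, f j := by
  have h1 : Finset.Icc 1 (p - 1) = Finset.Ico 1 p := by
    ext j; simp only [Finset.mem_Icc, Finset.mem_Ico]; omega
  rw [h1, Finset.range_eq_Ico, Finset.prod_eq_prod_Ico_succ_bot hp]

/-- Points of `⟨g⟩` and of the cosets `k r + ⟨g⟩` are nonzero. -/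
lemma nsmul_ne_zero_of_lt {G : Type*} [AddCommGroup G] {p : ℕ} (hp : p.Prime) {g : G}
    (hg : p • g = 0) (hg0 : g ≠ 0) {j : ℕ} (h1 : 1 ≤ j) (h2 : j ≤ p - 1) : j • g ≠ 0 := by
  intro h
  have hp0 := hp.pos
  have : Fact p.Prime := ⟨hp⟩
  have ho : addOrderOf g = p := addOrderOf_eq_prime hg hg0
  have := addOrderOf_dvd_of_nsmul_eq_zero h
  rw [ho] at this
  exact absurd (Nat.le_of_dvd (by omega) this) (by omega)

lemma coset_ne_zero {G : Type*} [AddCommGroup G] {p : ℕ} (hp : p.Prime) {g r : G}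
    (hr : p • r = 0) (hrg : r ∉ AddSubgroup.zmultiples g) {k : ℕ} (hk : ¬ p ∣ k) (j : ℕ) :
    k • r + j • g ≠ 0 := by
  intro h
  apply hrg
  have hcop : IsCoprime (k : ℤ) (p : ℤ) :=
    (Nat.isCoprime_iff_coprime.mpr ((Nat.Prime.coprime_iff_not_dvd hp).mpr hk)).symm
  obtain ⟨a, b, hab⟩ := hcop
  have h1 : (k : ℤ) • r = -((j : ℤ) • g) := by
    rw [natCast_zsmul, natCast_zsmul]
    exact eq_neg_of_add_eq_zero_left h
  have h2 : r = a • ((k : ℤ) • r) := by
    have h3 : r = (a * k + b * p) • r := by rw [hab, one_smul]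
    rw [add_smul, mul_smul, mul_smul, natCast_zsmul r p, hr, smul_zero, add_zero] at h3
    exact h3
  rw [h2, h1, smul_neg, ← mul_smul]
  exact AddSubgroup.neg_mem _ (AddSubgroup.zsmul_mem_zmultiples g _)

end Fermat.Agent.Descent
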