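import Mathlib.NumberTheory.Padics.PadicVal.Basic
import Mathlib.Data.ZMod.Basic
import Mathlib.Algebra.Field.ZMod
import Mathlib.Algebra.BigOperators.Intervals
import Mathlib.Algebra.BigOperators.Ring.Finset
import Mathlib.Tactic

/-! # The distance to `pℤ` -/

set_option autoImplicit false

namespace Fermat.Agent.Descent

/-- The distance of `a` to `pℤ`. -/
def mu (p : ℕ) (a : ℤ) : ℕ := min (a % p).toNat (p - (a % p).toNat)

section

variable {p : ℕ}

lemma toNat_emod_lt (hp : 0 < p) (a : ℤ) : (a % p).toNat < p := by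
  have h1 := Int.emod_nonneg a (b := p) (by exact_mod_cast hp.ne')
  have h2 := Int.emod_lt_of_pos a (b := p) (by exact_mod_cast hp)
  omega

lemma mu_eq_zero_iff (hp : 0 < p) {a : ℤ} : mu p a = 0 ↔ (p : ℤ) ∣ a := by
  have h1 := Int.emod_nonneg a (b := p) (by exact_mod_cast hp.ne')
  have h2 := Int.emod_lt_of_pos a (b := p) (by exact_mod_cast hp)
  rw [mu, Int.dvd_iff_emod_eq_zero]
  omega

lemma mu_congr {a b : ℤ} (h : (p : ℤ) ∣ a - b) : mu p a = mu p b := by
  have : a % p = b % p := Int.emod_eq_emod_iff_emod_sub_eq_zero.mpr (Int.emod_eq_zero_of_dvd h)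
  rw [mu, mu, this]

lemma two_mu_lt (hp : Odd p) (a : ℤ) : 2 * mu p a < p := by
  have := toNat_emod_lt hp.pos a
  obtain ⟨m, hm⟩ := hp
  rw [mu]
  omega

lemma two_mu_le (hp : Odd p) (a : ℤ) : 2 * mu p a ≤ p - 1 := by
  have := two_mu_lt hp a
  omega

lemma mu_spec (hp : 0 < p) (a : ℤ) : (p : ℤ) ∣ mu p a - a ∨ (p : ℤ) ∣ mu p a + a := by
  have h1 := Int.emod_nonneg a (b := p) (by exact_mod_cast hp.ne')
  have h2 := Int.emod_lt_of_pos a (b := p) (by exact_mod_cast hp)
  have h3 := Int.mul_ediv_add_emod a p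
  rw [mu]
  rcases le_total (a % p).toNat (p - (a % p).toNat) with h | h
  · rw [min_eq_left h]
    left
    refine ⟨-(a / p), ?_⟩
    have : ((a % p).toNat : ℤ) = a % p := Int.toNat_of_nonneg h1
    rw [this]; linear_combination h3
  · rw [min_eq_right h]
    right
    refine ⟨a / p + 1, ?_⟩
    have : ((p - (a % p).toNat : ℕ) : ℤ) = p - a % p := by
      rw [Nat.cast_sub (by omega), Int.toNat_of_nonneg h1]
    rw [this]; linear_combination -h3

/-- `mu` on `ZMod p`. -/
def muZ (p : ℕ) (z : ZMod p) : ℕ := min z.val (p - z.val)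

lemma mu_eq_muZ [NeZero p] (a : ℤ) : mu p a = muZ p (a : ZMod p) := by
  have h : ((a : ZMod p).val : ℤ) = a % p := ZMod.val_intCast a
  rw [mu, muZ, ← h, Int.toNat_natCast]

lemma sum_range_zmod [NeZero p] (f : ZMod p → ℕ) :
    ∑ j ∈ Finset.range p, f (j : ZMod p) = ∑ z : ZMod p, f z := by
  symm
  refine Finset.sum_bij (fun z _ => z.val) (fun z _ => Finset.mem_range.mpr z.val_lt)
    (fun a _ b _ h => ZMod.val_injective p h)
    (fun j hj => ⟨(j : ZMod p), Finset.mem_univ _, ZMod.val_cast_of_lt (Finset.mem_range.mp hj)⟩)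
    (fun z _ => by rw [ZMod.natCast_zmod_val])

/-- Sum of the distances over an arithmetic progression. -/
lemma sum_mu_range (hp : p.Prime) {a b : ℤ} (hb : ¬ (p : ℤ) ∣ b) :
    ∑ j ∈ Finset.range p, mu p (a + j * b) = ∑ j ∈ Finset.range p, mu p (j : ℤ) := by
  have := Fact.mk hp
  have hb' : (b : ZMod p) ≠ 0 := fun h => hb ((ZMod.intCast_zmod_eq_zero_iff_dvd b p).mp h)
  have h1 : ∑ j ∈ Finset.range p, mu p (a + j * b) =
      ∑ z : ZMod p, muZ p ((a : ZMod p) + z * (b : ZMod p)) := by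
    rw [← sum_range_zmod (fun z => muZ p ((a : ZMod p) + z * (b : ZMod p)))]
    refine Finset.sum_congr rfl fun j _ => ?_
    rw [mu_eq_muZ]; push_cast; rfl
  have h2 : ∑ j ∈ Finset.range p, mu p (j : ℤ) = ∑ z : ZMod p, muZ p z := by
    rw [← sum_range_zmod (fun z => muZ p z)]
    refine Finset.sum_congr rfl fun j _ => ?_
    rw [mu_eq_muZ]; push_cast; rfl
  rw [h1, h2]
  exact Equiv.sum_comp ((Equiv.mulRight₀ (b : ZMod p) hb').trans (Equiv.addLeft (a : ZMod p)))
    (fun z => muZ p z)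

lemma sum_mu_range_of_dvd {a b : ℤ} (hb : (p : ℤ) ∣ b) :
    ∑ j ∈ Finset.range p, mu p (a + j * b) = p * mu p a := by
  have h : ∀ j ∈ Finset.range p, mu p (a + j * b) = mu p a := fun j _ =>
    mu_congr (by rw [add_sub_cancel_left]; exact Dvd.dvd.mul_left hb _)
  rw [Finset.sum_congr rfl h, Finset.sum_const, Finset.card_range, smul_eq_mul]

lemma sum_mu (hp : Odd p) : 4 * ∑ j ∈ Finset.range p, mu p (j : ℤ) = p ^ 2 - 1 := by
  obtain ⟨m, rfl⟩ := hp
  have h1 : ∑ j ∈ Finset.range (2 * m + 1), mu (2 * m + 1) (j : ℤ) =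
      ∑ j ∈ Finset.range (2 * m + 1), min j (2 * m + 1 - j) := by
    refine Finset.sum_congr rfl fun j hj => ?_
    have hj := Finset.mem_range.mp hj
    have : (j : ℤ) % ((2 * m + 1 : ℕ) : ℤ) = j := Int.emod_eq_of_lt (by positivity) (by omega)
    rw [mu, this, Int.toNat_natCast]
  have h2 : ∑ j ∈ Finset.range (2 * m + 1), min j (2 * m + 1 - j) =
      ∑ j ∈ Finset.range (m + 1), j + ∑ j ∈ Finset.range m, (m - j) := by
    rw [show 2 * m + 1 = (m + 1) + m by ring, Finset.sum_range_add]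
    congr 1
    · refine Finset.sum_congr rfl fun j hj => ?_
      have hj := Finset.mem_range.mp hj
      omega
    · refine Finset.sum_congr rfl fun j hj => ?_
      have hj := Finset.mem_range.mp hj
      omega
  have h3 : ∑ j ∈ Finset.range m, (m - j) = ∑ j ∈ Finset.range (m + 1), j := by
    rw [← Finset.sum_range_reflect (fun j => j) (m + 1), Finset.sum_range_succ]
    have : m + 1 - 1 - m = 0 := by omega
    rw [this, add_zero]
    exact Finset.sum_congr rfl fun j hj => by omega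
  have h4 := Finset.sum_range_id_mul_two (m + 1)
  rw [h1, h2, h3]
  have h5 : m + 1 - 1 = m := by omega
  rw [h5] at h4
  have : (2 * m + 1) ^ 2 - 1 = 2 * ((m + 1) * m * 2) := by
    have : (2 * m + 1) ^ 2 = 2 * ((m + 1) * m * 2) + 1 := by ring
    omega
  rw [this, ← h4]; ring

lemma not_dvd_sum_mu (hp : p.Prime) (h2 : p ≠ 2) :
    ¬ p ∣ ∑ j ∈ Finset.range p, mu p (j : ℤ) := by
  intro h
  have h1 := sum_mu (hp.odd_of_ne_two h2)
  have h3 : p ∣ p ^ 2 - 1 := h1 ▸ Dvd.dvd.mul_left h 4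
  have h4 : 1 ≤ p ^ 2 := Nat.one_le_pow _ _ hp.pos
  have h5 : p ∣ 1 := (Nat.dvd_sub_iff_right h4 (dvd_pow_self p two_ne_zero)).mp h3
  exact hp.one_lt.ne' (Nat.dvd_one.mp h5)

end

end Fermat.Agent.Descent
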