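import Fermat.Agent.LOC.TateForm
import Fermat.Agent.Descent.Mu

/-! # Torsion points on a curve of multiplicative reduction: exact valuations of `x - e`

For a curve of multiplicative reduction over an algebraically closed valued field and points of
odd order `p`, the relation `HasComp P a` (the component of `P` is `a/p`), its additivity, and the
valuations of `x(P) - e`, for `e` the abscissa of a point of order two. -/

set_option autoImplicit false

namespace Fermat.Agent.Descent

open WeierstrassCurve WeierstrassCurve.Affine Fermat.Agent.ECRed Fermat.Agent.LOC.TatePhi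
open Fermat.Agent.LOC.TateHom Fermat.Agent.LOC

variable {K Γ₀ : Type*} [Field K] [LinearOrderedCommGroupWithZero Γ₀] {v : Valuation K Γ₀} {c : K}

/-! ### Powers of an element `< 1` of the value group -/

lemma zpow_inj_of_lt_one {a : Γ₀} (h0 : 0 < a) (h1 : a < 1) {m n : ℤ} (h : a ^ m = a ^ n) : m = n :=
  (zpow_right_strictAnti₀ h0 h1).injective h

lemma pow_le_pow_iff_of_pos {a b : Γ₀} {n : ℕ} (hn : n ≠ 0) : a ^ n ≤ b ^ n ↔ a ≤ b :=
  pow_le_pow_iff_left₀ zero_le zero_le hn

lemma v_eq_of_cls_eq {u w : K} (hu : u ≠ 0) (hw : w ≠ 0)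
    (h : cls v c u = cls v c w) : ∃ m : ℤ, v w = v u * v c ^ m := by
  have h1 : cls v c (w / u) = 1 := by rw [cls_div hw hu, h, div_self']
  obtain ⟨n, s, hs, e⟩ := (cls_eq_one_iff (div_ne_zero hw hu)).mp h1
  refine ⟨n, ?_⟩
  have e2 : w = u * (s * (-c) ^ n) := by rw [← e]; field_simp
  rw [e2, map_mul, map_mul, v_eq_one_of_mem_oneUnits hs, one_mul, map_zpow₀, Valuation.map_neg]

/-- For a point reducing to the node, `v x` in terms of the absolute value of the parameter. -/
lemma v_x_of_isPhi (hc1 : v c < 1) {x y φ : K} (he : y * (x + y) = x ^ 3 + c)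
    (hc : c ≠ 0) (hx : v x < 1) (p : IsPhi v c x y φ) :
    (v c < v φ ^ 2 → v x = v φ) ∧ (v φ ^ 2 < v c → v x * v φ = v c) := by
  obtain ⟨hb1, hb2⟩ := isPhi_node_bounds hc1 hc he hx p
  have hvc : 0 < v c := by rwa [Valuation.pos_iff]
  have hφ0 : 0 < v φ := lt_trans hvc hb1
  have hcube : ∀ {a : Γ₀}, a < 1 → 0 < a → a ^ 3 < a ^ 2 := fun {a} h1 h0 =>
    pow_lt_pow_right_of_lt_one₀ h0 h1 (by norm_num)
  rcases p with ⟨h, -⟩ | ⟨-, h, rfl⟩ | ⟨-, h, rfl⟩
  · exact absurd hx (not_lt.mpr h)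
  · rcases h.lt_or_eq with h | h
    · have hxv : v x = v (x + y) := by
        have : x = (x + y) - y := by ring
        conv_lhs => rw [this]
        rw [v.map_sub_eq_of_lt_left h]
      refine ⟨fun _ => hxv, fun h2 => ?_⟩
      exfalso
      have h3 : v (x ^ 3) < v c := by
        rw [map_pow, hxv]; exact (hcube hb2 hφ0).trans h2
      have h4 : v y * v (x + y) = v c := by
        rw [← map_mul, he, v.map_add_eq_of_lt_right h3]
      have : v c < v (x + y) ^ 2 := by
        rw [← h4, sq]; exact mul_lt_mul_of_pos_right h hφ0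
      exact lt_asymm this h2
    · -- `v y = v (x + y)`
      have hx2 : v x ≤ v (x + y) := by
        have : x = (x + y) - y := by ring
        conv_lhs => rw [this]
        exact (v.map_sub _ _).trans (max_le le_rfl h.le)
      have h3 : v (x ^ 3) < v (x + y) ^ 2 := by
        rw [map_pow]
        exact lt_of_le_of_lt (pow_le_pow_left₀ zero_le hx2 3) (hcube hb2 hφ0)
      have h4 : v (x ^ 3 + c) = v (x + y) ^ 2 := by
        rw [← he, map_mul, h, sq]
      have h5 : v c = v (x + y) ^ 2 := by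
        have : c = (x ^ 3 + c) - x ^ 3 := by ring
        conv_lhs => rw [this]
        rw [v.map_sub_eq_of_lt_left (by rw [h4]; exact h3), h4]
      exact ⟨fun h6 => absurd h6 (by rw [h5]; exact lt_irrefl _),
        fun h6 => absurd h6 (by rw [h5]; exact lt_irrefl _)⟩
  · have hy0 : 0 < v y := by
      rw [Valuation.pos_iff]
      rintro rfl
      rw [div_zero, map_zero] at hφ0
      exact lt_irrefl _ hφ0
    have hy1 : v y < 1 := (v_lt_one_of_lt hc1 he hx).1
    have hφ : v (c / y) * v y = v c := by rw [map_div₀, div_mul_cancel₀ _ hy0.ne']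
    rcases h.lt_or_eq with h | h
    · have hxv : v x = v y := by
        have : x = (x + y) - y := by ring
        conv_lhs => rw [this]
        rw [v.map_sub_eq_of_lt_right h]
      refine ⟨fun h2 => ?_, fun _ => by rw [hxv, mul_comm]; exact hφ⟩
      exfalso
      have hlt : v y < v (c / y) := by
        rw [← hφ, sq] at h2
        exact lt_of_mul_lt_mul_left h2 zero_le
      have h2' : v y ^ 2 < v c := by
        rw [← hφ, sq]; exact mul_lt_mul_of_pos_right hlt hy0
      have h3 : v (x ^ 3) < v c := by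
        rw [map_pow, hxv]; exact (hcube hy1 hy0).trans h2'
      have h4 : v y * v (x + y) = v c := by
        rw [← map_mul, he, v.map_add_eq_of_lt_right h3]
      have : v c < v y ^ 2 := by
        rw [← h4, sq]; exact mul_lt_mul_of_pos_left h hy0
      exact lt_asymm this h2'
    · have hx2 : v x ≤ v y := by
        have : x = (x + y) - y := by ring
        conv_lhs => rw [this]
        exact (v.map_sub _ _).trans (max_le h.le le_rfl)
      have h3 : v (x ^ 3) < v y ^ 2 := by
        rw [map_pow]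
        exact lt_of_le_of_lt (pow_le_pow_left₀ zero_le hx2 3) (hcube hy1 hy0)
      have h4 : v (x ^ 3 + c) = v y ^ 2 := by
        rw [← he, map_mul, h, sq]
      have h5 : v c = v y ^ 2 := by
        have : c = (x ^ 3 + c) - x ^ 3 := by ring
        conv_lhs => rw [this]
        rw [v.map_sub_eq_of_lt_left (by rw [h4]; exact h3), h4]
      have h6 : v (c / y) ^ 2 = v c := by
        have : v (c / y) = v y := by
          rw [map_div₀, h5, sq, mul_div_assoc, div_self hy0.ne', mul_one]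
        rw [this, h5]
      exact ⟨fun h7 => absurd h7 (by rw [h6]; exact lt_irrefl _),
        fun h7 => absurd h7 (by rw [h6]; exact lt_irrefl _)⟩

/-! ### The component -/

section Comp

variable [DecidableEq K]

/-- The component of `P` is `a / p`. -/
def HasComp (hc1 : v c < 1) (hc : c ≠ 0) (p : ℕ) (P : (nf c).toAffine.Point) (a : ℤ) : Prop :=
  ∃ u : K, u ≠ 0 ∧ phi hc1 hc P = Additive.ofMul (cls v c u) ∧ v u ^ p = v c ^ a

variable {hc1 : v c < 1} {hc : c ≠ 0} {p : ℕ} {P P' : (nf c).toAffine.Point} {a b : ℤ}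

namespace HasComp

lemma zero : HasComp hc1 hc p 0 0 := ⟨1, one_ne_zero, by
  rw [map_zero, cls_one]; rfl, by simp⟩

lemma add (h : HasComp hc1 hc p P a) (h' : HasComp hc1 hc p P' b) :
    HasComp hc1 hc p (P + P') (a + b) := by
  obtain ⟨u, hu, h1, h2⟩ := h
  obtain ⟨u', hu', h1', h2'⟩ := h'
  have hvc : v c ≠ 0 := (Valuation.ne_zero_iff v).mpr hc
  refine ⟨u * u', mul_ne_zero hu hu', ?_, ?_⟩
  · rw [map_add, h1, h1', cls_mul hu hu', ofMul_mul]
  · rw [map_mul, mul_pow, h2, h2', zpow_add₀ hvc]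

lemma nsmul (h : HasComp hc1 hc p P a) (n : ℕ) : HasComp hc1 hc p (n • P) (n * a) := by
  induction n with
  | zero => simpa using zero
  | succ n ih =>
    rw [succ_nsmul, Nat.cast_succ, add_mul, one_mul]
    exact ih.add h

lemma congr (h : HasComp hc1 hc p P a) (h' : HasComp hc1 hc p P b) : (p : ℤ) ∣ b - a := by
  obtain ⟨u, hu, h1, h2⟩ := h
  obtain ⟨u', hu', h1', h2'⟩ := h'
  have hvc : 0 < v c := by rwa [Valuation.pos_iff]
  rw [h1] at h1'
  obtain ⟨m, hm⟩ := v_eq_of_cls_eq hu hu' (Additive.ofMul.injective h1')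
  refine ⟨m, ?_⟩
  have : v c ^ b = v c ^ (a + p * m) := by
    rw [← h2', hm, mul_pow, h2, zpow_add₀ hvc.ne', ← zpow_natCast (v c ^ m), ← zpow_mul,
      mul_comm m]
  have := zpow_inj_of_lt_one hvc hc1 this
  linarith

end HasComp

lemma exists_hasComp (hP : p • P = 0) : ∃ a, HasComp hc1 hc p P a := by
  obtain ⟨q, hq⟩ : ∃ q : Q v c, phi hc1 hc P = Additive.ofMul q := ⟨Additive.toMul _, rfl⟩
  obtain ⟨u, rfl⟩ := mkQ_surjective v c q
  have h1 : phi hc1 hc (p • P) = 0 := by rw [hP, map_zero]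
  rw [map_nsmul, hq, ← ofMul_pow] at h1
  have h2 : mkQ v c u ^ p = 1 := h1
  rw [← cls_units, ← cls_pow u.ne_zero, cls_eq_one_iff (pow_ne_zero p u.ne_zero)] at h2
  obtain ⟨n, w, hw, e⟩ := h2
  refine ⟨n, u, u.ne_zero, by rw [hq, cls_units], ?_⟩
  rw [← map_pow, e, map_mul, v_eq_one_of_mem_oneUnits hw, one_mul, map_zpow₀, Valuation.map_neg]

/-- **The valuation of the abscissa** of a point of component `a / p`. -/
theorem HasComp.x_val (hp : Odd p) {x y : K} {h : (nf c).toAffine.Nonsingular x y}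
    (hP : HasComp hc1 hc p (.some x y h) a) :
    (1 ≤ v x ∧ (p : ℤ) ∣ a) ∨ (v x < 1 ∧ ¬ (p : ℤ) ∣ a ∧ v x ^ p = v c ^ mu p a) := by
  have hvc : 0 < v c := by rwa [Valuation.pos_iff]
  have hp0 : p ≠ 0 := hp.pos.ne'
  have he := nf_equation.mp h.1
  have pφ := isPhi_rep v c x y
  set φ := rep v c x y with hφ
  have hφ0 : φ ≠ 0 := pφ.ne_zero hc1 hc he
  obtain ⟨u, hu, h1, h2⟩ := hP
  have hanti := zpow_right_strictAnti₀ hvc hc1
  rw [phi_some hc1 hc h pφ] at h1
  obtain ⟨m, hm⟩ := v_eq_of_cls_eq hu hφ0 (Additive.ofMul.injective h1).symm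
  have h3 : v φ ^ p = v c ^ (a + p * m) := by
    rw [hm, mul_pow, h2, zpow_add₀ hvc.ne', ← zpow_natCast (v c ^ m), ← zpow_mul, mul_comm m]
  rcases le_or_gt 1 (v x) with hx | hx
  · left
    refine ⟨hx, ?_⟩
    have h4 := (isPhi_nonsing hc1 he hx pφ).1
    rw [h4, one_pow, ← zpow_zero (v c)] at h3
    have := zpow_inj_of_lt_one hvc hc1 h3
    exact ⟨-m, by linarith⟩
  · right
    obtain ⟨b1, b2⟩ := isPhi_node_bounds hc1 hc he hx pφ
    have c1 : 0 < a + p * m := by
      have : v c ^ (a + p * m) < v c ^ (0 : ℤ) := by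
        rw [← h3, zpow_zero]; exact pow_lt_one₀ zero_le b2 hp0
      exact hanti.lt_iff_gt.mp this
    have c2 : a + p * m < p := by
      have : v c ^ (p : ℤ) < v c ^ (a + p * m) := by
        rw [← h3, zpow_natCast]; exact pow_lt_pow_left₀ b1 zero_le hp0
      exact hanti.lt_iff_gt.mp this
    have hmod : a % p = a + p * m := by
      rw [← Int.add_mul_emod_self_left a p m]
      exact Int.emod_eq_of_lt c1.le c2
    obtain ⟨n, hn⟩ := Int.eq_ofNat_of_zero_le c1.le
    rw [hn] at h3 hmod c1 c2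
    rw [zpow_natCast] at h3
    have hn1 : 0 < n := by exact_mod_cast c1
    have hn2 : n < p := by exact_mod_cast c2
    have hmu : mu p a = min n (p - n) := by rw [mu, hmod, Int.toNat_natCast]
    refine ⟨hx, ?_, ?_⟩
    · rw [Int.dvd_iff_emod_eq_zero, hmod]; omega
    · obtain ⟨g1, g2⟩ := v_x_of_isPhi hc1 he hc hx pφ
      have hsq : (v φ ^ 2) ^ p = v c ^ (2 * n) := by
        rw [← pow_mul, mul_comm 2 p, pow_mul, h3, ← pow_mul, mul_comm]
      rw [hmu]
      rcases lt_or_ge (2 * n) p with hlt | hge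
      · rw [min_eq_left (by omega), ← h3, g1]
        rw [← pow_lt_pow_iff_left₀ zero_le zero_le hp0, hsq]
        exact pow_lt_pow_right_of_lt_one₀ hvc hc1 hlt
      · have hlt : p < 2 * n := by
          obtain ⟨k, hk⟩ := hp; omega
        rw [min_eq_right (by omega)]
        have := g2 (by
          rw [← pow_lt_pow_iff_left₀ zero_le zero_le hp0, hsq]
          exact pow_lt_pow_right_of_lt_one₀ hvc hc1 hlt)
        have e : v x ^ p * v c ^ n = v c ^ (p - n) * v c ^ n := by
          rw [← h3, ← mul_pow, this, h3, ← pow_add]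
          congr 1; omega
        exact mul_right_cancel₀ (pow_ne_zero _ hvc.ne') e

/-! ### Abscissas of points of order two -/

omit [DecidableEq K] in
/-- If `4 e³ + e² + 4 c = 0` and `4 e` is not a unit then `(v e)² ≤ v c`. -/
lemma v_sq_le_of_root {e : K} (he : 4 * e ^ 3 + e ^ 2 + 4 * c = 0) (h4 : v (4 * e) < 1) :
    v e ^ 2 ≤ v c := by
  have h1 : e ^ 2 * (1 + 4 * e) = -(4 * c) := by linear_combination he
  have h2 : v e ^ 2 = v (4 * c) := by
    rw [← Valuation.map_neg v (4 * c), ← h1, map_mul, v.map_one_add_of_lt h4, mul_one, map_pow]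
  have v4 : v (4 : K) ≤ 1 := by simpa using v_nat_le_one (v := v) 4
  rw [h2, map_mul]
  exact mul_le_of_le_one_left zero_le v4

/-- **The valuation of `x - e` for a colliding abscissa `e`.** -/
theorem HasComp.v_sub_pow (hp : Odd p) {x y e : K} {h : (nf c).toAffine.Nonsingular x y}
    (hP : HasComp hc1 hc p (.some x y h) a) (he : v e ^ 2 ≤ v c) :
    v (x - e) ^ p = max 1 (v x) ^ p * v c ^ mu p a := by
  have hvc : 0 < v c := by rwa [Valuation.pos_iff]
  have hp0 : p ≠ 0 := hp.pos.ne'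
  have he1 : v e < 1 := by
    by_contra hle
    push Not at hle
    exact absurd (one_le_pow₀ hle (n := 2)) (not_le.mpr (lt_of_le_of_lt he hc1))
  rcases hP.x_val hp with ⟨hx, ha⟩ | ⟨hx, ha, hv⟩
  · rw [(mu_eq_zero_iff hp.pos).mpr ha, pow_zero, mul_one, max_eq_right hx,
      v.map_sub_eq_of_lt_left (lt_of_lt_of_le he1 hx)]
  · rw [max_eq_left hx.le, one_pow, one_mul, ← hv, v.map_sub_eq_of_lt_left]
    have hA : (v e ^ 2) ^ p < (v x ^ 2) ^ p := by
      rw [← pow_mul (v x), mul_comm 2 p, pow_mul (v x), hv, ← pow_mul (v c)]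
      refine lt_of_le_of_lt (pow_le_pow_left₀ zero_le he p) ?_
      exact pow_lt_pow_right_of_lt_one₀ hvc hc1 (by have := two_mu_lt hp a; omega)
    exact lt_of_pow_lt_pow_left₀ 2 zero_le (lt_of_pow_lt_pow_left₀ p zero_le hA)

/-- **The valuation of `x - e` for the good abscissa `e`, residue characteristic `≠ 2`.** -/
theorem v_sub_of_good (hc1 : v c < 1) (hc : c ≠ 0) (hp : Odd p) (v2 : v (2 : K) = 1) {x y e : K}
    {h : (nf c).toAffine.Nonsingular x y}
    (hP : p • (Point.some x y h : (nf c).toAffine.Point) = 0)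
    (he : 4 * e ^ 3 + e ^ 2 + 4 * c = 0) (h4 : v (4 * e) = 1) :
    v (x - e) = max 1 (v x) := by
  have v4 : v (4 : K) = 1 := by
    rw [show (4 : K) = 2 ^ 2 by norm_num, map_pow, v2, one_pow]
  have hve : v e = 1 := by rwa [map_mul, v4, one_mul] at h4
  rcases lt_trichotomy (v x) 1 with hx | hx | hx
  · rw [max_eq_left hx.le, v.map_sub_eq_of_lt_right (by rw [hve]; exact hx), hve]
  · rw [hx, max_self]
    refine le_antisymm ((v.map_sub _ _).trans (max_le hx.le hve.le)) ?_
    by_contra hlt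
    push Not at hlt
    have hE := nf_equation.mp h.1
    -- `2 y + x` is small
    have h1 : (2 * y + x) ^ 2 = (x - e) * (4 * (x ^ 2 + x * e + e ^ 2) + (x + e)) := by
      linear_combination 4 * hE + he
    have h2 : v (4 * (x ^ 2 + x * e + e ^ 2) + (x + e)) ≤ 1 := by
      refine v.map_add_le (v_imul_le v4.le ?_) (v.map_add_le hx.le hve.le)
      refine v.map_add_le (v.map_add_le ?_ ?_) ?_
      · rw [map_pow, hx, one_pow]
      · rw [map_mul, hx, hve, one_mul]
      · rw [map_pow, hve, one_pow]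
    have h3 : v (2 * y + x) < 1 := by
      have : v (2 * y + x) ^ 2 < 1 := by
        rw [← map_pow, h1, mul_comm]; exact v_imul_lt h2 hlt
      exact lt_of_pow_lt_pow_left₀ 2 zero_le (by rwa [one_pow])
    have hφ : IsPhi v c x y (y / (x + y)) := Or.inl ⟨hx.ge, rfl⟩
    have hxy : v (x + y) = 1 := by
      have := (v_of_one_le hc1 hE hx.ge).2
      rw [hx, one_pow] at this
      exact (pow_eq_one_iff_of_nonneg zero_le two_ne_zero).mp this
    have hxy0 : x + y ≠ 0 := by rw [← Valuation.pos_iff (v := v), hxy]; exact one_pos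
    have hs : v (y / (x + y) + 1) < 1 := by
      rw [show y / (x + y) + 1 = (2 * y + x) / (x + y) by field_simp; ring, map_div₀, hxy, div_one]
      exact h3
    have hφ0 : y / (x + y) ≠ 0 := hφ.ne_zero hc1 hc hE
    have hvφ : v (y / (x + y)) = 1 := (isPhi_nonsing hc1 hE hx.ge hφ).1
    have h5 : cls v c ((y / (x + y)) ^ p) = 1 := by
      have e1 : phi hc1 hc (p • (Point.some x y h : (nf c).toAffine.Point)) = 0 := by
        rw [hP, map_zero]
      rw [map_nsmul, phi_some hc1 hc h hφ, ← ofMul_pow, ← cls_pow hφ0] at e1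
      exact e1
    have h6 : v ((y / (x + y)) ^ p - 1) < 1 := sub_one_lt_of_cls_eq_one hc1 hc
      (by rw [map_pow, hvφ, one_pow]; exact hc1) (by rw [map_pow, hvφ, one_pow]) h5
    have h7 : v ((y / (x + y)) ^ p + 1) < 1 := by
      obtain ⟨t, ht⟩ := hp.add_dvd_pow_add_pow (y / (x + y)) 1
      rw [one_pow] at ht
      set w := y / (x + y) with hw
      -- `w ^ p + 1 = (w + 1) * t` with `t` integral
      have hw1 : Near v (v (w + 1)) w (-1) := by
        rw [Near, Valuation.map_neg, map_one, mul_one, sub_neg_eq_add]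
      have := hw1.pow hs p
      rw [Near, hp.neg_one_pow, Valuation.map_neg, map_one, mul_one, sub_neg_eq_add] at this
      exact lt_of_le_of_lt this hs
    have h8 : v (2 : K) < 1 := by
      rw [show (2 : K) = ((y / (x + y)) ^ p + 1) - ((y / (x + y)) ^ p - 1) by ring]
      exact v.map_sub_lt h7 h6
    rw [v2] at h8
    exact lt_irrefl _ h8
  · rw [max_eq_right hx.le, v.map_sub_eq_of_lt_left (by rw [hve]; exact hx)]

/-- **The valuation of `x - e` for the good abscissa `e`, residue characteristic `2`.** -/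
theorem v_sub_of_good_two (hc1 : v c < 1) (v2 : v (2 : K) < 1)
    (hvp : v (p : K) = 1) {x y e : K}
    {h : (nf c).toAffine.Nonsingular x y}
    (hP : p • (Point.some x y h : (nf c).toAffine.Point) = 0)
    (h4 : v (4 * e) = 1) :
    v x ≤ 1 ∧ v (4 * (x - e)) = 1 := by
  have hint : IntCoeff v (nf c) := ⟨by simp, by simp, by simp, by simp, hc1.le⟩
  have hx : v x ≤ 1 := by
    by_contra hlt
    push Not at hlt
    have hk : InKer v (Point.some x y h : (nf c).toAffine.Point) := by rw [inKer_some]; exact hlt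
    exact Point.some_ne_zero h (ker_torsion_free hint hk hvp hP)
  refine ⟨hx, ?_⟩
  have v4 : v (4 : K) < 1 := by
    rw [show (4 : K) = 2 * 2 by norm_num, map_mul]
    exact mul_lt_one_of_lt_of_le v2 v2.le
  have : v (4 * x) < 1 := by
    rw [mul_comm]; exact v_imul_lt hx v4
  rw [mul_sub, v.map_sub_eq_of_lt_right (by rw [h4]; exact this), h4]

omit [DecidableEq K] in
/-- Exactly one of the three abscissas is good. -/
lemma good_or_collide (hc1 : v c < 1) {e : K} (he : 4 * e ^ 3 + e ^ 2 + 4 * c = 0) :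
    v (4 * e) ≤ 1 := by
  by_contra hlt
  push Not at hlt
  have h1 : (4 * e) ^ 2 * (4 * e + 1) = -(64 * c) := by linear_combination 16 * he
  have h2 : v (4 * e + 1) = v (4 * e) := by
    rw [v.map_add_eq_of_lt_left (by rw [map_one]; exact hlt)]
  have h3 : v ((4 * e) ^ 2 * (4 * e + 1)) < 1 := by
    have v64 : v (64 : K) ≤ 1 := by simpa using v_nat_le_one (v := v) 64
    rw [h1, Valuation.map_neg]; exact v_imul_lt v64 hc1
  rw [map_mul, h2, map_pow, ← pow_succ] at h3
  exact absurd (one_le_pow₀ hlt.le (n := 3)) (not_le.mpr h3)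

omit [DecidableEq K] in
/-- Two distinct abscissas are not both good. -/
lemma not_both_good (hc1 : v c < 1) {e e' : K} (hne : e ≠ e')
    (he : 4 * e ^ 3 + e ^ 2 + 4 * c = 0) (he' : 4 * e' ^ 3 + e' ^ 2 + 4 * c = 0)
    (h4 : v (4 * e) = 1) (h4' : v (4 * e') = 1) : False := by
  have key : ∀ e : K, 4 * e ^ 3 + e ^ 2 + 4 * c = 0 → v (4 * e) = 1 → v (4 * e + 1) < 1 := by
    intro e he h4
    have h1 : (4 * e) ^ 2 * (4 * e + 1) = -(64 * c) := by linear_combination 16 * he
    have v64 : v (64 : K) ≤ 1 := by simpa using v_nat_le_one (v := v) 64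
    have h3 : v ((4 * e) ^ 2 * (4 * e + 1)) < 1 := by
      rw [h1, Valuation.map_neg]; exact v_imul_lt v64 hc1
    rwa [map_mul, map_pow, h4, one_pow, one_mul] at h3
  have k := key e he h4
  have k' := key e' he' h4'
  have h5 : 4 * (e ^ 2 + e * e' + e' ^ 2) + (e + e') = 0 := by
    have : (e - e') * (4 * (e ^ 2 + e * e' + e' ^ 2) + (e + e')) = 0 := by
      linear_combination he - he'
    exact (mul_eq_zero.mp this).resolve_left (sub_ne_zero.mpr hne)
  have h6 : (1 : K) = (4 * e + 1) * (2 - (4 * e + 1) - (4 * e' + 1)) +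
      (4 * e' + 1) * (2 - (4 * e' + 1)) := by
    linear_combination 4 * h5
  have h7 : v (1 : K) < 1 := by
    rw [h6]
    refine v.map_add_lt ?_ ?_
    · rw [mul_comm]
      exact v_imul_lt ((v.map_sub _ _).trans
        (max_le ((v.map_sub _ _).trans (max_le v_two_le_one k.le)) k'.le)) k
    · rw [mul_comm]
      exact v_imul_lt ((v.map_sub _ _).trans (max_le v_two_le_one k'.le)) k'
  rw [map_one] at h7
  exact lt_irrefl _ h7

/-- In order prime to the residue characteristic, the component `1 / p` occurs. -/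
lemma exists_hasComp_one [IsAlgClosed K] (hc1 : v c < 1) (hc : c ≠ 0) (hp : p ≠ 0)
    (hvp : v (p : K) = 1) : ∃ P : (nf c).toAffine.Point, p • P = 0 ∧ HasComp hc1 hc p P 1 := by
  obtain ⟨t, ht⟩ := IsAlgClosed.exists_pow_nat_eq (-c) (Nat.pos_of_ne_zero hp)
  obtain ⟨P, hP, hP'⟩ := exists_of_v_eq_one hc1 hc hvp (cls_root_pow (v := v) hc hp ht)
  refine ⟨P, hP, t, root_ne_zero hc hp ht, hP', ?_⟩
  rw [← map_pow, ht, Valuation.map_neg, zpow_one]

end Comp

/-! ### Transfer to a general model -/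

section Transfer

variable {W : WeierstrassCurve K} {x₀ y₀ α β : K}

lemma twoPoly_nf (h : NodeCentre v W x₀ y₀ α β) {e : K}
    (he : 4 * e ^ 3 + W.b₂ * e ^ 2 + 2 * W.b₄ * e + W.b₆ = 0) :
    4 * ((e - x₀) / (α - β) ^ 2) ^ 3 + ((e - x₀) / (α - β) ^ 2) ^ 2 +
      4 * tateC W x₀ y₀ α β = 0 := by
  have hd := h.sub_ne_zero
  have hgx₀ : 6 * x₀ ^ 2 + W.b₂ * x₀ + W.b₄ = 0 := by
    rw [b₂, b₄]
    linear_combination 2 * h.hX + W.a₁ * h.hY
  have hD : W.b₂ + 12 * x₀ = (α - β) ^ 2 := by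
    rw [b₂]
    linear_combination (W.a₁ - α - β) * h.sum + 4 * h.prod
  have hF : 4 * x₀ ^ 3 + W.b₂ * x₀ ^ 2 + 2 * W.b₄ * x₀ + W.b₆ = -4 * Fval W x₀ y₀ := by
    have := h.hY
    rw [b₂, b₄, b₆, Fval]
    linear_combination (2 * y₀ + W.a₁ * x₀ + W.a₃) * this
  have key : 4 * (e - x₀) ^ 3 + (α - β) ^ 2 * (e - x₀) ^ 2 - 4 * Fval W x₀ y₀ = 0 := by
    rw [← hD]
    linear_combination he - hF - 2 * (e - x₀) * hgx₀
  rw [tateC]
  field_simp
  linear_combination key

variable [DecidableEq K] [IsAlgClosed K]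

/-- **The components of the `p`-torsion of a curve of multiplicative reduction.** -/
theorem exists_components (h2 : (2 : K) ≠ 0) (h3 : (3 : K) ≠ 0) (hI : IntCoeff v W)
    (hc4 : v W.c₄ = 1) (hΔ1 : v W.Δ < 1) (hΔ : W.Δ ≠ 0) {p : ℕ} (hp : Odd p)
    (e : Fin 3 → K) (hinj : Function.Injective e)
    (he : ∀ i, 4 * e i ^ 3 + W.b₂ * e i ^ 2 + 2 * W.b₄ * e i + W.b₆ = 0) (i : Fin 3)
    (hcoll : v (4 * (e (i + 1) - e (i + 2))) < 1) :
    ∃ Cmp : W.toAffine.Point → ℤ → Prop,
      (∀ P, p • P = 0 → ∃ a, Cmp P a) ∧ Cmp 0 0 ∧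
      (∀ P Q a b, Cmp P a → Cmp Q b → Cmp (P + Q) (a + b)) ∧
      (∀ P a b, Cmp P a → Cmp P b → (p : ℤ) ∣ b - a) ∧
      (∀ x y h a, Cmp (.some x y h) a →
        v (x - e (i + 1)) ^ p = max 1 (v x) ^ p * v W.Δ ^ mu p a ∧
        v (x - e (i + 2)) ^ p = max 1 (v x) ^ p * v W.Δ ^ mu p a) ∧
      (v (2 : K) = 1 → ∀ x y h, p • (Point.some x y h : W.toAffine.Point) = 0 →
        v (x - e i) = max 1 (v x)) ∧
      (v (2 : K) < 1 → v (p : K) = 1 → ∀ x y h,
        p • (Point.some x y h : W.toAffine.Point) = 0 → v x ≤ 1 ∧ v (4 * (x - e i)) = 1) ∧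
      (v (p : K) = 1 → ∃ P, p • P = 0 ∧ Cmp P 1) := by
  obtain ⟨x₀, y₀, α, β, h⟩ := exists_nodeCentre_of_Δ h2 h3 hI hc4 hΔ1
  have hc1 := h.v_c_lt_one
  have hc := h.c_ne_zero hΔ
  have hd := h.sub_ne_zero
  set c := tateC W x₀ y₀ α β with hcdef
  set E : Fin 3 → K := fun i => (e i - x₀) / (α - β) ^ 2 with hE
  have hroot : ∀ i, 4 * E i ^ 3 + E i ^ 2 + 4 * c = 0 := fun i => twoPoly_nf h (he i)
  have hEsub : ∀ i j, E i - E j = (e i - e j) / (α - β) ^ 2 := fun i j => by
    simp only [hE]; field_simp; ring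
  have hvE : ∀ i j, v (4 * (E i - E j)) = v (4 * (e i - e j)) := fun i j => by
    rw [hEsub, map_mul, map_div₀, map_pow, h.sub, one_pow, div_one, ← map_mul]
  have hEinj : Function.Injective E := by
    intro i j hij
    have h1 : E i - E j = 0 := sub_eq_zero.mpr hij
    rw [hEsub, div_eq_zero_iff, or_iff_left (pow_ne_zero 2 hd)] at h1
    exact hinj (sub_eq_zero.mp h1)
  have hle : ∀ i, v (4 * E i) ≤ 1 := fun i => good_or_collide hc1 (hroot i)
  have hne12 : i + 1 ≠ i + 2 := by fin_cases i <;> decide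
  -- the two colliding abscissas are not good
  have hng1 : v (4 * E (i + 1)) < 1 := by
    by_contra hlt
    have g1 : v (4 * E (i + 1)) = 1 := le_antisymm (hle _) (not_lt.mp hlt)
    have g2 : v (4 * E (i + 2)) < 1 := lt_of_le_of_ne (hle _) (fun g2 =>
      not_both_good hc1 (hEinj.ne hne12) (hroot _) (hroot _) g1 g2)
    have h1 := hcoll
    rw [← hvE, mul_sub, v.map_sub_eq_of_lt_left (by rw [g1]; exact g2), g1] at h1
    exact lt_irrefl _ h1
  have hng2 : v (4 * E (i + 2)) < 1 := by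
    have h1 := hcoll
    rw [← hvE, mul_sub] at h1
    have : 4 * E (i + 2) = 4 * E (i + 1) - (4 * E (i + 1) - 4 * E (i + 2)) := by ring
    rw [this]
    exact v.map_sub_lt hng1 h1
  -- the remaining one is good
  have hsum : (4 : K) * (E i + E (i + 1) + E (i + 2)) = -1 := by
    have k1 : ∀ a b : K, a ≠ b → 4 * a ^ 3 + a ^ 2 + 4 * c = 0 → 4 * b ^ 3 + b ^ 2 + 4 * c = 0 →
        4 * (a ^ 2 + a * b + b ^ 2) + (a + b) = 0 := fun a b hab ha hb => by
      have : (a - b) * (4 * (a ^ 2 + a * b + b ^ 2) + (a + b)) = 0 := by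
        linear_combination ha - hb
      exact (mul_eq_zero.mp this).resolve_left (sub_ne_zero.mpr hab)
    have n01 : i ≠ i + 1 := by fin_cases i <;> decide
    have n02 : i ≠ i + 2 := by fin_cases i <;> decide
    have f1 := k1 _ _ (hEinj.ne n01) (hroot _) (hroot _)
    have f2 := k1 _ _ (hEinj.ne n02) (hroot _) (hroot _)
    have : (E (i + 1) - E (i + 2)) * (4 * (E i + E (i + 1) + E (i + 2)) + 1) = 0 := by
      linear_combination f1 - f2
    have := (mul_eq_zero.mp this).resolve_left (sub_ne_zero.mpr (hEinj.ne hne12))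
    linear_combination this
  have hgood : v (4 * E i) = 1 := by
    have e1 : 4 * E i = -1 - (4 * E (i + 1) + 4 * E (i + 2)) := by linear_combination hsum
    rw [e1, v.map_sub_eq_of_lt_left, Valuation.map_neg, map_one]
    rw [Valuation.map_neg, map_one]
    exact v.map_add_lt hng1 hng2
  have hs1 := v_sq_le_of_root (hroot (i + 1)) hng1
  have hs2 := v_sq_le_of_root (hroot (i + 2)) hng2
  -- transfer of the abscissas
  have hxe : ∀ x j, v ((x - x₀) / (α - β) ^ 2 - E j) = v (x - e j) := fun x j => by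
    have : (x - x₀) / (α - β) ^ 2 - E j = (x - e j) / (α - β) ^ 2 := by
      simp only [hE]; field_simp; ring
    rw [this, map_div₀, map_pow, h.sub, one_pow, div_one]
  have hmax : ∀ x, max 1 (v ((x - x₀) / (α - β) ^ 2)) = max 1 (v x) := fun x => by
    rw [map_div₀, map_pow, h.sub, one_pow, div_one]
    rcases le_or_gt (v x) 1 with hx | hx
    · rw [max_eq_left hx, max_eq_left ((v.map_sub _ _).trans (max_le hx h.int_x))]
    · rw [v.map_sub_eq_of_lt_left (lt_of_le_of_lt h.int_x hx)]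
  have hΔc : v W.Δ = v c := h.v_c_eq.symm
  refine ⟨fun P a => HasComp hc1 hc p (h.equiv P) a, ?_, ?_, ?_, ?_, ?_, ?_, ?_, ?_⟩
  · intro P hP
    exact exists_hasComp (by rw [← map_nsmul, hP, map_zero])
  · change HasComp hc1 hc p (h.equiv 0) 0
    rw [map_zero]; exact HasComp.zero
  · intro P Q a b hP hQ
    change HasComp hc1 hc p (h.equiv (P + Q)) (a + b)
    rw [map_add]; exact hP.add hQ
  · intro P a b hP hQ
    exact hP.congr hQ
  · intro x y hxy a hP
    obtain ⟨h', e1⟩ := h.equiv_some hxy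
    rw [e1] at hP
    rw [hΔc, ← hxe, ← hxe, ← hmax]
    exact ⟨hP.v_sub_pow hp hs1, hP.v_sub_pow hp hs2⟩
  · intro v2 x y hxy hP
    obtain ⟨h', e1⟩ := h.equiv_some hxy
    have hP' : p • h.equiv (.some x y hxy) = 0 := by rw [← map_nsmul, hP, map_zero]
    rw [e1] at hP'
    rw [← hxe, ← hmax]
    exact v_sub_of_good hc1 hc hp v2 hP' (hroot i) hgood
  · intro v2 hvp x y hxy hP
    obtain ⟨h', e1⟩ := h.equiv_some hxy
    have hP' : p • h.equiv (.some x y hxy) = 0 := by rw [← map_nsmul, hP, map_zero]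
    rw [e1] at hP'
    obtain ⟨g1, g2⟩ := v_sub_of_good_two hc1 v2 hvp hP' hgood
    refine ⟨?_, ?_⟩
    · have := hmax x
      rw [max_eq_left g1] at this
      exact max_eq_left_iff.mp this.symm
    · rw [map_mul, ← hxe, ← map_mul]; exact g2
  · intro hvp
    obtain ⟨P, hP, hP'⟩ := exists_hasComp_one hc1 hc hp.pos.ne' hvp
    refine ⟨h.equiv.symm P, ?_, ?_⟩
    · rw [← map_nsmul, hP, map_zero]
    · change HasComp hc1 hc p (h.equiv (h.equiv.symm P)) 1
      rw [AddEquiv.apply_symm_apply]; exact hP'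

end Transfer

end Fermat.Agent.Descent
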