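import Mathlib
import Fermat.Agent.ECRed.Inertia
import Fermat.Agent.FrobExists

/-!
# Comparison of `padicValRat` with a place of `AlgebraicClosure ℚ`
-/

set_option autoImplicit false
set_option linter.unusedSectionVars false

namespace Fermat.Agent.Descent

open Fermat.Agent.ECRed

variable {L : Type*} [Field L] [CharZero L] {A : ValuationSubring L} {q : ℕ} (hq : q.Prime)
  (hA : A.LiesOverPrime q)

include hq hA

lemma v_natCast {n : ℕ} (hn : n ≠ 0) :
    A.valuation (n : L) = A.valuation (q : L) ^ padicValNat q n := by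
  have h1 := Nat.ordProj_mul_ordCompl_eq_self n q
  have h2 : A.valuation ((n / q ^ n.factorization q : ℕ) : L) = 1 :=
    valuation_nat_eq_one A hA (Nat.coprime_ordCompl hq hn).symm
  calc A.valuation (n : L) = A.valuation ((q ^ n.factorization q * (n / q ^ n.factorization q) : ℕ) : L) := by
        rw [h1]
    _ = A.valuation (q : L) ^ padicValNat q n := by
        rw [Nat.cast_mul, map_mul, h2, mul_one, Nat.cast_pow, map_pow, Nat.factorization_def n hq]

lemma v_intCast {n : ℤ} (hn : n ≠ 0) :
    A.valuation (n : L) = A.valuation (q : L) ^ padicValInt q n := by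
  have h1 := v_natCast hq hA (Int.natAbs_ne_zero.mpr hn)
  rw [padicValInt, ← h1]
  rcases Int.natAbs_eq n with h | h
  · conv_lhs => rw [h]
    rw [Int.cast_natCast]
  · conv_lhs => rw [h]
    rw [Int.cast_neg, Int.cast_natCast, Valuation.map_neg]

lemma v_ratCast {s : ℚ} (hs : s ≠ 0) :
    A.valuation (s : L) = A.valuation (q : L) ^ padicValRat q s := by
  have hq0 : A.valuation (q : L) ≠ 0 := by
    rw [Valuation.ne_zero_iff]
    exact_mod_cast hq.ne_zero
  have h1 : (s : L) = (s.num : L) / (s.den : L) := by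
    rw [Rat.cast_def]
  rw [h1, map_div₀, v_intCast hq hA (Rat.num_ne_zero.mpr hs), v_natCast hq hA s.den_ne_zero,
    padicValRat_def, zpow_sub₀ hq0, zpow_natCast, zpow_natCast]

lemma v_q_lt_one : A.valuation (q : L) < 1 := A.mem_nonunits_iff.mp hA

lemma v_q_pos : 0 < A.valuation (q : L) := by
  rw [Valuation.pos_iff]
  exact_mod_cast hq.ne_zero

lemma zpow_v_inj {m n : ℤ} (h : A.valuation (q : L) ^ m = A.valuation (q : L) ^ n) : m = n :=
  (zpow_right_strictAnti₀ (v_q_pos hq hA) (v_q_lt_one hq hA)).injective h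

end Fermat.Agent.Descent
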