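import Mathlib
import Fermat.Agent.Descent.LocAux
import Fermat.Agent.Descent.LocCount
import Fermat.Agent.Descent.PadicVal

/-!
# The local statements at the odd primes
-/

set_option autoImplicit false
set_option linter.unusedSectionVars false

namespace Fermat.Agent.Descent

open WeierstrassCurve WeierstrassCurve.Affine Fermat.Agent.ECRed
open Fermat.Agent.LOC Fermat.Agent.LOC.TatePhi Fermat.Agent.LOC.TateHom

section Core

variable {K Γ₀ : Type*} [Field K] [DecidableEq K] [LinearOrderedCommGroupWithZero Γ₀]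
  {v : Valuation K Γ₀} {W : WeierstrassCurve K} {e : Fin 3 → K} {p : ℕ}

/-- The good case. -/
theorem good_core (hW : W = leg e) (hv2 : v (2 : K) = 1) (he : ∀ i, v (e i) ≤ 1)
    (hne : ∀ i : Fin 3, v (e i - e (i + 1)) = 1) (hp : Odd p) {P : W.toAffine.Point}
    (hP0 : P ≠ 0) (hP : p • P = 0) :
    (v (xc P) ≤ 1 → ∀ l, v (xc P - e l) = 1) ∧ ∀ l l', v (xc P - e l) = v (xc P - e l') := by
  subst hW
  rcases P with _ | ⟨x, y, h⟩
  · exact absurd rfl hP0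
  have hne2 : ∀ i : Fin 3, v (e i - e (i + 2)) = 1 := by
    intro i
    have h1 := hne (i + 2)
    have h2 : ∀ i : Fin 3, i + 2 + 1 = i := by decide
    rw [h2 i, Valuation.map_sub_swap] at h1
    exact h1
  have key : v x ≤ 1 → ∀ l, v (x - e l) = 1 := fun hx l =>
    v_sub_eq_one hv2 he l (hne l) (hne2 l) hp h hP hx
  refine ⟨key, fun l l' => ?_⟩
  change v (x - e l) = v (x - e l')
  rcases le_or_gt (v x) 1 with hx | hx
  · rw [key hx, key hx]
  · rw [v_sub_of_one_lt he hx, v_sub_of_one_lt he hx]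

theorem exists_index_xc [IsAlgClosed K] (hW : W = leg e) (hv2 : v (2 : K) = 1)
    (h3K : (3 : K) ≠ 0) (he : ∀ i, v (e i) ≤ 1) (i : Fin 3) (h1 : v (e i - e (i + 1)) = 1)
    (h2 : v (e i - e (i + 2)) = 1) (h3 : v (e (i + 1) - e (i + 2)) < 1)
    (h30 : e (i + 1) ≠ e (i + 2)) (hp : Odd p) :
    ∃ ι : W.toAffine.Point → ZMod p, ι 0 = 0 ∧
      (∀ P Q, p • P = 0 → p • Q = 0 → ι (P + Q) = ι P + ι Q) ∧
      ∀ P, P ≠ 0 → p • P = 0 →
        (ι P = 0 → ∀ l l', v (xc P - e l) = v (xc P - e l')) ∧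
        (v (xc P) ≤ 1 → v (xc P - e i) = 1) ∧
        (ι P ≠ 0 → v (xc P) ≤ 1) ∧
        ((ι P ≠ 0 ∨ v (xc P) ≤ 1) →
          v (xc P - e (i + 1)) ^ p = v (e (i + 1) - e (i + 2)) ^ (2 * (ι P).valMinAbs.natAbs) ∧
          v (xc P - e (i + 2)) ^ p = v (e (i + 1) - e (i + 2)) ^
            (2 * (ι P).valMinAbs.natAbs)) := by
  subst hW
  obtain ⟨ι, hι0, hadd, hι⟩ := exists_index hv2 h3K he i h1 h2 h3 h30 hp
  refine ⟨ι, hι0, hadd, fun P hP0 hP => ?_⟩
  rcases P with _ | ⟨x, y, h⟩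
  · exact absurd rfl hP0
  obtain ⟨g1, g2, -, g4⟩ := hι x y h hP
  refine ⟨g1, v_sub_eq_one hv2 he i h1 h2 hp h hP, fun h0 => (g4 h0).1, fun h0 => ?_⟩
  by_cases hz : ι (.some x y h) = 0
  · have hx : v x ≤ 1 := by
      rcases h0 with h0 | h0
      · exact absurd hz h0
      · exact h0
    change v (x - e (i + 1)) ^ p = _ ∧ v (x - e (i + 2)) ^ p = _
    rw [g2 hz hx, g2 hz hx, hz]
    simp
  · exact (g4 hz).2

lemma index_nsmul {A : Type*} [AddCommGroup A] {ι : A → ZMod p} (h0 : ι 0 = 0)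
    (hadd : ∀ P Q, p • P = 0 → p • Q = 0 → ι (P + Q) = ι P + ι Q) {P : A} (hP : p • P = 0)
    (k : ℕ) : ι (k • P) = k * ι P := by
  induction k with
  | zero => rw [zero_nsmul, h0, Nat.cast_zero, zero_mul]
  | succ k ih =>
    rw [succ_nsmul, hadd _ _ _ hP, ih]
    · push_cast; ring
    · rw [← mul_nsmul, mul_comm, mul_nsmul, hP, nsmul_zero]

lemma nsmul_torsion {A : Type*} [AddCommGroup A] {g : A} (hg : p • g = 0) (j : ℕ) :
    p • (j • g) = 0 := by
  rw [← mul_nsmul, mul_comm, mul_nsmul, hg, nsmul_zero]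

/-- The multiplicative case: valuations of the products over the cosets. -/
theorem mult_core [IsAlgClosed K] (hW : W = leg e) (hv2 : v (2 : K) = 1)
    (h3K : (3 : K) ≠ 0) (he : ∀ i, v (e i) ≤ 1) (i : Fin 3) (h1 : v (e i - e (i + 1)) = 1)
    (h2 : v (e i - e (i + 2)) = 1) (h3 : v (e (i + 1) - e (i + 2)) < 1)
    (h30 : e (i + 1) ≠ e (i + 2)) (hp : p.Prime) (hp2 : p ≠ 2) {g r : W.toAffine.Point}
    (hg : p • g = 0) (hg0 : g ≠ 0) (hr : p • r = 0) (hrg : r ∉ AddSubgroup.zmultiples g)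
    (hint : ∀ k j : ℕ, ¬ p ∣ k → v (xc (k • r + j • g)) ≤ 1) :
    (∀ k, ¬ p ∣ k → ∀ l, ∏ j ∈ Finset.range p, v (xc (k • r + j • g) - e l) =
      ∏ j ∈ Finset.Icc 1 (p - 1), v (xc (j • g) - e l)) ∨
    ((∀ l l', ∏ j ∈ Finset.Icc 1 (p - 1), v (xc (j • g) - e l) =
      ∏ j ∈ Finset.Icc 1 (p - 1), v (xc (j • g) - e l')) ∧
      ∃ m : ℕ → ℕ, ∀ k, ¬ p ∣ k →
        ∏ j ∈ Finset.range p, v (xc (k • r + j • g) - e i) = 1 ∧
        ∏ j ∈ Finset.range p, v (xc (k • r + j • g) - e (i + 1)) =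
          v (e (i + 1) - e (i + 2)) ^ (2 * m k) ∧
        ∏ j ∈ Finset.range p, v (xc (k • r + j • g) - e (i + 2)) =
          v (e (i + 1) - e (i + 2)) ^ (2 * m k)) := by
  have : Fact p.Prime := ⟨hp⟩
  have hodd : Odd p := hp.odd_of_ne_two hp2
  obtain ⟨ι, hι0, hadd, hι⟩ := exists_index_xc hW hv2 h3K he i h1 h2 h3 h30 hodd
  have hg' := fun j => nsmul_torsion hg j
  have hr' := fun k => nsmul_torsion hr k
  have hidx : ∀ k j : ℕ, ι (k • r + j • g) = k * ι r + j * ι g := fun k j => by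
    rw [hadd _ _ (hr' k) (hg' j), index_nsmul hι0 hadd hr, index_nsmul hι0 hadd hg]
  have htor : ∀ k j : ℕ, p • (k • r + j • g) = 0 := fun k j => by
    rw [nsmul_add, hr', hg', add_zero]
  set γ := v (e (i + 1) - e (i + 2)) with hγ
  set F : ZMod p → Γ₀ := fun z => γ ^ (2 * z.valMinAbs.natAbs) with hF
  have hF0 : F 0 = 1 := by simp [hF]
  have hcoset : ∀ k : ℕ, ¬ p ∣ k → ∀ j : ℕ, v (xc (k • r + j • g) - e i) = 1 ∧
      v (xc (k • r + j • g) - e (i + 1)) ^ p = F (k * ι r + j * ι g) ∧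
      v (xc (k • r + j • g) - e (i + 2)) ^ p = F (k * ι r + j * ι g) := by
    intro k hk j
    obtain ⟨-, g2, -, g4⟩ := hι _ (coset_ne_zero hp hr hrg hk j) (htor k j)
    have h5 := g4 (Or.inr (hint k j hk))
    rw [hidx] at h5
    exact ⟨g2 (hint k j hk), h5⟩
  by_cases hb : ι g = 0
  · right
    refine ⟨fun l l' => ?_, fun k => ((k : ZMod p) * ι r).valMinAbs.natAbs, fun k hk => ?_⟩
    · refine Finset.prod_congr rfl fun j hj => ?_
      rw [Finset.mem_Icc] at hj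
      have hj0 := nsmul_ne_zero_of_lt hp hg hg0 hj.1 hj.2
      exact (hι _ hj0 (hg' j)).1 (by rw [index_nsmul hι0 hadd hg, hb, mul_zero]) l l'
    · have hc := hcoset k hk
      simp only [hb, mul_zero, add_zero] at hc
      refine ⟨Finset.prod_eq_one fun j _ => (hc j).1, ?_, ?_⟩
      · have hconst : ∀ j, v (xc (k • r + j • g) - e (i + 1)) =
            v (xc (k • r + 0 • g) - e (i + 1)) := fun j => by
          refine (pow_left_inj₀ zero_le zero_le hp.ne_zero).mp ?_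
          rw [(hc j).2.1, (hc 0).2.1]
        rw [Finset.prod_congr rfl fun j _ => hconst j, Finset.prod_const, Finset.card_range,
          (hc 0).2.1]
      · have hconst : ∀ j, v (xc (k • r + j • g) - e (i + 2)) =
            v (xc (k • r + 0 • g) - e (i + 2)) := fun j => by
          refine (pow_left_inj₀ zero_le zero_le hp.ne_zero).mp ?_
          rw [(hc j).2.2, (hc 0).2.2]
        rw [Finset.prod_congr rfl fun j _ => hconst j, Finset.prod_const, Finset.card_range,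
          (hc 0).2.2]
  · left
    intro k hk l
    have hN : ∀ j ∈ Finset.Icc 1 (p - 1), v (xc (j • g) - e i) = 1 ∧
        v (xc (j • g) - e (i + 1)) ^ p = F (0 + j * ι g) ∧
        v (xc (j • g) - e (i + 2)) ^ p = F (0 + j * ι g) := by
      intro j hj
      rw [Finset.mem_Icc] at hj
      have hj0 := nsmul_ne_zero_of_lt hp hg hg0 hj.1 hj.2
      obtain ⟨-, g2, g3, g4⟩ := hι _ hj0 (hg' j)
      have hidx' : ι (j • g) = j * ι g := index_nsmul hι0 hadd hg j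
      have hne : ι (j • g) ≠ 0 := by
        rw [hidx']
        refine mul_ne_zero ?_ hb
        rw [ne_eq, ZMod.natCast_eq_zero_iff]
        intro hd
        have := Nat.le_of_dvd (by omega) hd
        have := hp.pos
        omega
      have h5 := g4 (Or.inl hne)
      rw [hidx'] at h5
      rw [zero_add]
      exact ⟨g2 (g3 hne), h5⟩
    have hprodN : ∏ j ∈ Finset.Icc 1 (p - 1), F (0 + j * ι g) = ∏ z : ZMod p, F z := by
      rw [← prod_coset F 0 hb, ← prod_Icc_mul hp.pos, Nat.cast_zero, zero_mul, add_zero, hF0,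
        one_mul]
    rcases fin3_cases i l with rfl | rfl | rfl
    · rw [Finset.prod_eq_one fun j _ => (hcoset k hk j).1,
        Finset.prod_eq_one fun j hj => (hN j hj).1]
    · refine (pow_left_inj₀ zero_le zero_le hp.ne_zero).mp ?_
      rw [← Finset.prod_pow, ← Finset.prod_pow,
        Finset.prod_congr rfl fun j _ => (hcoset k hk j).2.1,
        Finset.prod_congr rfl fun j hj => (hN j hj).2.1, hprodN, prod_coset F _ hb]
    · refine (pow_left_inj₀ zero_le zero_le hp.ne_zero).mp ?_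
      rw [← Finset.prod_pow, ← Finset.prod_pow,
        Finset.prod_congr rfl fun j _ => (hcoset k hk j).2.2,
        Finset.prod_congr rfl fun j hj => (hN j hj).2.2, hprodN, prod_coset F _ hb]

end Core

/-! ### Assembly -/

local notation "Qb" => AlgebraicClosure ℚ

lemma eZ_ne {p : ℕ} {A B : ℤ} (hT : IsTri p A B) (i : Fin 3) :
    eZ A B (i + 1) - eZ A B (i + 2) ≠ 0 := by
  have h1 := hT.A0
  have h2 := hT.B0
  have h3 := hT.C0
  fin_cases i <;> simp [eZ] <;> omega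

lemma not_dvd_of_dvd {p : ℕ} {A B : ℤ} (hT : IsTri p A B) {q : ℕ} (hq : q.Prime) (i : Fin 3)
    (h : (q : ℤ) ∣ eZ A B (i + 1) - eZ A B (i + 2)) :
    ¬ (q : ℤ) ∣ eZ A B i - eZ A B (i + 1) ∧ ¬ (q : ℤ) ∣ eZ A B i - eZ A B (i + 2) := by
  have hcop : ∀ x y : ℤ, (q : ℤ) ∣ x → (q : ℤ) ∣ y → IsCoprime x y → False := by
    intro x y hx hy hxy
    have h1 := Int.isUnit_iff.mp (hxy.isUnit_of_dvd' hx hy)
    have h2 := hq.two_le
    omega
  have hc := hT.cop
  have key : ¬ ((q : ℤ) ∣ A ∧ (q : ℤ) ∣ B) := fun h => hcop A B h.1 h.2 hc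
  fin_cases i
  · simp only [eZ, Fin.isValue, Fin.zero_eta, zero_add,
      Matrix.cons_val_zero, Matrix.cons_val_one, Matrix.cons_val, zero_sub, sub_neg_eq_add,
      dvd_neg] at h ⊢
    refine ⟨fun h1 => key ⟨h1, ?_⟩, fun h1 => key ⟨?_, h1⟩⟩
    · exact (Int.dvd_add_right h1).mp h
    · exact (Int.dvd_add_left h1).mp h
  · simp only [eZ, Fin.isValue, Fin.mk_one, Fin.reduceAdd, Matrix.cons_val_zero,
      Matrix.cons_val_one, Matrix.cons_val, sub_zero, sub_neg_eq_add, dvd_neg] at h ⊢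
    refine ⟨fun h1 => key ⟨(Int.dvd_add_left h).mp h1, h⟩, fun h1 => key ⟨h1, h⟩⟩
  · simp only [eZ, Fin.isValue, Fin.reduceFinMk, Fin.reduceAdd, Matrix.cons_val_zero,
      Matrix.cons_val_one, Matrix.cons_val, sub_zero, zero_sub, dvd_neg] at h ⊢
    refine ⟨fun h1 => key ⟨h, h1⟩, fun h1 => key ⟨h, ?_⟩⟩
    have h2 : (q : ℤ) ∣ -(-B - A) - A := Int.dvd_sub (dvd_neg.mpr h1) h
    have h3 : -(-B - A) - A = B := by ring
    rwa [h3] at h2

section Assembly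

variable {p : ℕ} {A B : ℤ} {𝔓 : ValuationSubring Qb} {q : ℕ}

lemma baseChange_leg (e : Fin 3 → ℤ) :
    ((leg (fun i => (e i : ℚ)))⁄Qb) = leg (fun i => ((e i : ℤ) : Qb)) := by
  change (leg (fun i => (e i : ℚ))).map (algebraMap ℚ Qb) = _
  rw [leg_map]
  congr 1

lemma v_int_ne (h𝔓 : 𝔓.LiesOverPrime q) (hq : q.Prime) {n : ℤ} (h : ¬ (q : ℤ) ∣ n) :
    𝔓.valuation (n : Qb) = 1 :=
  valuation_int_eq_one 𝔓 h𝔓
    (((Nat.prime_iff_prime_int.mp hq).coprime_iff_not_dvd.mpr h).symm)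

lemma v_two_eq_one (h𝔓 : 𝔓.LiesOverPrime q) (hq : q.Prime) (hq2 : q ≠ 2) :
    𝔓.valuation (2 : Qb) = 1 := by
  have := valuation_nat_eq_one 𝔓 h𝔓 (n := 2)
    ((Nat.coprime_primes Nat.prime_two hq).mpr (Ne.symm hq2))
  exact_mod_cast this

lemma v_xc_le_one (h2 : 𝔓.valuation (2 : Qb) = 1) {e : Fin 3 → ℤ} (G : GalData p e) {k : ℕ}
    (hk : ¬ p ∣ k) (j : ℕ) : 𝔓.valuation (xc (k • G.r + j • G.g)) ≤ 1 := by
  have h1 : 𝔓.valuation (xc (k • G.r + j • G.g) / (4 : Qb)) ≤ 1 :=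
    (𝔓.valuation_le_one_iff _).mpr (Fermat.Agent.FrobExists.mem_of_isIntegral 𝔓 (G.int k j hk))
  rwa [map_div₀, show (4 : Qb) = 2 * 2 by norm_num, map_mul, h2, one_mul, div_one] at h1

lemma mul_eq_of_sq {Γ₀ : Type*} [LinearOrderedCommGroupWithZero Γ₀] {a b c : Γ₀} {m : ℕ}
    (h : a ^ 2 * b ^ 2 = c ^ (2 * m)) : a * b = c ^ m := by
  rw [← mul_pow, mul_comm 2 m, pow_mul] at h
  exact (pow_left_inj₀ zero_le zero_le two_ne_zero).mp h

theorem locGood (hp : p.Prime) (hp2 : p ≠ 2) (G : GalData p (eZ A B))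
    (V : VeluOut p (eZ A B) G) (hq : q.Prime) (hq2 : q ≠ 2)
    (hnd : ¬ (q : ℤ) ∣ A * B * (A + B)) : LocGood p q V.U V.D := by
  obtain ⟨𝔓, h𝔓⟩ := Fermat.Agent.FrobExists.exists_liesOverPrime Qb hq
  have hv2 := v_two_eq_one h𝔓 hq hq2
  have hodd : Odd p := hp.odd_of_ne_two hp2
  have hW := baseChange_leg (eZ A B)
  have he : ∀ i, 𝔓.valuation (((eZ A B i : ℤ) : Qb)) ≤ 1 := fun i => v_int_le_one _
  have hA : ¬ (q : ℤ) ∣ A := fun h => hnd (Dvd.dvd.mul_right (Dvd.dvd.mul_right h _) _)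
  have hB : ¬ (q : ℤ) ∣ B := fun h => hnd (Dvd.dvd.mul_right (Dvd.dvd.mul_left h _) _)
  have hC : ¬ (q : ℤ) ∣ A + B := fun h => hnd (Dvd.dvd.mul_left h _)
  have hne : ∀ i : Fin 3, 𝔓.valuation (((eZ A B i : ℤ) : Qb) - ((eZ A B (i + 1) : ℤ) : Qb)) = 1 := by
    intro i
    rw [← Int.cast_sub]
    refine v_int_ne h𝔓 hq ?_
    fin_cases i <;> simp [eZ] <;> assumption
  have hcore := fun {P : ((leg (fun i => (eZ A B i : ℚ)))⁄Qb).Point} (h0 : P ≠ 0)
    (h1 : p • P = 0) => good_core hW hv2 he hne hodd h0 h1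
  have hD : ∀ a b, 𝔓.valuation ((V.D a : ℚ) : Qb) = 𝔓.valuation ((V.D b : ℚ) : Qb) := by
    intro a b
    have h1 := congrArg 𝔓.valuation (V.D_sq a)
    have h2 := congrArg 𝔓.valuation (V.D_sq b)
    rw [map_pow, map_prod] at h1 h2
    refine (pow_left_inj₀ zero_le zero_le two_ne_zero).mp ?_
    rw [h1, h2]
    refine Finset.prod_congr rfl fun j hj => ?_
    rw [Finset.mem_Icc] at hj
    exact (hcore (nsmul_ne_zero_of_lt hp G.hg G.hg0 hj.1 hj.2) (nsmul_torsion G.hg j)).2 a b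
  have hD' : ∀ a b, padicValRat q (V.D a) = padicValRat q (V.D b) := by
    intro a b
    refine zpow_v_inj hq h𝔓 ?_
    rw [← v_ratCast hq h𝔓 (V.D_ne a), ← v_ratCast hq h𝔓 (V.D_ne b)]
    exact hD a b
  refine ⟨⟨-padicValRat q (V.D 0), fun i k hk => ?_⟩, hD'⟩
  have h1 := congrArg 𝔓.valuation (V.U_spec i k hk)
  rw [map_mul, map_pow, map_pow, map_prod, Finset.prod_eq_one fun j _ => ?_] at h1
  · have h2 := mul_eq_of_sq (c := (1 : 𝔓.ValueGroup)) (m := 0) (by rw [h1, one_pow])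
    rw [v_ratCast hq h𝔓 (V.U_ne i k hk), v_ratCast hq h𝔓 (V.D_ne i), pow_zero,
      ← zpow_add₀ (v_q_pos hq h𝔓).ne', ← zpow_zero (𝔓.valuation (q : Qb))] at h2
    have h3 := zpow_v_inj hq h𝔓 h2
    rw [hD' 0 i]
    omega
  · have h0 := coset_ne_zero hp G.hr G.hrg hk j
    exact (hcore h0 (by rw [nsmul_add, nsmul_torsion G.hr, nsmul_torsion G.hg, add_zero])).1
      (v_xc_le_one hv2 G hk j) i

theorem locMult (hp : p.Prime) (hp2 : p ≠ 2) (hT : IsTri p A B) (G : GalData p (eZ A B))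
    (V : VeluOut p (eZ A B) G) (hq : q.Prime) (hq2 : q ≠ 2) (i : Fin 3)
    (hd : (q : ℤ) ∣ eZ A B (i + 1) - eZ A B (i + 2)) :
    LocMult p q i (padicValInt q (eZ A B (i + 1) - eZ A B (i + 2))) V.U V.D := by
  obtain ⟨𝔓, h𝔓⟩ := Fermat.Agent.FrobExists.exists_liesOverPrime Qb hq
  have hv2 := v_two_eq_one h𝔓 hq hq2
  have hW := baseChange_leg (eZ A B)
  have he : ∀ i, 𝔓.valuation (((eZ A B i : ℤ) : Qb)) ≤ 1 := fun i => v_int_le_one _
  obtain ⟨hn1, hn2⟩ := not_dvd_of_dvd hT hq i hd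
  have h1 : 𝔓.valuation (((eZ A B i : ℤ) : Qb) - ((eZ A B (i + 1) : ℤ) : Qb)) = 1 := by
    rw [← Int.cast_sub]; exact v_int_ne h𝔓 hq hn1
  have h2 : 𝔓.valuation (((eZ A B i : ℤ) : Qb) - ((eZ A B (i + 2) : ℤ) : Qb)) = 1 := by
    rw [← Int.cast_sub]; exact v_int_ne h𝔓 hq hn2
  have h3 : 𝔓.valuation (((eZ A B (i + 1) : ℤ) : Qb) - ((eZ A B (i + 2) : ℤ) : Qb)) < 1 := by
    rw [← Int.cast_sub]; exact valuation_int_lt_one 𝔓 h𝔓 hd
  have h30 : ((eZ A B (i + 1) : ℤ) : Qb) ≠ ((eZ A B (i + 2) : ℤ) : Qb) := by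
    intro h
    exact eZ_ne hT i (sub_eq_zero.mpr (by exact_mod_cast h))
  have hγ : 𝔓.valuation (((eZ A B (i + 1) : ℤ) : Qb) - ((eZ A B (i + 2) : ℤ) : Qb)) =
      𝔓.valuation (q : Qb) ^ padicValInt q (eZ A B (i + 1) - eZ A B (i + 2)) := by
    rw [← Int.cast_sub, v_intCast hq h𝔓 (eZ_ne hT i)]
  have hcore := mult_core hW hv2 (by norm_num) he i h1 h2 h3 h30 hp hp2 G.hg G.hg0 G.hr G.hrg
    (fun k j hk => v_xc_le_one hv2 G hk j)
  have hq0 := (v_q_pos hq h𝔓 (L := Qb)).ne'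
  have hU : ∀ l k, ¬ p ∣ k → 𝔓.valuation ((V.U l k : ℚ) : Qb) ^ 2 *
      𝔓.valuation ((V.D l : ℚ) : Qb) ^ 2 = ∏ j ∈ Finset.range p,
        𝔓.valuation (xc (k • G.r + j • G.g) - ((eZ A B l : ℤ) : Qb)) := by
    intro l k hk
    have h1 := congrArg 𝔓.valuation (V.U_spec l k hk)
    rwa [map_mul, map_pow, map_pow, map_prod] at h1
  have hD : ∀ l, 𝔓.valuation ((V.D l : ℚ) : Qb) ^ 2 = ∏ j ∈ Finset.Icc 1 (p - 1),
        𝔓.valuation (xc (j • G.g) - ((eZ A B l : ℤ) : Qb)) := by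
    intro l
    have h1 := congrArg 𝔓.valuation (V.D_sq l)
    rwa [map_pow, map_prod] at h1
  rcases hcore with hc | ⟨hc1, m, hc2⟩
  · have hU0 : ∀ l k, ¬ p ∣ k → padicValRat q (V.U l k) = 0 := by
      intro l k hk
      have h4 := hU l k hk
      rw [hc k hk l, ← hD l] at h4
      have hD0 : 𝔓.valuation ((V.D l : ℚ) : Qb) ^ 2 ≠ 0 := by
        refine pow_ne_zero _ ?_
        rw [Valuation.ne_zero_iff]
        exact_mod_cast V.D_ne l
      have h5 : 𝔓.valuation ((V.U l k : ℚ) : Qb) ^ 2 = 1 ^ 2 := by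
        rw [one_pow]
        exact mul_right_cancel₀ hD0 (by rw [one_mul]; exact h4)
      have h6 := (pow_left_inj₀ zero_le zero_le two_ne_zero).mp h5
      rw [v_ratCast hq h𝔓 (V.U_ne l k hk), ← zpow_zero (𝔓.valuation (q : Qb))] at h6
      exact zpow_v_inj hq h𝔓 h6
    refine ⟨0, fun _ => 0, fun k hk => ⟨hU0 _ k hk, ?_, ?_⟩, ?_⟩
    · rw [hU0 _ k hk]; simp
    · rw [hU0 _ k hk]; simp
    · rintro ⟨k, -, hk⟩
      exact absurd hk (lt_irrefl _)
  · have hD' : ∀ a b, padicValRat q (V.D a) = padicValRat q (V.D b) := by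
      intro a b
      refine zpow_v_inj hq h𝔓 ?_
      rw [← v_ratCast hq h𝔓 (V.D_ne a), ← v_ratCast hq h𝔓 (V.D_ne b)]
      refine (pow_left_inj₀ zero_le zero_le two_ne_zero).mp ?_
      rw [hD a, hD b]
      exact hc1 a b
    have key : ∀ l k (hk : ¬ p ∣ k) (n : ℕ), ∏ j ∈ Finset.range p,
        𝔓.valuation (xc (k • G.r + j • G.g) - ((eZ A B l : ℤ) : Qb)) =
          𝔓.valuation (((eZ A B (i + 1) : ℤ) : Qb) - ((eZ A B (i + 2) : ℤ) : Qb)) ^ (2 * n) →
        padicValRat q (V.U l k) = -padicValRat q (V.D 0) +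
          n * padicValInt q (eZ A B (i + 1) - eZ A B (i + 2)) := by
      intro l k hk n hn
      have h4 := hU l k hk
      rw [hn] at h4
      have h5 := mul_eq_of_sq h4
      rw [v_ratCast hq h𝔓 (V.U_ne l k hk), v_ratCast hq h𝔓 (V.D_ne l), hγ, ← zpow_add₀ hq0,
        ← pow_mul, ← zpow_natCast] at h5
      have h6 := zpow_v_inj hq h𝔓 h5
      rw [hD' 0 l]
      push_cast at h6
      linarith
    refine ⟨-padicValRat q (V.D 0), m, fun k hk => ⟨?_, ?_, ?_⟩, fun _ => hD'⟩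
    · have := key i k hk 0 (by rw [mul_zero, pow_zero]; exact (hc2 k hk).1)
      rw [this]; simp
    · exact key (i + 1) k hk (m k) (hc2 k hk).2.1
    · exact key (i + 2) k hk (m k) (hc2 k hk).2.2

end Assembly

/-- **(L)** the local statements at the odd primes. -/
theorem locOddInput {p : ℕ} (hp : p.Prime) (hp2 : p ≠ 2) : LocOddInput p := by
  intro A B hT G V q hq hq2
  exact ⟨fun h => locGood hp hp2 G V hq hq2 h,
    fun i h => locMult hp hp2 hT G V hq hq2 i h⟩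

end Fermat.Agent.Descent
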