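import Fermat.Agent.Descent.LocNF
import Fermat.Agent.Descent.Gal
import Fermat.Agent.Descent.LocAux

/-! # The local analysis at `2` (piece L2) -/

set_option autoImplicit false

open WeierstrassCurve WeierstrassCurve.Affine Fermat.Agent.ECRed Fermat.Agent.LOC

namespace Fermat.Agent.Descent

local notation "Qb" => AlgebraicClosure ℚ

namespace TwoAux

/-! ### Generation of the `p`-torsion -/

/-- Two independent `p`-torsion points generate the `p`-torsion. -/
theorem exists_eq_nsmul_add {F : Type*} [Field F] [DecidableEq F] [IsAlgClosed F]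
    {W : WeierstrassCurve F} [W.IsElliptic] {p : ℕ} (hp : p.Prime) (hpF : (p : F) ≠ 0)
    {g r : W.toAffine.Point} (hg : p • g = 0) (hg0 : g ≠ 0) (hr : p • r = 0)
    (hrg : r ∉ AddSubgroup.zmultiples g) {P : W.toAffine.Point} (hP : p • P = 0) :
    ∃ k j : ℕ, P = k • r + j • g := by
  have hcard := EllTorsion.card_nsmul_eq_zero (W := W) hpF
  let f : Fin p × Fin p → {P : W.toAffine.Point // p • P = 0} := fun x =>
    ⟨(x.1 : ℕ) • r + (x.2 : ℕ) • g, by
      rw [smul_add, smul_comm p, smul_comm p, hr, hg, smul_zero, smul_zero, add_zero]⟩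
  have key : ∀ n : ℤ, ∀ Q : W.toAffine.Point, p • Q = 0 → ¬ (p : ℤ) ∣ n →
      Q ∈ AddSubgroup.zmultiples (n • Q) := by
    intro n Q hQ hn
    have hcop : IsCoprime n (p : ℤ) :=
      ((Nat.prime_iff_prime_int.mp hp).coprime_iff_not_dvd.mpr hn).symm
    obtain ⟨a, b, hab⟩ := hcop
    rw [AddSubgroup.mem_zmultiples_iff]
    refine ⟨a, ?_⟩
    have h1 : (p : ℤ) • Q = 0 := by rw [natCast_zsmul]; exact hQ
    calc a • n • Q = (a * n) • Q := by rw [mul_smul]
      _ = (a * n + b * p) • Q := by rw [add_smul, mul_smul b, h1, smul_zero, add_zero]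
      _ = Q := by rw [hab, one_smul]
  have hinj : Function.Injective f := by
    rintro ⟨k, j⟩ ⟨k', j'⟩ h
    have h1 : (k : ℕ) • r + (j : ℕ) • g = (k' : ℕ) • r + (j' : ℕ) • g := congrArg Subtype.val h
    have h2 : ((k : ℤ) - (k' : ℤ)) • r = ((j' : ℤ) - (j : ℤ)) • g := by
      rw [sub_smul, sub_smul, natCast_zsmul, natCast_zsmul, natCast_zsmul, natCast_zsmul,
        sub_eq_sub_iff_add_eq_add, h1, add_comm]
    have hk : (p : ℤ) ∣ (k : ℤ) - (k' : ℤ) := by
      by_contra hn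
      have h3 := key _ r hr hn
      rw [h2] at h3
      exact hrg (AddSubgroup.zmultiples_le_of_mem
        (AddSubgroup.zsmul_mem_zmultiples g _) h3)
    have hk' : k = k' := by
      have h5 := k.2
      have h6 := k'.2
      obtain ⟨m, hm⟩ := hk
      have : m = 0 := by
        rcases lt_trichotomy m 0 with h | h | h
        · nlinarith
        · exact h
        · nlinarith
      rw [this, mul_zero] at hm
      exact Fin.ext (by omega)
    subst hk'
    rw [sub_self, zero_smul] at h2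
    have hj : (p : ℤ) ∣ (j' : ℤ) - (j : ℤ) := by
      by_contra hn
      have h3 := key _ g hg hn
      rw [← h2] at h3
      rw [AddSubgroup.zmultiples_zero_eq_bot, AddSubgroup.mem_bot] at h3
      exact hg0 h3
    have hj' : j = j' := by
      have h5 := j.2
      have h6 := j'.2
      obtain ⟨m, hm⟩ := hj
      have : m = 0 := by
        rcases lt_trichotomy m 0 with h | h | h
        · nlinarith
        · exact h
        · nlinarith
      rw [this, mul_zero] at hm
      exact Fin.ext (by omega)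
    rw [hj']
  have hfin : Finite {P : W.toAffine.Point // p • P = 0} :=
    Nat.finite_of_card_ne_zero (by rw [hcard]; exact pow_ne_zero 2 hp.ne_zero)
  have hbij : Function.Bijective f := by
    have := Fintype.ofFinite {P : W.toAffine.Point // p • P = 0}
    rw [Fintype.bijective_iff_injective_and_card]
    refine ⟨hinj, ?_⟩
    rw [← Nat.card_eq_fintype_card (α := {P : W.toAffine.Point // p • P = 0}), hcard]
    simp [sq]
  obtain ⟨⟨k, j⟩, h⟩ := hbij.2 ⟨P, hP⟩
  exact ⟨k, j, (congrArg Subtype.val h).symm⟩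

/-! ### Valuations of rational numbers -/

theorem v_int_eq {A : ValuationSubring Qb} {q : ℕ} (hq : q.Prime) (hA : A.LiesOverPrime q) {n : ℤ}
    (hn : n ≠ 0) : A.valuation (n : Qb) = A.valuation (q : Qb) ^ padicValInt q n := by
  have hfact : Fact q.Prime := ⟨hq⟩
  obtain ⟨u, hu⟩ := padicValInt_dvd (p := q) n
  have hu' : ¬ (q : ℤ) ∣ u := by
    rintro ⟨w, rfl⟩
    have h1 : (q : ℤ) ^ (padicValInt q n + 1) ∣ n := ⟨w, by rw [pow_succ, mul_assoc]; exact hu⟩
    rw [padicValInt_dvd_iff] at h1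
    rcases h1 with h1 | h1
    · exact hn h1
    · omega
  conv_lhs => rw [hu]
  push_cast
  rw [map_mul, map_pow, valuation_int_eq_one A hA
    ((Nat.prime_iff_prime_int.mp hq).coprime_iff_not_dvd.mpr hu').symm, mul_one]

theorem v_rat_eq {A : ValuationSubring Qb} {q : ℕ} (hq : q.Prime) (hA : A.LiesOverPrime q) {x : ℚ}
    (hx : x ≠ 0) : A.valuation (x : Qb) = A.valuation (q : Qb) ^ padicValRat q x := by
  have hfact : Fact q.Prime := ⟨hq⟩
  have hq0 : A.valuation (q : Qb) ≠ 0 :=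
    (Valuation.ne_zero_iff _).mpr (by exact_mod_cast hq.ne_zero)
  have hd : ((x.den : ℤ)) ≠ 0 := by exact_mod_cast x.den_ne_zero
  have h1 : (x : Qb) = ((x.num : ℤ) : Qb) / (((x.den : ℤ)) : Qb) := by
    conv_lhs => rw [← Rat.num_div_den x]
    push_cast; rfl
  rw [h1, map_div₀, v_int_eq hq hA (Rat.num_ne_zero.mpr hx), v_int_eq hq hA hd, padicValRat_def,
    zpow_sub₀ hq0, zpow_natCast, zpow_natCast]
  rfl

/-! ### The abscissas -/

/-- The abscissas of the points of order two of `freyZ A B`. -/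
noncomputable def e4 (A B : ℤ) (i : Fin 3) : Qb := (eZ A B i : Qb) / 4

/-- The curve `freyZ A B` over `ℚ̄`. -/
noncomputable abbrev WQ (A B : ℤ) : WeierstrassCurve Qb :=
  ((freyZ A B).map (Int.castRingHom ℚ)).baseChange Qb

theorem e4_root {A B : ℤ} (hA : A % 4 = 3) (hB : (32 : ℤ) ∣ B) (i : Fin 3) :
    4 * e4 A B i ^ 3 + (WQ A B).b₂ * e4 A B i ^ 2 + 2 * (WQ A B).b₄ * e4 A B i + (WQ A B).b₆ = 0 := by
  have h2 : (4 : Qb) * ((freyZ A B).a₂ : Qb) = B - 1 - A := by
    exact_mod_cast congrArg (Int.cast (R := Qb)) (four_mul_a₂ hA hB)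
  have h4 : (16 : Qb) * ((freyZ A B).a₄ : Qb) = -A * B := by
    exact_mod_cast congrArg (Int.cast (R := Qb)) (sixteen_mul_a₄ (A := A) hB)
  have a1 : (WQ A B).a₁ = 1 := by simp [WQ, WeierstrassCurve.baseChange]
  have a2 : (WQ A B).a₂ = ((freyZ A B).a₂ : Qb) := by simp [WQ, WeierstrassCurve.baseChange]
  have a3 : (WQ A B).a₃ = 0 := by simp [WQ, WeierstrassCurve.baseChange]
  have a4 : (WQ A B).a₄ = ((freyZ A B).a₄ : Qb) := by simp [WQ, WeierstrassCurve.baseChange]
  have a6 : (WQ A B).a₆ = 0 := by simp [WQ, WeierstrassCurve.baseChange]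
  have hb2 : (WQ A B).b₂ = B - A := by
    rw [WeierstrassCurve.b₂, a1, a2]; linear_combination h2
  have hb4 : 8 * (WQ A B).b₄ = -A * B := by
    rw [WeierstrassCurve.b₄, a1, a3, a4]; linear_combination h4
  have hb6 : (WQ A B).b₆ = 0 := by
    rw [WeierstrassCurve.b₆, a3, a6]; ring
  have key : 4 * e4 A B i ^ 3 + (B - A : Qb) * e4 A B i ^ 2 + (-A * B / 4 : Qb) * e4 A B i = 0 := by
    fin_cases i
    · simp [e4, eZ]
    · simp [e4, eZ]; ring
    · simp [e4, eZ]; ring
  rw [hb2, hb6]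
  linear_combination key + e4 A B i / 4 * hb4

theorem e4_inj {A B : ℤ} (hA : A ≠ 0) (hB : B ≠ 0) (hC : A + B ≠ 0) :
    Function.Injective (e4 A B) := by
  intro i j hij
  have h1 : (eZ A B i : Qb) = eZ A B j := by
    have : (eZ A B i : Qb) / 4 = eZ A B j / 4 := hij
    exact (div_left_inj' (by norm_num)).mp this
  have h2 : eZ A B i = eZ A B j := by exact_mod_cast h1
  fin_cases i <;> fin_cases j <;> simp [eZ] at h2 ⊢ <;> omega

/-- The local data at a place above `2`. -/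
structure Data (p : ℕ) (A B : ℤ) (G : GalData p (eZ A B)) (v : ValuationSubring Qb) where
  /-- component of `r` -/
  a : ℤ
  /-- component of `g` -/
  b : ℤ
  not_both : ¬ ((p : ℤ) ∣ a ∧ (p : ℤ) ∣ b)
  one : ∀ k j : ℕ, k • G.r + j • G.g ≠ 0 →
    v.valuation (xc (k • G.r + j • G.g) - ((eZ A B 1 : ℤ) : Qb)) = 1
  coll : ∀ k j : ℕ, k • G.r + j • G.g ≠ 0 → ∀ i : Fin 3, i ≠ 1 →
    v.valuation (xc (k • G.r + j • G.g) - ((eZ A B i : ℤ) : Qb)) ^ p =
      v.valuation (4 : Qb) ^ p * v.valuation (WQ A B).Δ ^ mu p (k * a + j * b)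

theorem exists_data {p : ℕ} (hp : p.Prime) (hp3 : p ≠ 2) {A B : ℤ} (hT : IsTri p A B)
    (G : GalData p (eZ A B)) (v : ValuationSubring Qb) (hv : v.LiesOverPrime 2) :
    Nonempty (Data p A B G v) := by
  have hodd : Odd p := hp.odd_of_ne_two hp3
  have hfact2 : Fact (Nat.Prime 2) := ⟨Nat.prime_two⟩
  have hv2 : v.valuation (2 : Qb) < 1 := by
    have := valuation_int_lt_one v hv (n := 2) (dvd_refl _)
    simpa using this
  have hvp : v.valuation (p : Qb) = 1 :=
    valuation_nat_eq_one v hv ((Nat.coprime_primes hp Nat.prime_two).mpr hp3)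
  have hcop : ∀ n : ℤ, ¬ (2 : ℤ) ∣ n → IsCoprime n ((2 : ℕ) : ℤ) := fun n hn =>
    ((Nat.prime_iff_prime_int.mp Nat.prime_two).coprime_iff_not_dvd.mpr hn).symm
  have hΔ0 : (WQ A B).Δ ≠ 0 := by
    rw [baseChange_int_Δ]; exact_mod_cast hT.Δ_ne_zero
  have hA2 : ¬ (2 : ℤ) ∣ A := by have := hT.A4; omega
  have hB2 : (2 : ℤ) ∣ B := Dvd.dvd.trans (by norm_num) hT.B32
  have hc4 : v.valuation (WQ A B).c₄ = 1 := by
    rw [baseChange_int_c₄, freyZ_c₄ hT.A4 hT.B32]
    refine valuation_int_eq_one v hv (hcop _ ?_)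
    intro hd
    apply hA2
    obtain ⟨m, hm⟩ := hB2
    have h1 : (2 : ℤ) ∣ A ^ 2 := by
      obtain ⟨l, hl⟩ := hd
      exact ⟨l - A * m - 2 * m ^ 2, by rw [hm] at hl; linear_combination hl⟩
    exact Int.prime_two.dvd_of_dvd_pow h1
  have hΔ1 : v.valuation (WQ A B).Δ < 1 := by
    rw [baseChange_int_Δ]
    refine valuation_int_lt_one v hv ?_
    have h1 := freyZ_Δ hT.A4 hT.B32
    obtain ⟨m, hm⟩ := hT.B32
    have : (freyZ A B).Δ = 2 * (2 * (A * m * (A + B)) ^ 2) := by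
      have h2 : (256 : ℤ) * (freyZ A B).Δ = 256 * (2 * (2 * (A * m * (A + B)) ^ 2)) := by
        have : A * B * (A + B) = 32 * (A * m * (A + B)) := by
          rw [hm]; ring
        rw [h1, this]; ring
      omega
    exact ⟨_, this⟩
  have hcoll : v.valuation (4 * (e4 A B (1 + 1) - e4 A B (1 + 2))) < 1 := by
    have : (4 : Qb) * (e4 A B (1 + 1) - e4 A B (1 + 2)) = ((-B : ℤ) : Qb) := by
      have h1 : e4 A B (1 + 1) = -B / 4 := by
        change (eZ A B 2 : Qb) / 4 = _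
        simp [eZ]
      have h2 : e4 A B (1 + 2) = 0 := by
        change (eZ A B 0 : Qb) / 4 = _
        simp [eZ]
      rw [h1, h2]; push_cast; ring
    rw [this]
    exact valuation_int_lt_one v hv (by rw [dvd_neg]; exact hB2)
  obtain ⟨Cmp, c1, c2, c3, c4, c5, -, c7, c8⟩ := exists_components (W := WQ A B)
    (v := v.valuation) two_ne_zero three_ne_zero (intCoeff_baseChange_int _ _) hc4 hΔ1 hΔ0 hodd
    (e4 A B) (e4_inj hT.A0 hT.B0 hT.C0) (e4_root hT.A4 hT.B32) 1 hcoll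
  obtain ⟨E, -, hE⟩ := GalAux.exists_transport hT.A4 hT.B32
  obtain ⟨a, ha⟩ := c1 (E.symm G.r) (by rw [← map_nsmul, G.hr, map_zero])
  obtain ⟨b, hb⟩ := c1 (E.symm G.g) (by rw [← map_nsmul, G.hg, map_zero])
  have cn : ∀ (n : ℕ) P a, Cmp P a → Cmp (n • P) (n * a) := by
    intro n P a hP
    induction n with
    | zero => simpa using c2
    | succ n ih =>
      rw [succ_nsmul, Nat.cast_succ, add_mul, one_mul]
      exact c3 _ _ _ _ ih hP
  have ckj : ∀ k j : ℕ, Cmp (E.symm (k • G.r + j • G.g)) (k * a + j * b) := by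
    intro k j
    rw [map_add, map_nsmul, map_nsmul]
    exact c3 _ _ _ _ (cn _ _ _ ha) (cn _ _ _ hb)
  have tkj : ∀ k j : ℕ, p • (k • G.r + j • G.g) = 0 := by
    intro k j
    rw [nsmul_add, ← mul_nsmul', ← mul_nsmul', mul_comm p, mul_comm p, mul_nsmul', mul_nsmul',
      G.hr, G.hg, nsmul_zero, nsmul_zero, add_zero]
  have pts : ∀ k j : ℕ, k • G.r + j • G.g ≠ 0 → ∃ x y h,
      E.symm (k • G.r + j • G.g) = .some x y h ∧ xc (k • G.r + j • G.g) = 4 * x := by
    intro k j h0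
    rcases hP : E.symm (k • G.r + j • G.g) with _ | ⟨x, y, h⟩
    · exfalso
      apply h0
      have : E.symm (k • G.r + j • G.g) = 0 := hP
      rwa [EmbeddingLike.map_eq_zero_iff] at this
    · refine ⟨x, y, h, rfl, ?_⟩
      rw [← hE x y h, ← hP, AddEquiv.apply_symm_apply]
  have he4 : ∀ x i, 4 * x - ((eZ A B i : ℤ) : Qb) = 4 * (x - e4 A B i) := by
    intro x i
    rw [e4]; ring
  refine ⟨⟨a, b, ?_, ?_, ?_⟩⟩
  · rintro ⟨hda, hdb⟩
    obtain ⟨P, hP, hP1⟩ := c8 hvp
    have hell : WeierstrassCurve.IsElliptic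
        (((leg (fun i => ((eZ A B i : ℤ) : ℚ))))⁄Qb) := by
      refine ⟨isUnit_iff_ne_zero.mpr ?_⟩
      change (((leg (fun i => ((eZ A B i : ℤ) : ℚ)))).map (algebraMap ℚ Qb)).Δ ≠ 0
      rw [leg_map, leg_Δ _ 0]
      have k1 : ((A : ℤ) : Qb) ≠ 0 := by exact_mod_cast hT.A0
      have k2 : ((B : ℤ) : Qb) ≠ 0 := by exact_mod_cast hT.B0
      have k3 : ((A : ℤ) : Qb) + B ≠ 0 := by exact_mod_cast hT.C0
      have e1 : (16 : Qb) * ((algebraMap ℚ Qb ((eZ A B 0 : ℤ) : ℚ) -
          algebraMap ℚ Qb ((eZ A B (0 + 1) : ℤ) : ℚ)) *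
          (algebraMap ℚ Qb ((eZ A B 0 : ℤ) : ℚ) - algebraMap ℚ Qb ((eZ A B (0 + 2) : ℤ) : ℚ)) *
          (algebraMap ℚ Qb ((eZ A B (0 + 1) : ℤ) : ℚ) -
            algebraMap ℚ Qb ((eZ A B (0 + 2) : ℤ) : ℚ))) ^ 2 = 16 * (A * B * (A + B)) ^ 2 := by
        simp [eZ]
      rw [e1]
      exact mul_ne_zero (by norm_num) (pow_ne_zero 2 (mul_ne_zero (mul_ne_zero k1 k2) k3))
    obtain ⟨k, j, hkj⟩ := exists_eq_nsmul_add
      (W := (((leg (fun i => ((eZ A B i : ℤ) : ℚ))))⁄Qb)) hp (by exact_mod_cast hp.ne_zero)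
      G.hg G.hg0 G.hr G.hrg (P := E P) (by rw [← map_nsmul, hP, map_zero])
    have h1 := ckj k j
    rw [← hkj, AddEquiv.symm_apply_apply] at h1
    have h2 := c4 _ _ _ h1 hP1
    have h3 : (p : ℤ) ∣ 1 := by
      have h4 : (p : ℤ) ∣ k * a + j * b := dvd_add (hda.mul_left _) (hdb.mul_left _)
      have := dvd_add h2 h4
      rwa [sub_add_cancel] at this
    exact hp.one_lt.ne' (by exact_mod_cast Int.eq_one_of_dvd_one (by positivity) h3)
  · intro k j h0
    obtain ⟨x, y, h, e1, e2⟩ := pts k j h0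
    rw [e2, he4]
    refine (c7 hv2 hvp x y h ?_).2
    rw [← e1, ← map_nsmul, tkj, map_zero]
  · intro k j h0 i hi
    obtain ⟨x, y, h, e1, e2⟩ := pts k j h0
    have h1 := ckj k j
    rw [e1] at h1
    obtain ⟨g1, g2⟩ := c5 x y h _ h1
    have hx : v.valuation x ≤ 1 := (c7 hv2 hvp x y h (by rw [← e1, ← map_nsmul, tkj, map_zero])).1
    rw [max_eq_left hx, one_pow, one_mul] at g1 g2
    rw [e2, he4, map_mul, mul_pow]
    congr 1
    fin_cases i
    · exact g2
    · exact absurd rfl hi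
    · exact g1

theorem nsmul_add_ne_zero {p : ℕ} (hp : p.Prime) {G : Type*} [AddCommGroup G] {g r : G}
    (hr : p • r = 0) (hrg : r ∉ AddSubgroup.zmultiples g) {k : ℕ} (hk : ¬ p ∣ k) (j : ℕ) :
    k • r + j • g ≠ 0 := by
  intro h
  have h1 : k • r ∈ AddSubgroup.zmultiples g := by
    rw [eq_neg_of_add_eq_zero_left h]
    exact neg_mem (AddSubgroup.nsmul_mem_zmultiples g j)
  apply hrg
  obtain ⟨a, b, hab⟩ := (Nat.isCoprime_iff_coprime.mpr
    ((Nat.Prime.coprime_iff_not_dvd hp).mpr hk)).symm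
  have h2 : r = a • (k • r) := by
    have h3 : (p : ℤ) • r = 0 := by rw [natCast_zsmul]; exact hr
    calc r = (a * k + b * p) • r := by rw [hab, one_smul]
      _ = a • (k • r) := by
        rw [add_smul, mul_smul b, h3, smul_zero, add_zero, mul_smul, natCast_zsmul]
  rw [h2]
  exact AddSubgroup.zsmul_mem _ h1 a

theorem nsmul_ne_zero {p : ℕ} (hp : p.Prime) {G : Type*} [AddCommGroup G] {g : G}
    (hg : p • g = 0) (hg0 : g ≠ 0) {j : ℕ} (hj : ¬ p ∣ j) : j • g ≠ 0 := by
  intro h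
  apply hg0
  obtain ⟨a, b, hab⟩ := (Nat.isCoprime_iff_coprime.mpr
    ((Nat.Prime.coprime_iff_not_dvd hp).mpr hj)).symm
  have h3 : (p : ℤ) • g = 0 := by rw [natCast_zsmul]; exact hg
  have h4 : (j : ℤ) • g = 0 := by rw [natCast_zsmul]; exact h
  calc g = (a * j + b * p) • g := by rw [hab, one_smul]
    _ = 0 := by rw [add_smul, mul_smul, mul_smul, h3, h4, smul_zero, smul_zero, add_zero]

theorem prod_zpow' {Γ ι : Type*} [CommGroupWithZero Γ] {t : Γ} (ht : t ≠ 0) (s : Finset ι)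
    (f : ι → ℤ) : ∏ j ∈ s, t ^ f j = t ^ ∑ j ∈ s, f j := by
  classical
  induction s using Finset.induction_on with
  | empty => simp
  | insert a s has ih => rw [Finset.prod_insert has, Finset.sum_insert has, ih, zpow_add₀ ht]

theorem sum_Icc_mu {p : ℕ} (hp : 0 < p) (a b : ℤ) :
    ∑ j ∈ Finset.Icc 1 (p - 1), mu p (((0 : ℕ) : ℤ) * a + j * b) =
      ∑ j ∈ Finset.range p, mu p (0 + j * b) := by
  have h1 : Finset.range p = insert 0 (Finset.Icc 1 (p - 1)) := by
    ext j; simp only [Finset.mem_range, Finset.mem_insert, Finset.mem_Icc]; omega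
  rw [h1, Finset.sum_insert (by simp)]
  have h2 : mu p (0 + ((0 : ℕ) : ℤ) * b) = 0 := by
    rw [mu_eq_zero_iff hp]; simp
  rw [h2, zero_add]
  exact Finset.sum_congr rfl fun j _ => by simp

end TwoAux

open TwoAux

/-- **(L2)** -/
theorem locTwoInput {p : ℕ} (hp : p.Prime) (hp3 : p ≠ 2) : LocTwoInput p := by
  intro A B hT G V
  obtain ⟨v, hv⟩ := Fermat.Agent.FrobExists.exists_liesOverPrime Qb Nat.prime_two
  obtain ⟨D⟩ := exists_data hp hp3 hT G v hv
  have hodd : Odd p := hp.odd_of_ne_two hp3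
  have hp0 : p ≠ 0 := hp.ne_zero
  set t := v.valuation (2 : Qb) with ht
  have ht1 : t < 1 := by
    have := valuation_int_lt_one v hv (n := 2) (dvd_refl _)
    simpa [ht] using this
  have ht0 : 0 < t := by rw [ht, Valuation.pos_iff]; norm_num
  have hrat : ∀ x : ℚ, x ≠ 0 → v.valuation (x : Qb) = t ^ padicValRat 2 x := fun x hx => by
    rw [v_rat_eq Nat.prime_two hv hx]; norm_num [ht]
  have hint : ∀ n : ℤ, n ≠ 0 → v.valuation (n : Qb) = t ^ ((padicValInt 2 n : ℕ) : ℤ) := fun n hn => by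
    rw [v_int_eq Nat.prime_two hv hn, zpow_natCast]; norm_num [ht]
  have h4 : v.valuation (4 : Qb) = t ^ (2 : ℤ) := by
    rw [show (4 : Qb) = 2 ^ 2 by norm_num, map_pow]; norm_cast
  set n : ℤ := (padicValInt 2 B : ℤ) with hn
  have hΔ : v.valuation (WQ A B).Δ = t ^ (2 * n - 8) := by
    rw [baseChange_int_Δ]
    have h1 := freyZ_Δ hT.A4 hT.B32
    have h2 : (256 : Qb) * ((freyZ A B).Δ : Qb) = ((A * B * (A + B) : ℤ) : Qb) ^ 2 := by
      exact_mod_cast congrArg (Int.cast (R := Qb)) h1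
    have hA2 : ¬ (2 : ℤ) ∣ A := by have := hT.A4; omega
    have hC2 : ¬ (2 : ℤ) ∣ A + B := by have := hT.A4; have := hT.B32; omega
    have hcop : ∀ n : ℤ, ¬ (2 : ℤ) ∣ n → IsCoprime n ((2 : ℕ) : ℤ) := fun n hn =>
      ((Nat.prime_iff_prime_int.mp Nat.prime_two).coprime_iff_not_dvd.mpr hn).symm
    have h3 : v.valuation ((A * B * (A + B) : ℤ) : Qb) = t ^ n := by
      push_cast
      rw [map_mul, map_mul, valuation_int_eq_one v hv (hcop _ hA2), one_mul, hint B hT.B0]
      have := valuation_int_eq_one v hv (hcop _ hC2)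
      push_cast at this
      rw [this, mul_one]
    have h5 := congrArg v.valuation h2
    rw [map_mul, map_pow, h3, show (256 : Qb) = 2 ^ 8 by norm_num, map_pow] at h5
    rw [zpow_sub₀ ht0.ne', eq_div_iff (zpow_ne_zero _ ht0.ne'), mul_comm]
    have e8 : t ^ (8 : ℤ) = t ^ 8 := by norm_cast
    rw [e8, h5, ← zpow_natCast, ← zpow_mul]
    congr 1
    push_cast; ring
  have hkr : ∀ k j : ℕ, ¬ p ∣ k → k • G.r + j • G.g ≠ 0 := fun k j hk =>
    nsmul_add_ne_zero hp G.hr G.hrg hk j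
  have hjg : ∀ j ∈ Finset.Icc 1 (p - 1), (0 : ℕ) • G.r + j • G.g ≠ 0 := fun j hj => by
    rw [zero_nsmul, zero_add]
    refine nsmul_ne_zero hp G.hg G.hg0 fun hd => ?_
    rw [Finset.mem_Icc] at hj
    exact absurd (Nat.le_of_dvd (by omega) hd) (by omega)
  -- the products over `N`
  have hD : ∀ i : Fin 3, i ≠ 1 → (2 * p : ℤ) * padicValRat 2 (V.D i) =
      2 * p * (p - 1) + (2 * n - 8) *
        (∑ j ∈ Finset.range p, mu p (0 + j * D.b) : ℕ) := by
    intro i hi
    have h1 := congrArg (fun z => v.valuation z ^ p) (V.D_sq i)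
    simp only [map_pow, map_prod, ← Finset.prod_pow] at h1
    have h2 : ∀ j ∈ Finset.Icc 1 (p - 1),
        v.valuation (xc (j • G.g) - ((eZ A B i : ℤ) : Qb)) ^ p =
          t ^ ((2 : ℤ) * p + (2 * n - 8) * mu p (((0 : ℕ) : ℤ) * D.a + j * D.b)) := by
      intro j hj
      have h3 := D.coll 0 j (hjg j hj) i hi
      rw [zero_nsmul, zero_add] at h3
      rw [h3, h4, hΔ, ← zpow_natCast, ← zpow_natCast, ← zpow_mul, ← zpow_mul, ← zpow_add₀ ht0.ne']
    rw [Finset.prod_congr rfl h2, hrat _ (V.D_ne i), ← zpow_natCast, ← zpow_natCast, ← zpow_mul,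
      ← zpow_mul, prod_zpow' ht0.ne'] at h1
    have h5 := zpow_inj_of_lt_one ht0 ht1 h1
    rw [Finset.sum_add_distrib, Finset.sum_const, ← Finset.mul_sum, ← Nat.cast_sum,
      sum_Icc_mu hp.pos, Nat.card_Icc] at h5
    have h6 : ((p - 1 + 1 - 1 : ℕ) : ℤ) = p - 1 := by have := hp.pos; omega
    rw [nsmul_eq_mul, h6] at h5
    push_cast at h5 ⊢
    linear_combination h5
  have hD1 : padicValRat 2 (V.D 1) = 0 := by
    have h1 := congrArg v.valuation (V.D_sq 1)
    simp only [map_pow, map_prod] at h1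
    have h2 : ∀ j ∈ Finset.Icc 1 (p - 1),
        v.valuation (xc (j • G.g) - ((eZ A B 1 : ℤ) : Qb)) = 1 := by
      intro j hj
      have h3 := D.one 0 j (hjg j hj)
      rwa [zero_nsmul, zero_add] at h3
    rw [Finset.prod_congr rfl h2, Finset.prod_const_one, hrat _ (V.D_ne 1), ← zpow_natCast,
      ← zpow_mul, ← zpow_zero t] at h1
    have := zpow_inj_of_lt_one ht0 ht1 h1
    push_cast at this
    omega
  have hU : ∀ i : Fin 3, i ≠ 1 → ∀ k, ¬ p ∣ k →
      (2 * p : ℤ) * (padicValRat 2 (V.U i k) + padicValRat 2 (V.D i)) =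
      2 * p * p + (2 * n - 8) *
        (∑ j ∈ Finset.range p, mu p (k * D.a + j * D.b) : ℕ) := by
    intro i hi k hk
    have h1 := congrArg (fun z => v.valuation z ^ p) (V.U_spec i k hk)
    simp only [map_mul, map_pow, map_prod, ← Finset.prod_pow] at h1
    have h2 : ∀ j ∈ Finset.range p,
        v.valuation (xc (k • G.r + j • G.g) - ((eZ A B i : ℤ) : Qb)) ^ p =
          t ^ ((2 : ℤ) * p + (2 * n - 8) * mu p (k * D.a + j * D.b)) := by
      intro j hj
      have h3 := D.coll k j (hkr k j hk) i hi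
      rw [h3, h4, hΔ, ← zpow_natCast, ← zpow_natCast, ← zpow_mul, ← zpow_mul, ← zpow_add₀ ht0.ne']
    rw [Finset.prod_congr rfl h2, hrat _ (V.D_ne i), hrat _ (V.U_ne i k hk), ← mul_pow,
      ← zpow_add₀ ht0.ne', ← zpow_natCast, ← zpow_natCast, ← zpow_mul,
      ← zpow_mul, prod_zpow' ht0.ne'] at h1
    have h5 := zpow_inj_of_lt_one ht0 ht1 h1
    rw [Finset.sum_add_distrib, Finset.sum_const, ← Finset.mul_sum, ← Nat.cast_sum,
      Finset.card_range, nsmul_eq_mul] at h5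
    push_cast at h5 ⊢
    linear_combination h5
  have hU1 : ∀ k, ¬ p ∣ k → padicValRat 2 (V.U 1 k) = 0 := by
    intro k hk
    have h1 := congrArg v.valuation (V.U_spec 1 k hk)
    simp only [map_mul, map_pow, map_prod] at h1
    have h2 : ∀ j ∈ Finset.range p,
        v.valuation (xc (k • G.r + j • G.g) - ((eZ A B 1 : ℤ) : Qb)) = 1 := fun j _ =>
      D.one k j (hkr k j hk)
    rw [Finset.prod_congr rfl h2, Finset.prod_const_one, hrat _ (V.D_ne 1),
      hrat _ (V.U_ne 1 k hk), hD1, zpow_zero, one_pow, mul_one, ← zpow_natCast,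
      ← zpow_mul, ← zpow_zero t] at h1
    have := zpow_inj_of_lt_one ht0 ht1 h1
    push_cast at this
    omega
  have hpZ : (p : ℤ) ≠ 0 := by exact_mod_cast hp0
  have hpp : Prime (p : ℤ) := Nat.prime_iff_prime_int.mp hp
  -- `N` lies in the identity component
  have hb : (p : ℤ) ∣ D.b := by
    by_contra hb
    have h1 := hD 0 (by decide)
    rw [sum_mu_range hp hb] at h1
    set S := ∑ j ∈ Finset.range p, mu p (j : ℤ) with hS
    have h2 : (p : ℤ) ∣ (n - 4) * S := by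
      refine ⟨padicValRat 2 (V.D 0) - (p - 1), ?_⟩
      linarith
    rcases hpp.dvd_or_dvd h2 with h3 | h3
    · exact hT.two h3
    · exact not_dvd_sum_mu hp hp3 (by exact_mod_cast h3)
  have ha : ¬ (p : ℤ) ∣ D.a := fun h => D.not_both ⟨h, hb⟩
  have hDi : ∀ i : Fin 3, i ≠ 1 → padicValRat 2 (V.D i) = p - 1 := by
    intro i hi
    have h1 := hD i hi
    rw [sum_mu_range_of_dvd hb, (mu_eq_zero_iff hp.pos).mpr (dvd_zero _)] at h1
    have h2 : (2 * p : ℤ) * padicValRat 2 (V.D i) = (2 * p : ℤ) * (p - 1) := by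
      rw [h1]; push_cast; ring
    exact mul_left_cancel₀ (mul_ne_zero two_ne_zero hpZ) h2
  have hUi : ∀ i : Fin 3, i ≠ 1 → ∀ k : ℕ, ¬ p ∣ k →
      padicValRat 2 (V.U i k) = 1 + mu p (k * D.a) * (n - 4) := by
    intro i hi k hk
    have h1 := hU i hi k hk
    rw [sum_mu_range_of_dvd hb, hDi i hi] at h1
    have h2 : (2 * p : ℤ) * padicValRat 2 (V.U i k) = (2 * p : ℤ) * (1 + mu p (k * D.a) * (n - 4)) := by
      push_cast at h1
      linear_combination h1
    exact mul_left_cancel₀ (mul_ne_zero two_ne_zero hpZ) h2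
  have ha' : (((D.a % p).toNat : ℕ) : ℤ) = D.a % p :=
    Int.toNat_of_nonneg (Int.emod_nonneg _ hpZ)
  have hmod : (p : ℤ) ∣ D.a - ((D.a % p).toNat : ℕ) := by
    rw [ha']; exact Int.dvd_self_sub_emod
  refine ⟨0, (D.a % p).toNat, fun k => mu p (k * D.a), ?_, ?_, ?_, ?_⟩
  · intro hd
    apply ha
    have h1 : (p : ℤ) ∣ ((D.a % p).toNat : ℕ) := by exact_mod_cast hd
    have := dvd_add hmod h1
    rwa [sub_add_cancel] at this
  · intro k hk
    refine ⟨⟨?_, two_mu_le hodd _, ?_⟩, hU1 k hk, ?_, ?_⟩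
    · rw [Nat.one_le_iff_ne_zero, Ne, mu_eq_zero_iff hp.pos]
      intro hd
      rcases hpp.dvd_or_dvd hd with h | h
      · exact hk (by exact_mod_cast h)
      · exact ha h
    · have h1 : (p : ℤ) ∣ k * D.a - k * ((D.a % p).toNat : ℕ) := by
        rw [← mul_sub]; exact hmod.mul_left _
      rcases mu_spec hp.pos (k * D.a) with h2 | h2
      · left
        have := dvd_add h2 h1
        rwa [sub_add_sub_cancel] at this
      · right
        have := dvd_sub h2 h1
        have e : (mu p (k * D.a) : ℤ) + k * D.a - (k * D.a - k * ((D.a % p).toNat : ℕ)) =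
          (mu p (k * D.a) : ℤ) + k * ((D.a % p).toNat : ℕ) := by ring
        rwa [e] at this
    · rw [hUi 0 (by decide) k hk]; ring
    · rw [hUi 2 (by decide) k hk]; ring
  · rw [hDi 0 (by decide), hD1]; ring
  · rw [hDi 2 (by decide), hD1]; ring

end Fermat.Agent.Descent
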