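import Fermat.Agent.Descent.Velu
import Fermat.Agent.QbarInst

set_option autoImplicit false
set_option linter.unusedSectionVars false

/-!
# The output of Vélu's construction: `VeluInput p`
-/

open WeierstrassCurve WeierstrassCurve.Affine WeierstrassCurve.Affine.Point Polynomial

namespace Fermat.Agent.Descent

section More

variable {F : Type*} [Field F] [DecidableEq F] {V : WeierstrassCurve F} {e : Fin 3 → F}
  {G : V.toAffine.Point} {m : ℕ} (hV : IsLeg V e) (hG : (2 * m + 1) • G = 0)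
  (hG' : ∀ j, 0 < j → j < 2 * m + 1 → j • G ≠ 0)

include hV hG hG'

theorem vD_rel {S : V.toAffine.Point} (hS2 : ∀ j : ℕ, S + S + j • G ≠ 0) :
    (e 1 - e 2) ^ (2 * m + 1) * vD e G m 0 ^ 4 + (e 2 - e 0) ^ (2 * m + 1) * vD e G m 1 ^ 4 +
      (e 0 - e 1) ^ (2 * m + 1) * vD e G m 2 ^ 4 = 0 := by
  have h0 := vρ_sub₁ hV hG hG' (ne_zero_of_double hS2) hS2 0
  have h1 := vρ_sub₁ hV hG hG' (ne_zero_of_double hS2) hS2 1
  have h2 := vρ_sub₁ hV hG hG' (ne_zero_of_double hS2) hS2 2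
  have r1 : (0 : Fin 3) + 1 = 1 := rfl
  have r2 : (0 : Fin 3) + 2 = 2 := rfl
  have r3 : (1 : Fin 3) + 1 = 2 := rfl
  have r4 : (1 : Fin 3) + 2 = 0 := rfl
  have r5 : (2 : Fin 3) + 1 = 0 := rfl
  have r6 : (2 : Fin 3) + 2 = 1 := rfl
  rw [r1, r2] at h0
  rw [r3, r4] at h1
  rw [r5, r6] at h2
  have e0 : (e 0 - e 1) ^ (2 * m + 1) = - (e 1 - e 0) ^ (2 * m + 1) := by
    rw [← neg_sub, Odd.neg_pow ⟨m, rfl⟩]
  have e1 : (e 1 - e 2) ^ (2 * m + 1) = - (e 2 - e 1) ^ (2 * m + 1) := by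
    rw [← neg_sub, Odd.neg_pow ⟨m, rfl⟩]
  have e2 : (e 2 - e 0) ^ (2 * m + 1) = - (e 0 - e 2) ^ (2 * m + 1) := by
    rw [← neg_sub, Odd.neg_pow ⟨m, rfl⟩]
  rw [e0, e1, e2]
  linear_combination vD e G m 2 ^ 2 * h0 + vD e G m 0 ^ 2 * h1 + vD e G m 1 ^ 2 * h2

omit hV hG' in
theorem prod_Icc_sq (h : F → F) :
    ∏ j ∈ Finset.Icc 1 (2 * m), h (xc (j • G)) = (∏ j ∈ Finset.Icc 1 m, h (xc (j • G))) ^ 2 := by
  have h1 := prod_range_odd m (fun j => if j = 0 then 1 else h (xc (j • G)))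
  have h2 : Finset.range (2 * m + 1) = insert 0 (Finset.Icc 1 (2 * m)) := by
    ext j; rw [Finset.mem_range, Finset.mem_insert, Finset.mem_Icc]; omega
  rw [h2, Finset.prod_insert (by simp)] at h1
  simp only [if_true, one_mul] at h1
  have h3 : ∏ j ∈ Finset.Icc 1 (2 * m), (if j = 0 then 1 else h (xc (j • G))) =
      ∏ j ∈ Finset.Icc 1 (2 * m), h (xc (j • G)) := by
    refine Finset.prod_congr rfl fun j hj => ?_
    rw [Finset.mem_Icc] at hj
    rw [if_neg (by omega)]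
  rw [← h3, h1, ← Finset.prod_pow]
  refine Finset.prod_congr rfl fun j hj => ?_
  rw [Finset.mem_Icc] at hj
  rw [if_neg (by omega), if_neg (by omega), nsmul_sub_eq_neg hG (by omega), xc_neg]
  ring

/-- maps stabilising `⟨G⟩` permute the abscissas of its nonzero points -/
theorem prod_Icc_map {M : Type*} [CommMonoid M] (s : F → F) (f : V.toAffine.Point → V.toAffine.Point)
    (hs : Function.Injective s) (hf0 : ∀ Q, Q ≠ 0 → f Q ≠ 0) (hsf : ∀ Q, xc (f Q) = s (xc Q))
    (hf : ∀ j : ℕ, f (j • G) ∈ AddSubgroup.zmultiples G) (h : F → M) :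
    ∏ j ∈ Finset.Icc 1 m, h (s (xc (j • G))) = ∏ j ∈ Finset.Icc 1 m, h (xc (j • G)) := by
  classical
  set T : Finset F := (Finset.Icc 1 m).image (fun j : ℕ => xc (j • G)) with hT
  have h1 : T.image s = T := by
    apply Finset.eq_of_subset_of_card_le
    · intro x hx
      rw [Finset.mem_image] at hx
      obtain ⟨x', hx', rfl⟩ := hx
      rw [hT, Finset.mem_image] at hx'
      obtain ⟨j, hj, rfl⟩ := hx'
      rw [Finset.mem_Icc] at hj
      obtain ⟨k, hk, hk'⟩ := exists_nsmul_of_mem_zmultiples hG (hf j)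
      have hk0 : k ≠ 0 := by
        rintro rfl
        rw [zero_nsmul] at hk'
        exact hf0 _ (hG' j (by omega) (by omega)) hk'
      rw [← hsf, hk', hT, Finset.mem_image]
      by_cases hkm : k ≤ m
      · exact ⟨k, Finset.mem_Icc.mpr ⟨by omega, hkm⟩, rfl⟩
      · refine ⟨2 * m + 1 - k, Finset.mem_Icc.mpr ⟨by omega, by omega⟩, ?_⟩
        rw [nsmul_sub_eq_neg hG (by omega), xc_neg]
    · rw [Finset.card_image_of_injective _ hs]
  have hinj := hV.xc_nsmul_injOn hG hG'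
  have h2 := Finset.prod_image (f := h) (s := T) (g := s) (fun _ _ _ _ hab => hs hab)
  have h3 := Finset.prod_image (f := h) (s := Finset.Icc 1 m)
    (g := fun j : ℕ => xc (j • G)) hinj
  have h4 := Finset.prod_image (f := fun Q => h (s Q)) (s := Finset.Icc 1 m)
    (g := fun j : ℕ => xc (j • G)) hinj
  rw [← h3, ← h4, ← h2, h1]

end More

section Main

local notation "Qb" => AlgebraicClosure ℚ

theorem xc_smul {W : WeierstrassCurve ℚ} (σ : Qb ≃ₐ[ℚ] Qb) (P : (W⁄Qb).Point) :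
    xc (σ • P) = σ (xc P) := by
  rcases P with _ | ⟨x, y, h⟩
  · exact (map_zero σ).symm
  · rfl

theorem yc_smul {W : WeierstrassCurve ℚ} (σ : Qb ≃ₐ[ℚ] Qb) (P : (W⁄Qb).Point) :
    yc (σ • P) = σ (yc P) := by
  rcases P with _ | ⟨x, y, h⟩
  · exact (map_zero σ).symm
  · rfl

theorem isLeg_Qb (e : Fin 3 → ℤ) :
    IsLeg ((leg (fun i => (e i : ℚ)))⁄Qb) (fun i => (e i : Qb)) := by
  have h := (isLeg_leg (fun i => (e i : ℚ))).map (algebraMap ℚ Qb)
  have h' : (fun i => algebraMap ℚ Qb (e i : ℚ)) = fun i => (e i : Qb) := by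
    funext i; simp
  rw [h'] at h
  exact h

theorem exists_rat_of_fixed {z : Qb} (h : ∀ σ : Qb ≃ₐ[ℚ] Qb, σ z = z) : ∃ q : ℚ, (q : Qb) = z := by
  obtain ⟨q, hq⟩ := (InfiniteGalois.mem_range_algebraMap_iff_fixed z).mpr h
  exact ⟨q, by rw [← hq, eq_ratCast]⟩

theorem wf_map (e : Fin 3 → ℤ) (i : Fin 3) (σ : Qb ≃ₐ[ℚ] Qb) (x y : Qb) :
    σ (wf (fun i => (e i : Qb)) i x y) = wf (fun i => (e i : Qb)) i (σ x) (σ y) := by
  simp only [wf, map_div₀, map_sub, map_add, map_mul, map_intCast, map_ofNat]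

theorem veluInput {p : ℕ} (hp : p.Prime) (hp2 : p ≠ 2) : VeluInput p := by
  intro e he G
  obtain ⟨m, rfl⟩ : ∃ m, p = 2 * m + 1 := hp.odd_of_ne_two hp2
  set e' : Fin 3 → Qb := fun i => (e i : Qb) with he'
  have hV : IsLeg ((leg (fun i => (e i : ℚ)))⁄Qb) e' := isLeg_Qb e
  have hG := G.hg
  have hord : addOrderOf G.g = 2 * m + 1 := by
    have := Fact.mk hp
    exact addOrderOf_eq_prime hG G.hg0
  have hG' : ∀ j, 0 < j → j < 2 * m + 1 → j • G.g ≠ 0 := by
    intro j hj hj' h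
    have := addOrderOf_dvd_of_nsmul_eq_zero h
    rw [hord] at this
    exact absurd (Nat.le_of_dvd hj this) (by omega)
  have h2 : (2 : Qb) ≠ 0 := two_ne_zero
  have hsq : ∀ i, IsSquare ((e' i - e' (i + 1)) * (e' i - e' (i + 2))) := fun i =>
    IsAlgClosed.exists_eq_mul_self _
  -- the halving points
  let S : ℕ → ((leg (fun i => (e i : ℚ)))⁄Qb).Point := fun k => ((m + 1) * k) • G.r
  have hSS : ∀ k, S k + S k = k • G.r := by
    intro k
    change ((m + 1) * k) • G.r + ((m + 1) * k) • G.r = k • G.r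
    rw [← add_nsmul, show (m + 1) * k + (m + 1) * k = k * (2 * m + 1) + k by ring, add_nsmul,
      mul_nsmul', G.hr, nsmul_zero, zero_add]
  have hS2k : ∀ k, S (2 * k) = S k + S k := by
    intro k
    change ((m + 1) * (2 * k)) • G.r = ((m + 1) * k) • G.r + ((m + 1) * k) • G.r
    rw [← add_nsmul]
    congr 1
    ring
  have hkr : ∀ k, ¬ (2 * m + 1) ∣ k → ∀ j : ℕ, k • G.r + j • G.g ≠ 0 := by
    intro k hk j h
    apply G.hrg
    have h1 : k • G.r ∈ AddSubgroup.zmultiples G.g := by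
      rw [eq_neg_of_add_eq_zero_left h]
      exact neg_mem (AddSubgroup.nsmul_mem _ (AddSubgroup.mem_zmultiples _) _)
    have hco : Nat.Coprime k (2 * m + 1) := ((Nat.Prime.coprime_iff_not_dvd hp).mpr hk).symm
    obtain ⟨c, -, hc⟩ := Nat.exists_mul_mod_eq_one_of_coprime hco hp.one_lt
    have h3 : c • (k • G.r) = G.r := by
      rw [← mul_nsmul, ← Nat.div_add_mod (k * c) (2 * m + 1), hc, add_nsmul, mul_nsmul, G.hr,
        nsmul_zero, zero_add, one_nsmul]
    rw [← h3]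
    exact AddSubgroup.nsmul_mem _ h1 _
  have hS2 : ∀ k, ¬ (2 * m + 1) ∣ k → ∀ j : ℕ, S k + S k + j • G.g ≠ 0 := by
    intro k hk j
    rw [hSS]
    exact hkr k hk j
  have h2k : ∀ k, ¬ (2 * m + 1) ∣ k → ¬ (2 * m + 1) ∣ 2 * k := by
    intro k hk h
    rcases hp.dvd_mul.mp h with h | h
    · have := Nat.le_of_dvd (by norm_num) h
      have := hp.two_le
      omega
    · exact hk h
  -- rationality
  have hσg : ∀ (σ : Qb ≃ₐ[ℚ] Qb) (j : ℕ), σ • (j • G.g) ∈ AddSubgroup.zmultiples G.g := by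
    intro σ j
    have : σ • (j • G.g) = j • (σ • G.g) := (Point.map σ.toAlgHom).map_nsmul j G.g
    rw [this]
    exact AddSubgroup.nsmul_mem _ (G.gal_g σ) _
  have hσr : ∀ (σ : Qb ≃ₐ[ℚ] Qb) (k : ℕ), σ • (k • G.r) - k • G.r ∈
      AddSubgroup.zmultiples G.g := by
    intro σ k
    have : σ • (k • G.r) = k • (σ • G.r) := (Point.map σ.toAlgHom).map_nsmul k G.r
    rw [this, ← nsmul_sub]
    exact AddSubgroup.nsmul_mem _ (G.gal_r σ) _
  have hσinj : ∀ σ : Qb ≃ₐ[ℚ] Qb, Function.Injective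
      (fun Q : ((leg (fun i => (e i : ℚ)))⁄Qb).Point => σ • Q) := fun σ => MulAction.injective σ
  have hDq : ∀ i, ∃ q : ℚ, (q : Qb) = vD e' G.g m i := by
    intro i
    apply exists_rat_of_fixed
    intro σ
    rw [vD, map_prod]
    have h1 : ∀ j : ℕ, σ (xc (j • G.g) - e' i) = σ (xc (j • G.g)) - e' i := by
      intro j; rw [map_sub, he', map_intCast]
    simp only [h1]
    exact prod_Icc_map hV hG hG' (fun x => σ x) (fun Q => σ • Q) σ.injective
      (fun Q hQ h => hQ (hσinj σ (h.trans (Point.map σ.toAlgHom).map_zero.symm)))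
      (fun Q => xc_smul σ Q)
      (fun j => hσg σ j) (fun x => x - e' i)
  have hUq : ∀ i k, ∃ q : ℚ, (q : Qb) = vU e' G.g m i (S k) := by
    intro i k
    apply exists_rat_of_fixed
    intro σ
    obtain ⟨d, hd⟩ := hDq i
    rw [vU, ← hd, map_div₀, map_ratCast, map_prod]
    congr 1
    have h1 : ∀ j : ℕ, σ (wf e' i (xc (S k + j • G.g)) (yc (S k + j • G.g))) =
        wf e' i (xc (σ • (S k + j • G.g))) (yc (σ • (S k + j • G.g))) := by
      intro j; rw [xc_smul, yc_smul, he', wf_map]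
    simp only [h1]
    exact prod_coset_map hG hG' (S k) (fun Q => σ • Q) (hσinj σ) (fun j => by
      have : σ • (S k + j • G.g) - S k = (σ • S k - S k) + σ • (j • G.g) := by
        have h3 : σ • (S k + j • G.g) = σ • S k + σ • (j • G.g) :=
          (Point.map σ.toAlgHom).map_add _ _
        rw [h3]; abel
      rw [this]
      exact add_mem (hσr σ _) (hσg σ j)) (fun Q => wf e' i (xc Q) (yc Q))
  choose D hD using hDq
  choose U hU using hUq
  refine ⟨⟨U, D, ?_, ?_, ?_, ?_, ?_, ?_, ?_⟩⟩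
  · intro i h
    have := hD i
    rw [h, Rat.cast_zero] at this
    exact vD_ne hV hG hG' i this.symm
  · intro i
    rw [hD, show (2 * m + 1 - 1) / 2 = m by omega]
    rfl
  · intro i
    rw [hD, show 2 * m + 1 - 1 = 2 * m by omega]
    exact (prod_Icc_sq hG (fun x => x - e' i)).symm
  · intro i k hk h
    have := hU i k
    rw [h, Rat.cast_zero] at this
    refine vU_ne hV hG hG' (hS2 k hk) h2 ?_ i this.symm
    rw [← hS2k]
    exact hS2 _ (h2k k hk)
  · intro i k hk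
    rw [hU, hD, ← hSS k, prod_double hV hG hG' (hS2 k hk) h2, vU, div_pow,
      div_mul_cancel₀ _ (pow_ne_zero 2 (vD_ne hV hG hG' i))]
  · intro i k hk
    apply (algebraMap ℚ Qb).injective
    simp only [map_add, map_div₀, map_mul, eq_ratCast, hU]
    rw [hS2k]
    refine vU_rel hV hG hG' (hS2 k hk) h2 ?_ hsq i
    rw [← hS2k]
    exact hS2 _ (h2k k hk)
  · apply (algebraMap ℚ Qb).injective
    have h := vD_rel hV hG hG' (hS2 1 (fun h => by
      have := Nat.le_of_dvd one_pos h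
      have := hp.two_le
      omega))
    simp only [map_add, map_sub, map_pow, map_mul, eq_ratCast, hD, Rat.cast_intCast,
      Rat.cast_zero]
    exact h

end Main

end Fermat.Agent.Descent
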