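import Fermat.Agent.Descent.Modular
import Fermat.Agent.Descent.Gal
import Fermat.Agent.Descent.Comb
import Fermat.Agent.Descent.VeluMain
import Fermat.Agent.Descent.LocOdd
import Fermat.Agent.Descent.LocTwo
import Fermat.Agent.S10
import Fermat.Agent.S13

set_option autoImplicit false

/-!
# Descent: the final wiring

From exact-conductor modularity of semistable curves (`S60Exact`) and the level lowering
statements S38, S39 there is no Frey package.
-/

open WeierstrassCurve WeierstrassCurve.Affine WeierstrassCurve.Affine.Point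

namespace Fermat.Agent.Descent

theorem combInput {p : ℕ} (hp : p.Prime) (h11 : 11 ≤ p) : CombInput p :=
  fun _ _ hT _ _ hD hU hrel hDrel hloc htwo =>
    Comb.comb_step hp h11 hT hD hU hrel hDrel hloc htwo

/-- The class of triples is empty for `p ≥ 11`. -/
theorem tri_empty_of {p : ℕ} (hp : p.Prime) (h11 : 11 ≤ p) (hM : ModularInput p) :
    ∀ A B : ℤ, ¬ IsTri p A B :=
  tri_empty p hp h11 hM (galInput hp (by omega)) (veluInput hp (by omega))
    (locOddInput hp (by omega)) (locTwoInput hp (by omega)) (combInput hp h11)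

theorem padicValInt_pow_dvd (p q : ℕ) (hq : q.Prime) (a : ℤ) : p ∣ padicValInt q (a ^ p) := by
  have : Fact q.Prime := ⟨hq⟩
  rw [padicValInt, Int.natAbs_pow, padicValNat.pow]
  exact dvd_mul_right _ _

/-- A Frey package gives a triple. -/
theorem isTri_frey (P : FreyPackage) : IsTri P.p (P.a ^ P.p) (P.b ^ P.p) := by
  have hodd := P.hp_odd
  have h2b : (2 : ℤ) ∣ P.b := (ZMod.intCast_zmod_eq_zero_iff_dvd P.b 2).1 P.hb2
  have ha4 : P.a % 4 = 3 := by
    have h := P.ha4
    have h3 : ((P.a - 3 : ℤ) : ZMod 4) = 0 := by push_cast; rw [h]; decide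
    have := (ZMod.intCast_zmod_eq_zero_iff_dvd (P.a - 3) 4).1 h3
    omega
  refine ⟨pow_ne_zero _ P.ha0, pow_ne_zero _ P.hb0, ?_, ?_, ?_, ?_, ?_, ?_, ?_, ?_⟩
  · rw [P.hFLT]; exact pow_ne_zero _ P.hc0
  · apply IsCoprime.pow
    rw [Int.isCoprime_iff_gcd_eq_one]
    have := P.hgcdab
    rw [← Int.coe_gcd] at this
    exact_mod_cast this
  · obtain ⟨k, hk⟩ := hodd
    rw [hk, pow_succ, pow_mul]
    have h9 : (P.a ^ 2) % 4 = 1 := by
      rw [pow_two, Int.mul_emod, ha4]; norm_num
    have h9k : ((P.a ^ 2) ^ k) % 4 = 1 := by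
      have := (show P.a ^ 2 ≡ 1 [ZMOD 4] from h9).pow k
      rw [one_pow] at this
      exact this
    rw [Int.mul_emod, h9k, ha4]; norm_num
  · calc (32 : ℤ) = 2 ^ 5 := by norm_num
      _ ∣ 2 ^ P.p := pow_dvd_pow _ P.hp5
      _ ∣ P.b ^ P.p := pow_dvd_pow_of_dvd h2b _
  · exact fun q hq _ => padicValInt_pow_dvd _ q hq _
  · exact fun q hq _ => padicValInt_pow_dvd _ q hq _
  · intro q hq _
    rw [P.hFLT]; exact padicValInt_pow_dvd _ q hq _
  · intro h
    have h1 : (P.p : ℤ) ∣ (padicValInt 2 (P.b ^ P.p) : ℤ) :=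
      Int.natCast_dvd_natCast.mpr (padicValInt_pow_dvd _ 2 Nat.prime_two _)
    have h2 : (P.p : ℤ) ∣ 4 := by
      have := dvd_sub h1 h
      simpa using this
    have := Int.le_of_dvd (by norm_num) h2
    have := P.hp5
    omega

theorem freyZ_frey (P : FreyPackage) : freyZ (P.a ^ P.p) (P.b ^ P.p) = P.freyCurveInt := rfl

/-- **No Frey package**, from exact-conductor semistable modularity and level lowering. -/
theorem no_frey (h60 : S60Exact) (h38 : S38Prop) (h39 : S39Prop) (P : FreyPackage) : False := by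
  have hM := modularInput P.pp (by have := P.hp5; omega) h60 h38 h39
  have hT := isTri_frey P
  by_cases h11 : 11 ≤ P.p
  · exact tri_empty_of P.pp h11 hM _ _ hT
  · have h57 : P.p = 5 ∨ P.p = 7 ∨ P.p = 13 := by
      have h5 := P.hp5
      have hp := P.pp
      push Not at h11
      generalize P.p = p at *
      interval_cases p <;> first | omega | (revert hp; decide)
    apply hM _ _ hT
    rw [freyZ_frey, WeierstrassCurve.ModRepIsIrreducible, FreyPackage.AgentFrey.map_freyCurveInt]
    by_contra hred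
    exact Fermat.Agent.S10.result P h57 (Fermat.Agent.S13.result P hred)

/-- S12 without Mazur's theorem -/
theorem s12_of (h60 : S60Exact) (h38 : S38Prop) (h39 : S39Prop) (P : FreyPackage)
    (_hp : 17 ≤ P.p) :
    ¬ HasGaloisStableCofixedLine (K := AlgebraicClosure ℚ) ℚ P.freyCurve P.p :=
  (no_frey h60 h38 h39 P).elim

/-- S09 without Mazur's theorem -/
theorem s09_of (h60 : S60Exact) (h38 : S38Prop) (h39 : S39Prop) (P : FreyPackage) :
    GaloisRepIsIrreducible (K := AlgebraicClosure ℚ) ℚ P.freyCurve P.p :=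
  (no_frey h60 h38 h39 P).elim

end Fermat.Agent.Descent
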