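import Fermat.Agent.Descent.Leg

set_option autoImplicit false
set_option linter.unusedSectionVars false

/-!
# Vélu's construction by products over cosets

`VeluInput p`, proved directly: the quotient curve is only visible through the relations
between the norms of `x - e i`, `y` and `wf e i`.
-/

open WeierstrassCurve WeierstrassCurve.Affine WeierstrassCurve.Affine.Point Polynomial

namespace Fermat.Agent.Descent

section Perm

variable {M : Type*} [CommMonoid M]

theorem prod_Icc_double (m : ℕ) (h : ℕ → M) (hh : ∀ j, j ≤ 2 * m + 1 → h (2 * m + 1 - j) = h j) :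
    ∏ j ∈ Finset.Icc 1 m, h (2 * j) = ∏ j ∈ Finset.Icc 1 m, h j := by
  refine Finset.prod_bij' (fun j _ => if 2 * j ≤ m then 2 * j else 2 * m + 1 - 2 * j)
    (fun j _ => if j % 2 = 0 then j / 2 else (2 * m + 1 - j) / 2) ?_ ?_ ?_ ?_ ?_
  · intro j hj
    rw [Finset.mem_Icc] at hj ⊢
    split_ifs <;> omega
  · intro j hj
    rw [Finset.mem_Icc] at hj ⊢
    split_ifs <;> omega
  · intro j hj
    rw [Finset.mem_Icc] at hj
    split_ifs <;> omega
  · intro j hj
    rw [Finset.mem_Icc] at hj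
    split_ifs <;> omega
  · intro j hj
    rw [Finset.mem_Icc] at hj
    split_ifs with h1
    · rfl
    · exact (hh _ (by omega)).symm

variable {A : Type*} [AddCommGroup A] {G : A} {m : ℕ}

theorem prod_range_double (hG : (2 * m + 1) • G = 0) (h : A → M) (P : A) :
    ∏ j ∈ Finset.range (2 * m + 1), h (P + (2 * j) • G) =
      ∏ j ∈ Finset.range (2 * m + 1), h (P + j • G) := by
  refine Finset.prod_bij' (fun j _ => if 2 * j < 2 * m + 1 then 2 * j else 2 * j - (2 * m + 1))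
    (fun j _ => if j % 2 = 0 then j / 2 else (j + (2 * m + 1)) / 2) ?_ ?_ ?_ ?_ ?_
  · intro j hj
    rw [Finset.mem_range] at hj ⊢
    split_ifs <;> omega
  · intro j hj
    rw [Finset.mem_range] at hj ⊢
    split_ifs <;> omega
  · intro j hj
    rw [Finset.mem_range] at hj
    split_ifs <;> omega
  · intro j hj
    rw [Finset.mem_range] at hj
    split_ifs <;> omega
  · intro j hj
    rw [Finset.mem_range] at hj
    split_ifs with h1
    · rfl
    · congr 2
      obtain ⟨i, hi⟩ : ∃ i, 2 * j = i + (2 * m + 1) := ⟨2 * j - (2 * m + 1), by omega⟩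
      rw [hi, add_nsmul, hG, add_zero, Nat.add_sub_cancel]

theorem nsmul_injOn (hG' : ∀ j, 0 < j → j < 2 * m + 1 → j • G ≠ 0) (P : A) :
    Set.InjOn (fun j : ℕ => P + j • G) (Finset.range (2 * m + 1) : Finset ℕ) := by
  intro j hj k hk h
  simp only [Finset.coe_range, Set.mem_Iio] at hj hk h
  have h' : j • G = k • G := add_left_cancel h
  rcases lt_trichotomy j k with h2 | h2 | h2
  · exfalso
    apply hG' (k - j) (by omega) (by omega)
    rw [sub_nsmul _ (by omega), h']; abel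
  · exact h2
  · exfalso
    apply hG' (j - k) (by omega) (by omega)
    rw [sub_nsmul _ (by omega), h']; abel

theorem exists_nsmul_of_mem_zmultiples (hG : (2 * m + 1) • G = 0) {Q : A}
    (hQ : Q ∈ AddSubgroup.zmultiples G) : ∃ j, j < 2 * m + 1 ∧ Q = j • G := by
  obtain ⟨n, rfl⟩ := AddSubgroup.mem_zmultiples_iff.mp hQ
  refine ⟨(n % (2 * m + 1 : ℕ)).toNat, ?_, ?_⟩
  · have h1 := Int.emod_nonneg n (show ((2 * m + 1 : ℕ) : ℤ) ≠ 0 by omega)
    have h2 := Int.emod_lt_of_pos n (show (0 : ℤ) < ((2 * m + 1 : ℕ) : ℤ) by omega)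
    omega
  · have h1 := Int.emod_nonneg n (show ((2 * m + 1 : ℕ) : ℤ) ≠ 0 by omega)
    have h3 := Int.emod_add_mul_ediv n ((2 * m + 1 : ℕ) : ℤ)
    rw [← natCast_zsmul, Int.toNat_of_nonneg h1]
    nth_rewrite 1 [← h3]
    rw [add_zsmul, mul_zsmul', natCast_zsmul, hG, smul_zero, add_zero]

/-- a map preserving a coset does not change products over this coset -/
theorem prod_coset_map (hG : (2 * m + 1) • G = 0)
    (hG' : ∀ j, 0 < j → j < 2 * m + 1 → j • G ≠ 0) (P : A) (f : A → A)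
    (hf : Function.Injective f) (hP : ∀ j : ℕ, f (P + j • G) - P ∈ AddSubgroup.zmultiples G)
    (h : A → M) :
    ∏ j ∈ Finset.range (2 * m + 1), h (f (P + j • G)) =
      ∏ j ∈ Finset.range (2 * m + 1), h (P + j • G) := by
  classical
  set T : Finset A := (Finset.range (2 * m + 1)).image (fun j : ℕ => P + j • G) with hT
  have h1 : T.image f = T := by
    apply Finset.eq_of_subset_of_card_le
    · intro Q hQ
      rw [Finset.mem_image] at hQ
      obtain ⟨Q', hQ', rfl⟩ := hQ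
      rw [hT, Finset.mem_image] at hQ'
      obtain ⟨j, -, rfl⟩ := hQ'
      obtain ⟨k, hk, hk'⟩ := exists_nsmul_of_mem_zmultiples hG (hP j)
      rw [hT, Finset.mem_image]
      exact ⟨k, Finset.mem_range.mpr hk, by rw [← hk']; abel⟩
    · rw [Finset.card_image_of_injective _ hf]
  have h2 := Finset.prod_image (f := h) (s := T) (g := f) (fun _ _ _ _ hab => hf hab)
  have h3 := Finset.prod_image (f := h) (s := Finset.range (2 * m + 1))
    (g := fun j : ℕ => P + j • G) (nsmul_injOn hG' P)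
  have h4 := Finset.prod_image (f := fun Q => h (f Q)) (s := Finset.range (2 * m + 1))
    (g := fun j : ℕ => P + j • G) (nsmul_injOn hG' P)
  rw [← h3, ← h4, ← h2, h1]

end Perm

section Poly

variable {F : Type*} [Field F] [DecidableEq F] {V : WeierstrassCurve F} (e : Fin 3 → F)
  (G : V.toAffine.Point) (m : ℕ)

/-- `Z = ∏ (X - x(jG))` -/
noncomputable def vZ : F[X] := ∏ j ∈ Finset.Icc 1 m, (X - C (xc (j • G)))

/-- `D_i = ∏ (x(jG) - e_i)` -/
noncomputable def vD (i : Fin 3) : F := ∏ j ∈ Finset.Icc 1 m, (xc (j • G) - e i)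

/-- `R_i = (X - e_i) ∏ (X - x(jG + T_i))²` -/
noncomputable def vR (i : Fin 3) : F[X] := (X - C (e i)) * ∏ j ∈ Finset.Icc 1 m,
  (X - C (e i + (e i - e (i + 1)) * (e i - e (i + 2)) / (xc (j • G) - e i))) ^ 2

/-- `ρ_i(P) = D_i⁻² ∏ (x(P + n) - e_i)` -/
noncomputable def vρ (i : Fin 3) (P : V.toAffine.Point) : F :=
  (∏ j ∈ Finset.range (2 * m + 1), (xc (P + j • G) - e i)) / vD e G m i ^ 2

theorem vZ_monic : (vZ G m).Monic := monic_prod_of_monic _ _ fun _ _ => monic_X_sub_C _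

theorem vZ_natDegree : (vZ G m).natDegree = m := by
  rw [vZ, natDegree_prod_of_monic _ _ fun _ _ => monic_X_sub_C _]
  simp

theorem vR_monic (i : Fin 3) : (vR e G m i).Monic :=
  (monic_X_sub_C _).mul (monic_prod_of_monic _ _ fun _ _ => (monic_X_sub_C _).pow 2)

theorem vR_natDegree (i : Fin 3) : (vR e G m i).natDegree = 2 * m + 1 := by
  rw [vR, (monic_X_sub_C _).natDegree_mul
    (monic_prod_of_monic _ _ fun _ _ => (monic_X_sub_C _).pow 2),
    natDegree_prod_of_monic _ _ fun _ _ => (monic_X_sub_C _).pow 2]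
  simp only [natDegree_X_sub_C, (monic_X_sub_C _).natDegree_pow]
  simp
  ring

variable {e G m}
variable (hV : IsLeg V e) (hG : (2 * m + 1) • G = 0)
  (hG' : ∀ j, 0 < j → j < 2 * m + 1 → j • G ≠ 0)

include hV hG hG'

theorem xi_ne {j : ℕ} (hj : 0 < j) (hj' : j < 2 * m + 1) (i : Fin 3) : xc (j • G) - e i ≠ 0 :=
  sub_ne_zero.mpr (hV.xc_ne_of_odd (hG' j hj hj') (n := 2 * m + 1) ⟨m, rfl⟩
    (by rw [smul_comm, hG, smul_zero]) i)

theorem vD_ne (i : Fin 3) : vD e G m i ≠ 0 :=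
  Finset.prod_ne_zero_iff.mpr fun j hj => by
    rw [Finset.mem_Icc] at hj
    exact xi_ne hV hG hG' (by omega) (by omega) i

theorem vR_eval (i : Fin 3) (x : F) : (vR e G m i).eval x * vD e G m i ^ 2 =
    (x - e i) * ∏ j ∈ Finset.Icc 1 m,
        ((x - e i) * (xc (j • G) - e i) - (e i - e (i + 1)) * (e i - e (i + 2))) ^ 2 := by
  rw [vR, vD, eval_mul, eval_prod, ← Finset.prod_pow, mul_assoc, ← Finset.prod_mul_distrib]
  congr 1
  · simp
  refine Finset.prod_congr rfl fun j hj => ?_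
  rw [Finset.mem_Icc] at hj
  have h1 := xi_ne hV hG hG' (j := j) (by omega) (by omega) i
  rw [eval_pow, ← mul_pow]
  congr 1
  simp only [eval_sub, eval_X, eval_C]
  field_simp
  ring

/-- Theorem A: the fibre polynomial. -/
theorem prod_fibre {P : V.toAffine.Point} (hP : ∀ j : ℕ, P + j • G ≠ 0)
    (hP2 : ∀ j : ℕ, P + P + j • G ≠ 0) (i : Fin 3) :
    ∏ j ∈ Finset.range (2 * m + 1), (X - C (xc (P + j • G))) =
      vR e G m i - C (vρ e G m i P) * vZ G m ^ 2 := by
  have hinj : Set.InjOn (fun j : ℕ => xc (P + j • G)) (Finset.range (2 * m + 1) : Finset ℕ) := by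
    intro j hj k hk h
    rcases hV.eq_or_eq_neg (hP j) (hP k) h with h1 | h1
    · exact nsmul_injOn hG' P hj hk h1
    · exfalso
      apply hP2 (j + k)
      have : P + P + (j + k) • G = (P + j • G) + (P + k • G) := by rw [add_nsmul]; abel
      rw [this, h1]; abel
  have hdR := vR_natDegree e G m i
  have hdZ : (vZ G m ^ 2).natDegree = 2 * m := by
    rw [(vZ_monic G m).natDegree_pow, vZ_natDegree]
  have hmon : (vR e G m i - C (vρ e G m i P) * vZ G m ^ 2).Monic := by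
    apply (vR_monic e G m i).sub_of_left
    apply lt_of_le_of_lt (degree_mul_le _ _)
    rw [degree_eq_natDegree (vR_monic e G m i).ne_zero, hdR,
      degree_eq_natDegree ((vZ_monic G m).pow 2).ne_zero, hdZ]
    have := degree_C_le (a := vρ e G m i P)
    calc _ ≤ (0 : WithBot ℕ) + ((2 * m : ℕ) : WithBot ℕ) := by gcongr
      _ < _ := by rw [zero_add]; exact_mod_cast Nat.lt_succ_self _
  have hdeg : (vR e G m i - C (vρ e G m i P) * vZ G m ^ 2).natDegree = 2 * m + 1 := by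
    rw [natDegree_sub_eq_left_of_natDegree_lt, hdR]
    rw [hdR]
    apply lt_of_le_of_lt natDegree_mul_le
    rw [natDegree_C, hdZ]
    omega
  have hmon' : (∏ j ∈ Finset.range (2 * m + 1), (X - C (xc (P + j • G)))).Monic :=
    monic_prod_of_monic _ _ fun _ _ => monic_X_sub_C _
  have hdeg' : (∏ j ∈ Finset.range (2 * m + 1), (X - C (xc (P + j • G)))).natDegree =
      2 * m + 1 := by
    rw [natDegree_prod_of_monic _ _ fun _ _ => monic_X_sub_C _]
    simp
  apply Polynomial.eq_of_degree_sub_lt_of_eval_index_eq (s := Finset.range (2 * m + 1))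
    (v := fun j : ℕ => xc (P + j • G)) hinj
  · rw [Finset.card_range]
    have := degree_sub_lt_left (p := ∏ j ∈ Finset.range (2 * m + 1), (X - C (xc (P + j • G))))
      (q := vR e G m i - C (vρ e G m i P) * vZ G m ^ 2)
      (by rw [degree_eq_natDegree hmon'.ne_zero, degree_eq_natDegree hmon.ne_zero, hdeg, hdeg'])
      hmon'.ne_zero (by rw [hmon.leadingCoeff, hmon'.leadingCoeff])
    rwa [degree_eq_natDegree hmon'.ne_zero, hdeg'] at this
  · intro k hk
    have h0 : (∏ j ∈ Finset.range (2 * m + 1), (X - C (xc (P + j • G)))).eval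
        (xc (P + k • G)) = 0 := by
      rw [eval_prod]
      exact Finset.prod_eq_zero hk (by simp)
    rw [h0, eval_sub, eval_mul, eval_C, eval_pow]
    have hD := vD_ne hV hG hG' i
    have hne : ∀ j ∈ Finset.Icc 1 m, xc (P + k • G) ≠ xc (j • G) := by
      intro j hj h
      rw [Finset.mem_Icc] at hj
      rcases hV.eq_or_eq_neg (hP k) (hG' j (by omega) (by omega)) h with h1 | h1
      · apply hP (k + (2 * m + 1 - j))
        rw [add_nsmul, ← add_assoc, h1, nsmul_sub_eq_neg hG (by omega)]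
        abel
      · apply hP (k + j)
        rw [add_nsmul, ← add_assoc, h1]; abel
    have h1 := hV.prod_formula hG hG' (hP k) hne i
    have h2 := prod_periodic hG (fun Q => xc Q - e i) P k
    rw [h2, ← vR_eval hV hG hG', Finset.prod_pow] at h1
    have h3 : (vZ G m).eval (xc (P + k • G)) =
        ∏ j ∈ Finset.Icc 1 m, (xc (P + k • G) - xc (j • G)) := by
      rw [vZ, eval_prod]; simp
    rw [h3, vρ, eq_comm, sub_eq_zero, div_mul_eq_mul_div, eq_div_iff (pow_ne_zero 2 hD)]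
    exact h1.symm

omit hV hG hG' in
theorem vZ_eval (x : F) : (vZ G m).eval x = ∏ j ∈ Finset.Icc 1 m, (x - xc (j • G)) := by
  rw [vZ, eval_prod]; simp

omit hV hG hG' in
theorem vZ_eval_sq (i : Fin 3) : (vZ G m).eval (e i) ^ 2 = vD e G m i ^ 2 := by
  rw [vZ_eval, vD, ← Finset.prod_pow, ← Finset.prod_pow]
  exact Finset.prod_congr rfl fun j _ => by ring

omit hV hG hG' in
theorem prod_const_mul (a : F) (f : ℕ → F) :
    ∏ j ∈ Finset.Icc 1 m, (a * f j) ^ 2 = a ^ (2 * m) * ∏ j ∈ Finset.Icc 1 m, f j ^ 2 := by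
  simp only [mul_pow]
  rw [Finset.prod_mul_distrib, Finset.prod_const, Nat.card_Icc, Nat.add_sub_cancel, pow_mul]

theorem vR_eval₁ (i : Fin 3) : (vR e G m i).eval (e (i + 1)) * vD e G m i ^ 2 =
    (e (i + 1) - e i) ^ (2 * m + 1) * vD e G m (i + 2) ^ 2 := by
  rw [vR_eval hV hG hG']
  have : ∀ j : ℕ, ((e (i + 1) - e i) * (xc (j • G) - e i) - (e i - e (i + 1)) * (e i - e (i + 2))) =
    (e (i + 1) - e i) * (xc (j • G) - e (i + 2)) := by intro j; ring
  simp only [this]
  rw [prod_const_mul, vD, ← Finset.prod_pow]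
  ring

theorem vR_eval₂ (i : Fin 3) : (vR e G m i).eval (e (i + 2)) * vD e G m i ^ 2 =
    (e (i + 2) - e i) ^ (2 * m + 1) * vD e G m (i + 1) ^ 2 := by
  rw [vR_eval hV hG hG']
  have : ∀ j : ℕ, ((e (i + 2) - e i) * (xc (j • G) - e i) - (e i - e (i + 1)) * (e i - e (i + 2))) =
    (e (i + 2) - e i) * (xc (j • G) - e (i + 1)) := by intro j; ring
  simp only [this]
  rw [prod_const_mul, vD, ← Finset.prod_pow]
  ring

theorem vR_eval_γ (i : Fin 3) {γ : F} (hγ : γ ^ 2 = (e i - e (i + 1)) * (e i - e (i + 2))) :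
    (vR e G m i).eval (e i + γ) * vD e G m i ^ 2 =
      γ ^ (2 * m + 1) * (vZ G m).eval (e i + γ) ^ 2 := by
  rw [vR_eval hV hG hG', ← hγ]
  have : ∀ j : ℕ, ((e i + γ - e i) * (xc (j • G) - e i) - γ ^ 2) =
    (-γ) * (e i + γ - xc (j • G)) := by intro j; ring
  simp only [this]
  rw [prod_const_mul, vZ_eval, ← Finset.prod_pow, Even.neg_pow ⟨m, by ring⟩]
  ring

section Fibre

variable {S : V.toAffine.Point} (hS : ∀ j : ℕ, S + j • G ≠ 0)
    (hS2 : ∀ j : ℕ, S + S + j • G ≠ 0)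

include hS hS2

theorem vρ_sub (i j : Fin 3) : vR e G m i - vR e G m j =
    C (vρ e G m i S - vρ e G m j S) * vZ G m ^ 2 := by
  have h1 := prod_fibre hV hG hG' hS hS2 i
  have h2 := prod_fibre hV hG hG' hS hS2 j
  rw [C_sub]
  linear_combination h2 - h1

theorem vρ_sub₁ (i : Fin 3) : (vρ e G m i S - vρ e G m (i + 1) S) *
      (vD e G m (i + 1) ^ 2 * vD e G m i ^ 2) =
    (e (i + 1) - e i) ^ (2 * m + 1) * vD e G m (i + 2) ^ 2 := by
  have h1 := congrArg (fun q => q.eval (e (i + 1))) (vρ_sub hV hG hG' hS hS2 i (i + 1))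
  simp only [eval_sub, eval_mul, eval_C, eval_pow] at h1
  have h2 : (vR e G m (i + 1)).eval (e (i + 1)) = 0 := by
    rw [vR]; simp
  rw [vZ_eval_sq, h2, sub_zero] at h1
  rw [← vR_eval₁ hV hG hG', h1]
  ring

theorem vρ_sub₂ (i : Fin 3) : (vρ e G m i S - vρ e G m (i + 2) S) *
      (vD e G m (i + 2) ^ 2 * vD e G m i ^ 2) =
    (e (i + 2) - e i) ^ (2 * m + 1) * vD e G m (i + 1) ^ 2 := by
  have h1 := congrArg (fun q => q.eval (e (i + 2))) (vρ_sub hV hG hG' hS hS2 i (i + 2))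
  simp only [eval_sub, eval_mul, eval_C, eval_pow] at h1
  have h2 : (vR e G m (i + 2)).eval (e (i + 2)) = 0 := by
    rw [vR]; simp
  rw [vZ_eval_sq, h2, sub_zero] at h1
  rw [← vR_eval₂ hV hG hG', h1]
  ring

theorem c'_eq (i : Fin 3) : (vρ e G m i S - vρ e G m (i + 1) S) *
    (vρ e G m i S - vρ e G m (i + 2) S) * vD e G m i ^ 4 =
      ((e i - e (i + 1)) * (e i - e (i + 2))) ^ (2 * m + 1) := by
  have h1 := vρ_sub₁ hV hG hG' hS hS2 i
  have h2 := vρ_sub₂ hV hG hG' hS hS2 i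
  have d1 := vD_ne hV hG hG' (i + 1)
  have d2 := vD_ne hV hG hG' (i + 2)
  have h3 : (e i - e (i + 1)) * (e i - e (i + 2)) = (e (i + 1) - e i) * (e (i + 2) - e i) := by ring
  rw [h3, mul_pow]
  apply mul_left_cancel₀ (mul_ne_zero (pow_ne_zero 2 d1) (pow_ne_zero 2 d2))
  linear_combination ((vρ e G m i S - vρ e G m (i + 2) S) *
      (vD e G m (i + 2) ^ 2 * vD e G m i ^ 2)) * h1 +
      ((e (i + 1) - e i) ^ (2 * m + 1) * vD e G m (i + 2) ^ 2) * h2

theorem prod_γ (i : Fin 3) {γ : F} (hγ : γ ^ 2 = (e i - e (i + 1)) * (e i - e (i + 2))) :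
    (∏ j ∈ Finset.range (2 * m + 1), (xc (S + j • G) - e i - γ)) * vD e G m i ^ 2 =
      (vZ G m).eval (e i + γ) ^ 2 * (vρ e G m i S * vD e G m i ^ 2 - γ ^ (2 * m + 1)) := by
  have h1 := congrArg (fun q => q.eval (e i + γ)) (prod_fibre hV hG hG' hS hS2 i)
  simp only [eval_sub, eval_mul, eval_C, eval_pow, eval_prod, eval_X] at h1
  have h2 : ∏ j ∈ Finset.range (2 * m + 1), (e i + γ - xc (S + j • G)) =
      - ∏ j ∈ Finset.range (2 * m + 1), (xc (S + j • G) - e i - γ) := by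
    have : ∀ j : ℕ, e i + γ - xc (S + j • G) = (-1) * (xc (S + j • G) - e i - γ) := by
      intro j; ring
    simp only [this]
    rw [Finset.prod_mul_distrib, Finset.prod_const, Finset.card_range, Odd.neg_one_pow ⟨m, rfl⟩]
    ring
  rw [h2] at h1
  have h3 := vR_eval_γ hV hG hG' i hγ
  linear_combination (-vD e G m i ^ 2) * h1 - h3

omit hS hS2 in
theorem prod_num_sq (h2 : (2 : F) ≠ 0) (i : Fin 3) :
    ∏ j ∈ Finset.Icc 1 m, ((xc (j • G) - e i) ^ 2 - (e i - e (i + 1)) * (e i - e (i + 2))) ^ 2 =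
      4 ^ m * (vD e G m 0 * vD e G m 1 * vD e G m 2) * vD e G m i := by
  have h1 : ∀ j ∈ Finset.Icc 1 m,
      ((xc (j • G) - e i) ^ 2 - (e i - e (i + 1)) * (e i - e (i + 2))) ^ 2 =
      4 * ((xc (j • G) - e 0) * (xc (j • G) - e 1) * (xc (j • G) - e 2)) *
        (xc ((2 * j) • G) - e i) := by
    intro j hj
    rw [Finset.mem_Icc] at hj
    have hj0 := hG' j (by omega) (by omega)
    have hy := hV.yc_ne_zero_of_odd hj0 (n := 2 * m + 1) ⟨m, rfl⟩
      (by rw [smul_comm, hG, smul_zero])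
    obtain ⟨-, h3, -⟩ := hV.add_self h2 hj0 hy
    have h4 := h3 i
    rw [← hV.equation hj0, mul_smul, two_nsmul, h4, wf]
    field_simp
    ring
  rw [Finset.prod_congr rfl h1, Finset.prod_mul_distrib, Finset.prod_mul_distrib,
    Finset.prod_const, Nat.card_Icc, Nat.add_sub_cancel, Finset.prod_mul_distrib,
    Finset.prod_mul_distrib]
  congr 1
  rw [prod_Icc_double m (fun j => xc (j • G) - e i)]
  · rfl
  · intro j hj
    rw [nsmul_sub_eq_neg hG hj, xc_neg]

/-- The norm of the duplication numerator. -/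
theorem prod_num (h2 : (2 : F) ≠ 0) (i : Fin 3)
    (hγ : IsSquare ((e i - e (i + 1)) * (e i - e (i + 2)))) :
    ∏ j ∈ Finset.range (2 * m + 1),
      ((xc (S + j • G) - e i) ^ 2 - (e i - e (i + 1)) * (e i - e (i + 2))) =
    4 ^ m * (vD e G m 0 * vD e G m 1 * vD e G m 2) * vD e G m i *
      (vρ e G m i S * vρ e G m (i + 1) S + vρ e G m i S * vρ e G m (i + 2) S -
        vρ e G m (i + 1) S * vρ e G m (i + 2) S) := by
  obtain ⟨γ, hγ'⟩ := hγ
  have hγ : γ ^ 2 = (e i - e (i + 1)) * (e i - e (i + 2)) := by rw [hγ']; ring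
  have hγn : (-γ) ^ 2 = (e i - e (i + 1)) * (e i - e (i + 2)) := by rw [hγ']; ring
  have h3 := prod_γ hV hG hG' hS hS2 i hγ
  have h4 := prod_γ hV hG hG' hS hS2 i hγn
  have h5 : ∏ j ∈ Finset.range (2 * m + 1),
      ((xc (S + j • G) - e i) ^ 2 - (e i - e (i + 1)) * (e i - e (i + 2))) =
      (∏ j ∈ Finset.range (2 * m + 1), (xc (S + j • G) - e i - γ)) *
        ∏ j ∈ Finset.range (2 * m + 1), (xc (S + j • G) - e i - -γ) := by
    rw [← Finset.prod_mul_distrib]
    refine Finset.prod_congr rfl fun j _ => ?_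
    rw [← hγ]; ring
  have h6 : ((vZ G m).eval (e i + γ) * (vZ G m).eval (e i + -γ)) ^ 2 =
      4 ^ m * (vD e G m 0 * vD e G m 1 * vD e G m 2) * vD e G m i := by
    rw [← prod_num_sq hV hG hG' h2, vZ_eval, vZ_eval, ← Finset.prod_mul_distrib,
      ← Finset.prod_pow]
    refine Finset.prod_congr rfl fun j _ => ?_
    rw [← hγ]; ring
  have h7 := c'_eq hV hG hG' hS hS2 i
  rw [← hγ, ← pow_mul] at h7
  have hD := pow_ne_zero 4 (vD_ne hV hG hG' i)
  rw [h5, ← h6]
  apply mul_left_cancel₀ hD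
  rw [Odd.neg_pow ⟨m, rfl⟩] at h4
  linear_combination ((∏ j ∈ Finset.range (2 * m + 1), (xc (S + j • G) - e i - -γ)) *
      vD e G m i ^ 2) * h3 +
    ((vZ G m).eval (e i + γ) ^ 2 * (vρ e G m i S * vD e G m i ^ 2 - γ ^ (2 * m + 1))) * h4
    + ((vZ G m).eval (e i + γ) * (vZ G m).eval (e i + -γ)) ^ 2 * h7

end Fibre

section U

variable (e G m) in
/-- `U_i(S) = D_i⁻¹ ∏ wf_i(S + n)`, a square root of `X - e'_i` at `φ(2S)`. -/
noncomputable def vU (i : Fin 3) (S : V.toAffine.Point) : F :=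
  (∏ j ∈ Finset.range (2 * m + 1), wf e i (xc (S + j • G)) (yc (S + j • G))) / vD e G m i

variable {S : V.toAffine.Point} (hS2 : ∀ j : ℕ, S + S + j • G ≠ 0)

include hS2

omit hV hG hG' in
theorem ne_zero_of_double (j : ℕ) : S + j • G ≠ 0 := by
  intro h
  apply hS2 (j + j)
  have : S + S + (j + j) • G = (S + j • G) + (S + j • G) := by rw [add_nsmul]; abel
  rw [this, h, add_zero]

omit hG hG' in
theorem yc_ne_zero_of_double (j : ℕ) : yc (S + j • G) ≠ 0 := by
  intro hy
  have h1 := ne_zero_of_double hS2 j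
  obtain ⟨h, E⟩ := exists_some h1
  have h2 : -(S + j • G) = S + j • G := by
    rw [E, Point.neg_some, Point.some.injEq]
    exact ⟨rfl, by rw [hV.negY, hy, _root_.neg_zero]⟩
  apply hS2 (j + j)
  have : S + S + (j + j) • G = (S + j • G) + (S + j • G) := by rw [add_nsmul]; abel
  rw [this]
  nth_rewrite 1 [← h2]
  exact neg_add_cancel _

omit hG hG' in
theorem xc_ne_of_double (j : ℕ) (i : Fin 3) : xc (S + j • G) - e i ≠ 0 := by
  intro hx
  apply yc_ne_zero_of_double hV hS2 j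
  have h := hV.equation (ne_zero_of_double hS2 j)
  have h' : yc (S + j • G) ^ 2 = (xc (S + j • G) - e i) * (xc (S + j • G) - e (i + 1)) *
      (xc (S + j • G) - e (i + 2)) := by
    rw [h]
    linear_combination -xc (S + j • G) ^ 2 * sum_rot e i + xc (S + j • G) * sum₂_rot e i -
      prod_rot e i
  rw [hx, zero_mul, zero_mul] at h'
  exact pow_eq_zero_iff two_ne_zero |>.mp h'

theorem vρ_ne (i : Fin 3) : vρ e G m i S ≠ 0 :=
  div_ne_zero (Finset.prod_ne_zero_iff.mpr fun j _ => xc_ne_of_double hV hS2 j i)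
    (pow_ne_zero 2 (vD_ne hV hG hG' i))

theorem prod_double (h2 : (2 : F) ≠ 0) (i : Fin 3) :
    ∏ j ∈ Finset.range (2 * m + 1), (xc (S + S + j • G) - e i) =
      (∏ j ∈ Finset.range (2 * m + 1), wf e i (xc (S + j • G)) (yc (S + j • G))) ^ 2 := by
  rw [← prod_range_double hG (fun Q => xc Q - e i) (S + S), ← Finset.prod_pow]
  refine Finset.prod_congr rfl fun j _ => ?_
  have h1 : S + S + (2 * j) • G = (S + j • G) + (S + j • G) := by
    rw [two_mul, add_nsmul]; abel
  rw [h1]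
  exact (hV.add_self h2 (ne_zero_of_double hS2 j) (yc_ne_zero_of_double hV hS2 j)).2.1 i

theorem prod_double_y (h2 : (2 : F) ≠ 0) :
    ∏ j ∈ Finset.range (2 * m + 1), yc (S + S + j • G) =
      (∏ j ∈ Finset.range (2 * m + 1), wf e 0 (xc (S + j • G)) (yc (S + j • G))) *
      (∏ j ∈ Finset.range (2 * m + 1), wf e 1 (xc (S + j • G)) (yc (S + j • G))) *
      (∏ j ∈ Finset.range (2 * m + 1), wf e 2 (xc (S + j • G)) (yc (S + j • G))) := by
  rw [← prod_range_double hG (fun Q => yc Q) (S + S), ← Finset.prod_mul_distrib,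
    ← Finset.prod_mul_distrib]
  refine Finset.prod_congr rfl fun j _ => ?_
  have h1 : S + S + (2 * j) • G = (S + j • G) + (S + j • G) := by
    rw [two_mul, add_nsmul]; abel
  rw [h1]
  exact (hV.add_self h2 (ne_zero_of_double hS2 j) (yc_ne_zero_of_double hV hS2 j)).2.2

theorem vρ_double (h2 : (2 : F) ≠ 0) (i : Fin 3) :
    vρ e G m i (S + S) = vU e G m i S ^ 2 := by
  rw [vρ, prod_double hV hG hG' hS2 h2, vU, div_pow]

theorem vU_ne (h2 : (2 : F) ≠ 0) (hS4 : ∀ j : ℕ, (S + S) + (S + S) + j • G ≠ 0) (i : Fin 3) :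
    vU e G m i S ≠ 0 := by
  intro h
  apply vρ_ne hV hG hG' hS4 i
  rw [vρ_double hV hG hG' hS2 h2, h]
  ring

/-- `2 Y(S) U_i(S) = …` -/
theorem vU_eq (h2 : (2 : F) ≠ 0) (i : Fin 3)
    (hγ : IsSquare ((e i - e (i + 1)) * (e i - e (i + 2)))) :
    2 * (∏ j ∈ Finset.range (2 * m + 1), yc (S + j • G)) * vU e G m i S =
      (vD e G m 0 * vD e G m 1 * vD e G m 2) *
      (vρ e G m i S * vρ e G m (i + 1) S + vρ e G m i S * vρ e G m (i + 2) S -
        vρ e G m (i + 1) S * vρ e G m (i + 2) S) := by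
  have h3 := prod_num hV hG hG' (ne_zero_of_double hS2) hS2 h2 i hγ
  have h4 : ∏ j ∈ Finset.range (2 * m + 1),
      ((xc (S + j • G) - e i) ^ 2 - (e i - e (i + 1)) * (e i - e (i + 2))) =
      2 ^ (2 * m + 1) * (∏ j ∈ Finset.range (2 * m + 1), yc (S + j • G)) *
        ∏ j ∈ Finset.range (2 * m + 1), wf e i (xc (S + j • G)) (yc (S + j • G)) := by
    have : (2 : F) ^ (2 * m + 1) = ∏ j ∈ Finset.range (2 * m + 1), (2 : F) := by
      rw [Finset.prod_const, Finset.card_range]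
    rw [this, ← Finset.prod_mul_distrib, ← Finset.prod_mul_distrib]
    refine Finset.prod_congr rfl fun j _ => ?_
    have hy := yc_ne_zero_of_double hV hS2 j
    rw [wf]
    field_simp
    ring
  have hD := vD_ne hV hG hG' i
  rw [h4] at h3
  rw [vU]
  have h5 : (2 : F) ^ (2 * m + 1) = 2 * 4 ^ m := by
    rw [pow_succ, pow_mul]; norm_num [mul_comm]
  rw [h5] at h3
  have h6 : (4 : F) ^ m ≠ 0 := by
    have : (4 : F) = 2 ^ 2 := by norm_num
    rw [this]; exact pow_ne_zero _ (pow_ne_zero _ h2)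
  apply mul_left_cancel₀ h6
  rw [← mul_div_assoc, ← mul_div_assoc, div_eq_iff hD]
  linear_combination h3

/-- the relation between `U_i` at `S` and at `2S` -/
theorem vU_rel (h2 : (2 : F) ≠ 0) (hS4 : ∀ j : ℕ, (S + S) + (S + S) + j • G ≠ 0)
    (hγ : ∀ i, IsSquare ((e i - e (i + 1)) * (e i - e (i + 2)))) (i : Fin 3) :
    vU e G m i (S + S) + vU e G m (i + 1) (S + S) =
      vU e G m i S * vU e G m (i + 1) S / vU e G m (i + 2) S := by
  have h3 := vU_eq hV hG hG' hS4 h2 i (hγ i)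
  have h4 := vU_eq hV hG hG' hS4 h2 (i + 1) (hγ (i + 1))
  have r1 : i + 1 + 1 = i + 2 := by rw [add_assoc]; rfl
  have r2 : i + 1 + 2 = i := by rw [add_assoc]; exact add_zero i
  rw [r1, r2] at h4
  rw [prod_double_y hV hG hG' hS2 h2] at h3 h4
  simp only [vρ_double hV hG hG' hS2 h2] at h3 h4
  have hD0 := vD_ne hV hG hG' 0
  have hD1 := vD_ne hV hG hG' 1
  have hD2 := vD_ne hV hG hG' 2
  have hUv : ∀ i, ∏ j ∈ Finset.range (2 * m + 1), wf e i (xc (S + j • G)) (yc (S + j • G)) =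
      vU e G m i S * vD e G m i := by
    intro i
    rw [vU, div_mul_cancel₀ _ (vD_ne hV hG hG' i)]
  rw [hUv, hUv, hUv] at h3 h4
  have hU : ∀ i, vU e G m i S ≠ 0 := vU_ne hV hG hG' hS2 h2 hS4
  have hprod : vU e G m 0 S * vU e G m 1 S * vU e G m 2 S =
      vU e G m i S * vU e G m (i + 1) S * vU e G m (i + 2) S :=
    prod_rot (fun i => vU e G m i S) i
  rw [eq_div_iff (hU _)]
  apply mul_left_cancel₀ (mul_ne_zero (mul_ne_zero (mul_ne_zero h2 (mul_ne_zero (mul_ne_zero hD0 hD1) hD2))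
    (hU i)) (hU (i + 1)))
  linear_combination h3 + h4 - (2 * (vD e G m 0 * vD e G m 1 * vD e G m 2) *
    (vU e G m i (S + S) + vU e G m (i + 1) (S + S))) * hprod

end U

end Poly

end Fermat.Agent.Descent
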